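/-
S25lib / Curve / Connected  (helper8)  --  Project L (S25), curve inputs (CI4)

A non-empty scheme whose ring of global functions has no non-trivial idempotents is connected.
-/
import Mathlib

set_option autoImplicit false

noncomputable section

namespace Fermat.Agent.S25lib.Curve

open AlgebraicGeometry CategoryTheory TopologicalSpace Opposite

universe u

/-- **a non-empty scheme whose global functions have only the trivial idempotents is connected** -/
theorem connectedSpace_of_forall_idempotent (X : Scheme.{u}) [Nonempty X]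
    (h : ∀ e : Γ(X, ⊤), IsIdempotentElem e → e = 0 ∨ e = 1) : ConnectedSpace X := by
  have hpre : PreconnectedSpace X := by
    rw [preconnectedSpace_iff_clopen]
    intro s hs
    by_contra hne
    push Not at hne
    obtain ⟨hs0, hs1⟩ := hne
    let U : X.Opens := ⟨s, hs.isOpen⟩
    let V : X.Opens := ⟨sᶜ, hs.compl.isOpen⟩
    have hUV : (⊤ : X.Opens) ≤ U ⊔ V := by
      intro y _
      by_cases hy : y ∈ s
      · exact Opens.mem_sup.mpr (Or.inl hy)
      · exact Opens.mem_sup.mpr (Or.inr hy)
    have hinf : U ⊓ V = ⊥ := by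
      ext y
      simp only [Opens.coe_inf, Opens.coe_bot, Set.mem_inter_iff, Set.mem_empty_iff_false,
        iff_false, not_and]
      intro hy hy'
      exact hy' hy
    have hsub : Subsingleton Γ(X, U ⊓ V) := by
      rw [hinf]
      infer_instance
    have hU : Nonempty U := by
      obtain ⟨y, hy⟩ := hs0
      exact ⟨⟨y, hy⟩⟩
    have hV : Nonempty V := by
      have : (sᶜ : Set X).Nonempty := by
        rw [Set.nonempty_compl]
        exact hs1
      obtain ⟨y, hy⟩ := this
      exact ⟨⟨y, hy⟩⟩
    -- the section `(1, 0)`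
    let x : RingHom.eqLocus
        (RingHom.comp (X.sheaf.obj.map (homOfLE inf_le_left : U ⊓ V ⟶ U).op).hom
          (RingHom.fst (X.sheaf.obj.obj <| op U) (X.sheaf.obj.obj <| op V)))
        (RingHom.comp (X.sheaf.obj.map (homOfLE inf_le_right : U ⊓ V ⟶ V).op).hom
          (RingHom.snd (X.sheaf.obj.obj <| op U) (X.sheaf.obj.obj <| op V))) :=
      ⟨((1 : Γ(X, U)), (0 : Γ(X, V))), Subsingleton.elim (α := Γ(X, U ⊓ V)) _ _⟩
    have hx : IsIdempotentElem x := by
      apply Subtype.ext
      show ((1 : Γ(X, U)), (0 : Γ(X, V))) * ((1 : Γ(X, U)), (0 : Γ(X, V))) =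
        ((1 : Γ(X, U)), (0 : Γ(X, V)))
      simp
    let e' : Γ(X, U ⊔ V) := (X.sheaf.objSupIsoProdEqLocus U V).inv x
    have he' : IsIdempotentElem e' := hx.map (X.sheaf.objSupIsoProdEqLocus U V).inv.hom
    let e : Γ(X, ⊤) := X.presheaf.map (homOfLE hUV).op e'
    have he : IsIdempotentElem e := he'.map (X.presheaf.map (homOfLE hUV).op).hom
    have heU : X.presheaf.map (homOfLE (le_top : U ≤ ⊤)).op e = 1 := by
      have h1 := X.sheaf.objSupIsoProdEqLocus_inv_fst U V x
      have h2 : X.presheaf.map (homOfLE (le_top : U ≤ ⊤)).op e =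
          X.presheaf.map (homOfLE (le_sup_left : U ≤ U ⊔ V)).op e' := by
        show (X.presheaf.map (homOfLE hUV).op ≫ X.presheaf.map (homOfLE (le_top : U ≤ ⊤)).op) e' = _
        rw [← Functor.map_comp]
        rfl
      rw [h2]
      exact h1
    have heV : X.presheaf.map (homOfLE (le_top : V ≤ ⊤)).op e = 0 := by
      have h1 := X.sheaf.objSupIsoProdEqLocus_inv_snd U V x
      have h2 : X.presheaf.map (homOfLE (le_top : V ≤ ⊤)).op e =
          X.presheaf.map (homOfLE (le_sup_right : V ≤ U ⊔ V)).op e' := by
        show (X.presheaf.map (homOfLE hUV).op ≫ X.presheaf.map (homOfLE (le_top : V ≤ ⊤)).op) e' = _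
        rw [← Functor.map_comp]
        rfl
      rw [h2]
      exact h1
    rcases h e he with h0 | h1
    · rw [h0, map_zero] at heU
      exact zero_ne_one heU
    · rw [h1, map_one] at heV
      exact one_ne_zero heV
  exact { toPreconnectedSpace := hpre, toNonempty := inferInstance }

end Fermat.Agent.S25lib.Curve
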