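/-
S25lib / Curve / Puncture  (helper8)  --  Project L (S25), curve inputs (CI1)–(CI2)

`c : C ⟶ Spec k` a proper integral curve, smooth of relative dimension one over `k = k̄`, and a
`k`-point `ε` with underlying point `e`.
* the hypotheses `hreg`, `htr` of `S26lib/{Aff,CurvePlace,CechRR}` and the DVR point `Pe` of `e`;
* a rational function `a` whose only pole is `e` (`exists_pole_only_at`), its chart pair;
* `C ∖ {e}` is affine and its ring of sections is a finite free module over `k[a]`.
-/
import Mathlib
import Fermat.Agent.S25lib.Curve.Basic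
import Fermat.Agent.S26lib.Aff.Chart
import Fermat.Agent.S26lib.Aff.Riemann
import Fermat.Agent.S26lib.Prod.KPoints

set_option autoImplicit false

noncomputable section

namespace Fermat.Agent.S25lib.Curve

open AlgebraicGeometry CategoryTheory TopologicalSpace Polynomial
  Fermat.Agent.S26lib Fermat.Agent.S26lib.Weil Fermat.Agent.S26lib.Aff
  Fermat.Agent.S26lib.CurvePlace Fermat.Agent.S26lib.Quad

universe u

section Inst

variable {k : Type u} [Field k] {C : Scheme.{u}} (c : C ⟶ Spec (CommRingCat.of k))

theorem smooth [SmoothOfRelativeDimension 1 c] : Smooth c := SmoothOfRelativeDimension.smooth 1 c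

theorem isLocallyNoetherian [LocallyOfFiniteType c] : IsLocallyNoetherian C :=
  LocallyOfFiniteType.isLocallyNoetherian c

theorem compactSpace [QuasiCompact c] : CompactSpace C :=
  QuasiCompact.compactSpace_of_compactSpace c

theorem quasiSeparatedSpace [QuasiSeparated c] : QuasiSeparatedSpace C :=
  quasiSeparatedSpace_of_quasiSeparated c

/-- `htr` -/
theorem htr [SmoothOfRelativeDimension 1 c] [IsIntegral C] :
    letI := kAlgebraFF c; Algebra.trdeg k C.functionField = 1 := trdeg_functionField c

/-- `hreg` -/
theorem hreg [IsAlgClosed k] [SmoothOfRelativeDimension 1 c] [IsIntegral C] (x : C) :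
    x = genericPoint C ∨ IsDiscreteValuationRing (C.presheaf.stalk x) :=
  haveI := smooth c
  isDiscreteValuationRing_stalk c (htr c) x

end Inst

section Point

variable {k : Type u} [Field k] [IsAlgClosed k] {C : Scheme.{u}}
  (c : C ⟶ Spec (CommRingCat.of k)) [IsProper c] [SmoothOfRelativeDimension 1 c] [IsIntegral C]
  (ε : Prod.KPt c)

/-- a rational point of the curve is not the generic point -/
theorem pt_ne_genericPoint : ε.pt ≠ genericPoint C := by
  intro h
  have hln := isLocallyNoetherian c
  have hinf : Infinite (PrimeDiv C) := infinite_primeDiv c (hreg c) (htr c)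
  obtain ⟨P⟩ : Nonempty (PrimeDiv C) := inferInstance
  have hcl : IsClosed ({genericPoint C} : Set C) := h ▸ ε.isClosed_pt
  have h1 : P.1 ∈ ({genericPoint C} : Set C) :=
    (generic_specializes C P.1).mem_closed hcl rfl
  exact VarSch.ne_generic_of_coheight_eq_one (coheight_primeDiv P) h1

/-- the DVR point of a rational point -/
def Pe : PrimeDiv C := toPrimeDiv (hreg c) (pt_ne_genericPoint c ε)

theorem Pe_val : (Pe c ε).1 = ε.pt := rfl

/-- **a rational function whose only pole is `e`** -/
theorem exists_pole_only_at :
    haveI := isLocallyNoetherian c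
    ∃ a : C.functionField, a ∉ Set.range (kToFF c).hom ∧
      ∀ P : PrimeDiv C, ordAt P a < 0 ↔ P = Pe c ε := by
  have hln := isLocallyNoetherian c
  classical
  obtain ⟨a, ha0, hreg', hpole⟩ := exists_regular_pole_scheme c (htr c) {Pe c ε} (Pe c ε)
    (Finset.mem_singleton_self _)
  refine ⟨a, ?_, fun P => ⟨fun hP => ?_, fun hP => hP ▸ hpole⟩⟩
  · rintro ⟨κ, rfl⟩
    rw [ordAt_algebraMap c (Pe c ε) κ] at hpole
    exact lt_irrefl _ hpole
  · by_contra hne
    have := hreg' P (by rwa [Finset.mem_singleton])
    omega

end Point

end Fermat.Agent.S25lib.Curve
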