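/-
S25lib / Curve / BaseChange  (helper8)  --  Project L (S25), curve inputs (CI4)

Base change of a proper smooth integral curve `c : C ⟶ Spec k` (`k = k̄`) with a `k`-point `ε` along
`t : Spec K ⟶ Spec k`, `K` an algebraically closed field:

* `pullback.snd c t : C_K ⟶ Spec K` is again proper, smooth of relative dimension one, and `C_K` is
  integral (`isIntegral_pullback`), so all of `Curve/{Puncture,Charts,ChartApi}` and of
  `S26lib/{Weil,Aff,CurvePlace,CechRR}` applies to it verbatim;
* `ptK ε t : KPt (pullback.snd c t)`, the point `e_K` over `e`; it is the ONLY point over `e`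
  (`eq_ptK_of_fst_eq`).
-/
import Mathlib
import Fermat.Agent.S25lib.Curve.Puncture
import Fermat.Agent.S25lib.Curve.Connected
import Fermat.Agent.S25lib.Polar.Rig
import Fermat.Agent.S26lib.Prod.Integral

set_option autoImplicit false

noncomputable section

namespace Fermat.Agent.S25lib.Curve

open AlgebraicGeometry CategoryTheory CategoryTheory.Limits TopologicalSpace
  Fermat.Agent.S26lib

universe u

section BC

variable {k : Type u} [Field k] {C : Scheme.{u}} (c : C ⟶ Spec (CommRingCat.of k))
  {K : Type u} [Field K] (t : Spec (CommRingCat.of K) ⟶ Spec (CommRingCat.of k))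

instance smoothOfRelativeDimension_snd [SmoothOfRelativeDimension 1 c] :
    SmoothOfRelativeDimension 1 (pullback.snd c t) :=
  haveI := smoothOfRelativeDimension_isStableUnderBaseChange 1
  MorphismProperty.pullback_snd (P := @SmoothOfRelativeDimension 1) c t inferInstance

/-- **the base change of a proper integral curve over `k = k̄` to a field is connected** -/
theorem connectedSpace_pullback [IsAlgClosed k] [IsProper c] [IsIntegral C] :
    ConnectedSpace ↥(pullback c t) := by
  have hcpt := compactSpace c
  have hqs := quasiSeparatedSpace c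
  have hrig := Polar.rig c t
  have hne : Nonempty ↥(pullback c t) := by
    have hsurj : Surjective (pullback.snd c t) := by
      have : Surjective c := ⟨fun x => ⟨genericPoint C, Subsingleton.elim _ _⟩⟩
      infer_instance
    exact ⟨(hsurj.surj (IsLocalRing.closedPoint K)).choose⟩
  apply connectedSpace_of_forall_idempotent
  intro e he
  obtain ⟨r, rfl⟩ := hrig.2 e
  have hr : IsIdempotentElem r := by
    apply hrig.1
    rw [map_mul]
    exact he
  have hfield : IsField Γ(Spec (CommRingCat.of K), ⊤) :=
    MulEquiv.isField (Field.toIsField K)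
      (Scheme.ΓSpecIso (CommRingCat.of K)).commRingCatIsoToRingEquiv.toMulEquiv
  let _ := hfield.toField
  rcases (IsIdempotentElem.iff_eq_zero_or_one.mp hr) with h0 | h1
  · left; rw [h0, map_zero]
  · right; rw [h1, map_one]

/-- **`C_K` is integral** -/
theorem isIntegral_pullback [IsAlgClosed k] [IsAlgClosed K] [IsProper c]
    [SmoothOfRelativeDimension 1 c] [IsIntegral C] : IsIntegral (pullback c t) := by
  have := connectedSpace_pullback c t
  have := smooth (pullback.snd c t)
  exact Prod.isIntegral_of_smooth_of_connectedSpace (pullback.snd c t)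

end BC

section Pt

variable {k : Type u} [Field k] {C : Scheme.{u}} (c : C ⟶ Spec (CommRingCat.of k))
  {K : Type u} [Field K] (t : Spec (CommRingCat.of K) ⟶ Spec (CommRingCat.of k))
  (ε : Prod.KPt c)

/-- **the point `e_K` of `C_K` over `e`** -/
def ptK : Prod.KPt (pullback.snd c t) :=
  ⟨pullback.lift (t ≫ ε.1) (𝟙 _)
    (by rw [Category.assoc, ε.2, Category.comp_id, Category.id_comp]), pullback.lift_snd _ _ _⟩

theorem ptK_fst : (ptK c t ε).1 ≫ pullback.fst c t = t ≫ ε.1 := pullback.lift_fst _ _ _

theorem fst_ptK_pt : (pullback.fst c t) (ptK c t ε).pt = ε.pt := by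
  have h := congrArg (fun φ : Spec (CommRingCat.of K) ⟶ C => φ (Prod.KPt.o K)) (ptK_fst c t ε)
  have h2 : t (Prod.KPt.o K) = Prod.KPt.o k := Subsingleton.elim _ _
  simp only [Scheme.Hom.comp_apply] at h
  rw [h2] at h
  exact h

/-- the point `e_K : Spec K ⟶ C_K` is the base change of `e : Spec k ⟶ C` -/
theorem isPullback_ptK : IsPullback (ptK c t ε).1 t (pullback.fst c t) ε.1 := by
  refine IsPullback.of_right ?_ (ptK_fst c t ε) (IsPullback.of_hasPullback c t).flip
  have h1 : (ptK c t ε).1 ≫ pullback.snd c t = 𝟙 _ := (ptK c t ε).2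
  rw [h1, ε.2]
  exact IsPullback.id_horiz t

/-- **`e_K` is the only point of `C_K` over `e`** -/
theorem eq_ptK_of_fst_eq (y : ↥(pullback c t)) (hy : pullback.fst c t y = ε.pt) :
    y = (ptK c t ε).pt := by
  have h := Scheme.image_preimage_eq_of_isPullback (isPullback_ptK c t ε).flip Set.univ
  have hy' : y ∈ (pullback.fst c t).base ⁻¹' (ε.1.base '' Set.univ) := by
    rw [Set.image_univ, Prod.KPt.range_eq]
    exact hy
  rw [← h, Set.preimage_univ, Set.image_univ, Prod.KPt.range_eq] at hy'
  exact hy'

/-- the fibre of `C_K ⟶ C` over `e` -/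
theorem fst_eq_iff (y : ↥(pullback c t)) : pullback.fst c t y = ε.pt ↔ y = (ptK c t ε).pt :=
  ⟨eq_ptK_of_fst_eq c t ε y, fun h => h ▸ fst_ptK_pt c t ε⟩

end Pt

end Fermat.Agent.S25lib.Curve
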