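/-
S25lib / Curve / Charts  (helper8)  --  Project L (S25), curve inputs (CI2)–(CI3)

The two-chart atlas of a proper smooth curve `c : C ⟶ Spec k` (`k = k̄`) adapted to a point `e`:

* `U₁ = C ∖ {e}` is affine, `a ∈ Γ(C, U₁)` has its only pole at `e`, and `Γ(C, U₁)` is a finite free
  module over `k[a]`;
* `U₂ ∋ e` is affine, `z ∈ Γ(C, U₂)` generates the prime ideal of `e`, `U₁ ∩ U₂ = D(z)`;
* Čech vanishing: `Γ(C, U₁ ∩ U₂) = Γ(C, U₁) + z^{-N₀} Γ(C, U₂)`.

Packaged as the structure `PointChart c e`; existence: `nonempty_pointChart`.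
-/
import Mathlib
import Fermat.Agent.S25lib.Curve.Puncture
import Fermat.Agent.S26lib.CurvePlace.Curve
import Fermat.Agent.S26lib.CechRR.H1
import Fermat.Agent.S26lib.Aff.PointDiv

set_option autoImplicit false

noncomputable section

namespace Fermat.Agent.S25lib.Curve

open AlgebraicGeometry CategoryTheory TopologicalSpace Polynomial
  Fermat.Agent.S26lib Fermat.Agent.S26lib.Weil Fermat.Agent.S26lib.Aff
  Fermat.Agent.S26lib.CurvePlace Fermat.Agent.S26lib.Quad

universe u

section Def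

variable {k : Type u} [Field k] {C : Scheme.{u}}

/-- the two-chart atlas `U₁ = C ∖ {e}`, `U₂ ∋ e` of a curve `C` over `k` adapted to a point `e`,
with a local parameter `z` at `e` on `U₂` and a function `a` on `U₁` with its only pole at `e` -/
structure PointChart (c : C ⟶ Spec (CommRingCat.of k)) (e : C) where
  /-- the chart `C ∖ {e}` -/
  U₁ : C.Opens
  /-- a chart around `e` -/
  U₂ : C.Opens
  isAffineOpen₁ : IsAffineOpen U₁
  isAffineOpen₂ : IsAffineOpen U₂
  mem₁_iff : ∀ y : C, y ∈ U₁ ↔ y ≠ e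
  mem₂ : e ∈ U₂
  /-- the local parameter at `e` -/
  z : Γ(C, U₂)
  inf_eq : U₁ ⊓ U₂ = C.basicOpen z
  span_z : (isAffineOpen₂.primeIdealOf ⟨e, mem₂⟩).asIdeal = Ideal.span {z}
  /-- the coordinate on `C ∖ {e}` -/
  a : Γ(C, U₁)
  finite : (Polynomial.eval₂RingHom (P5a.constHomOpen c U₁).hom a).Finite
  injective : Function.Injective (Polynomial.eval₂RingHom (P5a.constHomOpen c U₁).hom a)
  /-- the Čech bound -/
  N₀ : ℕ
  cech : ∀ s : Γ(C, U₁ ⊓ U₂), ∃ (f : Γ(C, U₁)) (b : Γ(C, U₂)),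
    C.presheaf.map (homOfLE (inf_le_right : U₁ ⊓ U₂ ≤ U₂)).op z ^ N₀ *
      (s - C.presheaf.map (homOfLE (inf_le_left : U₁ ⊓ U₂ ≤ U₁)).op f) =
    C.presheaf.map (homOfLE (inf_le_right : U₁ ⊓ U₂ ≤ U₂)).op b

/-- a `PointChart` together with the inverse `a⁻¹` of the coordinate `a`, as a section over `U₂` of
the ideal generated by the local parameter `z` (so `U₂` contains no zero of `a`) -/
structure PointChart' (c : C ⟶ Spec (CommRingCat.of k)) (e : C) extends PointChart c e where
  /-- the inverse of the coordinate, on `U₂` -/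
  ainv : Γ(C, U₂)
  mul_ainv : C.presheaf.map (homOfLE (inf_le_left : U₁ ⊓ U₂ ≤ U₁)).op a *
    C.presheaf.map (homOfLE (inf_le_right : U₁ ⊓ U₂ ≤ U₂)).op ainv = 1
  ainv_mem : ainv ∈ Ideal.span {z}

end Def

section Prime

variable {C : Scheme.{u}}

/-- the prime ideal of a point of an affine open set: the sections whose germ lies in the maximal
ideal -/
theorem mem_primeIdealOf_iff {U : C.Opens} (hU : IsAffineOpen U) (x : U) (b : Γ(C, U)) :
    b ∈ (hU.primeIdealOf x).asIdeal ↔
      C.presheaf.germ U x.1 x.2 b ∈ IsLocalRing.maximalIdeal (C.presheaf.stalk x.1) := by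
  have := hU.isLocalization_stalk x
  exact (IsLocalization.AtPrime.to_map_mem_maximal_iff (C.presheaf.stalk x.1)
    (hU.primeIdealOf x).asIdeal b).symm

variable [IsIntegral C] [IsLocallyNoetherian C]
  (hreg : ∀ c : C, c = genericPoint C ∨ IsDiscreteValuationRing (C.presheaf.stalk c))

/-- a section lies in the prime ideal of a DVR point iff it vanishes there -/
theorem mem_primeIdealOf_iff_ordAt {U : C.Opens} (hU : IsAffineOpen U) (P : PrimeDiv C)
    (hP : P.1 ∈ U) (b : Γ(C, U)) (hb : b ≠ 0) :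
    b ∈ (hU.primeIdealOf ⟨P.1, hP⟩).asIdeal ↔ 0 < ordAt P (germFF U hP b) := by
  rw [mem_primeIdealOf_iff]
  have hne : germFF U hP b ≠ 0 := fun h0 => hb (germFF_injective U hP (by rw [h0, map_zero]))
  rw [ordAt_pos_iff P hne]
  constructor
  · intro h
    exact ⟨_, h, (germFF_eq_toFF U hP b hP).symm⟩
  · rintro ⟨a, ham, ha⟩
    rw [germFF_eq_toFF U hP b hP] at ha
    have : a = C.presheaf.germ U P.1 hP b := Quad.toFF_injective C P.1 ha
    rwa [← this]

include hreg in
/-- a rational function without poles on `U` is a section over `U` -/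
theorem exists_section_of_ordAt_nonneg (U : C.Opens) {y : C} (hy : y ∈ U) (s : C.functionField)
    (hs : ∀ Q : PrimeDiv C, Q.1 ∈ U → 0 ≤ ordAt Q s) :
    ∃ t : Γ(C, U), germFF U hy t = s := by
  apply exists_section_of_forall_mem_range
  intro x hx
  by_cases hxη : x = genericPoint C
  · subst hxη
    exact ⟨s, Quad.toFF_generic C s⟩
  · rcases eq_or_ne s 0 with rfl | hs0
    · exact ⟨0, map_zero _⟩
    exact (ordAt_nonneg_iff (toPrimeDiv hreg hxη) hs0).mp (hs _ hx)

include hreg in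
/-- **the prime ideal of a point is generated by a local parameter** with no other zeros on the
chart -/
theorem primeIdealOf_eq_span {U : C.Opens} (hU : IsAffineOpen U)
    (P : PrimeDiv C) (hP : P.1 ∈ U) (z : Γ(C, U))
    (hzP : ordAt P (germFF U hP z) = 1)
    (hzQ : ∀ Q : PrimeDiv C, Q.1 ∈ U → Q ≠ P → ordAt Q (germFF U hP z) = 0) :
    (hU.primeIdealOf ⟨P.1, hP⟩).asIdeal = Ideal.span {z} := by
  have hz0 : z ≠ 0 := by
    rintro rfl
    rw [map_zero, ordAt_zero] at hzP
    exact zero_ne_one hzP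
  have hz0' : germFF U hP z ≠ 0 := fun h0 => hz0 (germFF_injective U hP (by rw [h0, map_zero]))
  apply le_antisymm
  · intro b hb
    rcases eq_or_ne b 0 with rfl | hb0
    · exact zero_mem _
    have hb0' : germFF U hP b ≠ 0 := fun h0 => hb0 (germFF_injective U hP (by rw [h0, map_zero]))
    have hbP : 0 < ordAt P (germFF U hP b) := (mem_primeIdealOf_iff_ordAt hU P hP b hb0).mp hb
    obtain ⟨q, hq⟩ := exists_section_of_ordAt_nonneg hreg U hP
      (germFF U hP b * (germFF U hP z)⁻¹)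
      (fun Q hQ => by
        rw [ordAt_mul Q hb0' (inv_ne_zero hz0'), CurvePlace.ordAt_inv]
        by_cases hQP : Q = P
        · subst hQP; rw [hzP]; omega
        · rw [hzQ Q hQ hQP]
          have := ordAt_germFF_nonneg U hP b Q hQ
          omega)
    rw [Ideal.mem_span_singleton]
    refine ⟨q, germFF_injective U hP ?_⟩
    rw [map_mul, hq, mul_comm, mul_assoc, inv_mul_cancel₀ hz0', mul_one]
  · rw [Ideal.span_singleton_le_iff_mem]
    rw [mem_primeIdealOf_iff_ordAt hU P hP z hz0, hzP]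
    exact zero_lt_one

end Prime

section Cech

variable {K : Type u} [Field K] [IsAlgClosed K] {C : Scheme.{u}} [IsIntegral C]
  [IsLocallyNoetherian C] (fC : C ⟶ Spec (CommRingCat.of K))
  [LocallyOfFiniteType fC] [IsSeparated fC] [UniversallyClosed fC] [QuasiCompact fC]
  (hreg : ∀ c : C, c = genericPoint C ∨ IsDiscreteValuationRing (C.presheaf.stalk c))
  (htr : letI := kAlgebraFF fC; Algebra.trdeg K C.functionField = 1)

include hreg htr in
/-- **Čech vanishing at a point**: there is `N₀` such that every rational function regular off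
`{P} ∪ S₂` is the sum of a function regular off `P` and a function regular off `S₂` except for a pole
of order at most `N₀` at `P` -/
theorem exists_cech_bound (P : PrimeDiv C) (S₂ : Finset (PrimeDiv C)) (hS₂ : S₂.Nonempty)
    (hPS₂ : P ∉ S₂) :
    ∃ N₀ : ℕ, ∀ h : C.functionField, (∀ Q : PrimeDiv C, Q ≠ P → Q ∉ S₂ → 0 ≤ ordAt Q h) →
      ∃ h₁ h₂ : C.functionField, h = h₁ + h₂ ∧ (∀ Q : PrimeDiv C, Q ≠ P → 0 ≤ ordAt Q h₁) ∧
        (∀ Q : PrimeDiv C, Q ∉ S₂ → Q ≠ P → 0 ≤ ordAt Q h₂) ∧ -(N₀ : ℤ) ≤ ordAt P h₂ := by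
  classical
  let _ := kAlgebraFF fC
  obtain ⟨γ, hF⟩ := exists_isCurveOfGenus fC htr
  have hinj := placeOf_injective fC
  have hsurj := placeOf_surjective fC hreg
  set p := placeOf fC P with hp
  set T₁ : Finset (AlgebraicCurve.Place K C.functionField) := {p} with hT₁
  set T₂ : Finset (AlgebraicCurve.Place K C.functionField) := S₂.image (placeOf fC) with hT₂
  have hpT₂ : p ∉ T₂ := by
    rw [hT₂, Finset.mem_image]
    rintro ⟨Q, hQ, hQp⟩
    exact hPS₂ (hinj hQp ▸ hQ)
  have hdisj : Disjoint T₁ T₂ := Finset.disjoint_singleton_left.mpr hpT₂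
  have hne₁ : T₁.Nonempty := Finset.singleton_nonempty p
  have hne₂ : T₂.Nonempty := hS₂.image _
  set N₀ : ℕ := 2 * γ with hN₀
  set E : AlgebraicCurve.Divisor K C.functionField := Finsupp.single p (N₀ : ℤ) with hE
  have hEp : E p = N₀ := Finsupp.single_eq_same
  have hEv : ∀ v, v ≠ p → E v = 0 := fun v hv => Finsupp.single_eq_of_ne hv
  have hEnn : ∀ v, 0 ≤ E v := by
    intro v
    by_cases hv : v = p
    · rw [hv, hEp]; positivity
    · rw [hEv v hv]
  have hdeg : AlgebraicCurve.Divisor.degree E = N₀ := by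
    rw [hE, AlgebraicCurve.Divisor.degree_single, hF.deg_eq_one p]
    simp
  have hrr := hF.riemann_eq E (by rw [hdeg, hN₀]; push_cast; omega)
  have hcech := CechRR.lamOff_union_eq_sup hF hdisj hne₁ hne₂ hrr
  refine ⟨N₀, fun h hh => ?_⟩
  have hmem : h ∈ CechRR.lamOff ((T₁ : Set (AlgebraicCurve.Place K C.functionField)) ∪ T₂) E := by
    rw [CechRR.mem_lamOff_iff]
    intro v hv
    obtain ⟨Q, rfl⟩ := hsurj v
    right
    rw [ord_placeOf]
    have h1 : Q ≠ P := by
      rintro rfl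
      exact hv (Or.inl (Finset.mem_coe.mpr (Finset.mem_singleton_self _)))
    have h2 : Q ∉ S₂ := fun hQ =>
      hv (Or.inr (Finset.mem_coe.mpr (Finset.mem_image_of_mem _ hQ)))
    have := hh Q h1 h2
    have := hEnn (placeOf fC Q)
    omega
  rw [hcech, Submodule.mem_sup] at hmem
  obtain ⟨h₁, hh₁, h₂, hh₂, rfl⟩ := hmem
  rw [CechRR.mem_lamOff_iff] at hh₁ hh₂
  refine ⟨h₁, h₂, rfl, fun Q hQ => ?_, fun Q hQ hQP => ?_, ?_⟩
  · have hv : placeOf fC Q ∉ (T₁ : Set (AlgebraicCurve.Place K C.functionField)) := by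
      rw [Finset.mem_coe, hT₁, Finset.mem_singleton]
      exact fun h => hQ (hinj h)
    rcases hh₁ _ hv with h0 | h0
    · rw [h0, ordAt_zero]
    · rw [ord_placeOf, hEv _ (fun h => hQ (hinj h))] at h0
      omega
  · have hv : placeOf fC Q ∉ (T₂ : Set (AlgebraicCurve.Place K C.functionField)) := by
      rw [Finset.mem_coe, hT₂, Finset.mem_image]
      rintro ⟨Q', hQ', hQQ'⟩
      exact hQ (hinj hQQ' ▸ hQ')
    rcases hh₂ _ hv with h0 | h0
    · rw [h0, ordAt_zero]
    · rw [ord_placeOf, hEv _ (fun h => hQP (hinj h))] at h0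
      omega
  · have hv : p ∉ (T₂ : Set (AlgebraicCurve.Place K C.functionField)) := by
      rw [Finset.mem_coe]; exact hpT₂
    rcases hh₂ _ hv with h0 | h0
    · rw [h0, ordAt_zero]; omega
    · rw [hp, ord_placeOf, ← hp, hEp] at h0
      exact h0

end Cech

section Exists

variable {k : Type u} [Field k] [IsAlgClosed k] {C : Scheme.{u}}
  (c : C ⟶ Spec (CommRingCat.of k)) [IsProper c] [SmoothOfRelativeDimension 1 c] [IsIntegral C]
  (ε : Prod.KPt c)

/-- **the first chart**: `C ∖ {e}` with a coordinate `a` whose only pole is `e`; its ring of sections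
is finite over `k[a]`, and `a` is transcendental -/
theorem exists_chart_one :
    haveI := isLocallyNoetherian c
    ∃ (a : C.functionField) (a₁ : Γ(C, complOpen (hreg c) {Pe c ε})),
      germFF (complOpen (hreg c) {Pe c ε}) (genericPoint_mem_complOpen (hreg c) _) a₁ = a ∧
      a ≠ 0 ∧ (∀ P : PrimeDiv C, ordAt P a < 0 ↔ P = Pe c ε) ∧
      (Polynomial.eval₂RingHom (P5a.constHomOpen c (complOpen (hreg c) {Pe c ε})).hom a₁).Finite ∧
      Function.Injective
        (Polynomial.eval₂RingHom (P5a.constHomOpen c (complOpen (hreg c) {Pe c ε})).hom a₁) := by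
  classical
  have hln := isLocallyNoetherian c
  let _ := kAlgebraFF c
  obtain ⟨a, ha, hpole⟩ := exists_pole_only_at c ε
  have ha0 : a ≠ 0 := by
    rintro rfl
    exact ha ⟨0, map_zero _⟩
  set P := Pe c ε with hP
  set U₁ := complOpen (hreg c) {P} with hU₁
  have hη₁ : genericPoint C ∈ U₁ := genericPoint_mem_complOpen (hreg c) _
  obtain ⟨a₁, ha₁⟩ := exists_section_complOpen (hreg c) {P} a (fun Q hQ => by
    have := (hpole Q).not.mpr (by simpa using hQ)
    omega)
  refine ⟨a, a₁, ha₁, ha0, hpole, finite_chart c (hreg c) (htr c) ha {P}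
    (fun Q => by rw [Finset.mem_singleton, hpole]) a₁ ha₁, ?_⟩
  have hT : Transcendental k a := transcendental_of_not_mem_range ha
  have : Nonempty U₁ := ⟨⟨genericPoint C, hη₁⟩⟩
  have hcomp : (germFF U₁ hη₁).comp (P5a.constHomOpen c U₁).hom = (kToFF c).hom := by
    have := P5a.constHomOpen_germ c U₁
    exact congrArg (fun φ => φ.hom) this
  rw [injective_iff_map_eq_zero]
  intro p hp
  have h1 : germFF U₁ hη₁ (Polynomial.eval₂ (P5a.constHomOpen c U₁).hom a₁ p) = 0 := by
    have : Polynomial.eval₂ (P5a.constHomOpen c U₁).hom a₁ p = 0 := hp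
    rw [this, map_zero]
  rw [Polynomial.hom_eval₂, hcomp, ha₁] at h1
  by_contra hp0
  exact hT ⟨p, hp0, h1⟩

/-- **the second chart**: a finite set `S₂ ∌ e` of points, containing a prescribed finite set `Z`,
such that the uniformiser `z` at `e` is a section over `C ∖ S₂` whose only zero there is the simple
zero at `e` -/
theorem exists_chart_two (Z : Finset (PrimeDiv C)) (hZ : Pe c ε ∉ Z) :
    haveI := isLocallyNoetherian c
    ∃ (S₂ : Finset (PrimeDiv C)) (z₂ : Γ(C, complOpen (hreg c) S₂)),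
      Z ⊆ S₂ ∧ S₂.Nonempty ∧ Pe c ε ∉ S₂ ∧ z₂ ≠ 0 ∧
      ordAt (Pe c ε) (germFF (complOpen (hreg c) S₂) (genericPoint_mem_complOpen (hreg c) S₂) z₂)
        = 1 ∧
      ∀ Q : PrimeDiv C, Q ∉ S₂ → Q ≠ Pe c ε →
        ordAt Q (germFF (complOpen (hreg c) S₂) (genericPoint_mem_complOpen (hreg c) S₂) z₂)
          = 0 := by
  classical
  have hln := isLocallyNoetherian c
  have hcpt := compactSpace c
  have hnoeth : IsNoetherian C := {}
  set P := Pe c ε with hP
  set z : C.functionField := (unif P : C.functionField) with hz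
  have hz0 : z ≠ 0 := (unif P).ne_zero
  have hzP : ordAt P z = 1 := ordAt_unif P
  have hfin := finite_ordAt_ne_zero z hz0
  have hinf := infinite_primeDiv c (hreg c) (htr c)
  obtain ⟨Q₀, hQ₀⟩ := Infinite.exists_notMem_finset ({P} : Finset (PrimeDiv C))
  rw [Finset.mem_singleton] at hQ₀
  set S₂ : Finset (PrimeDiv C) := insert Q₀ (hfin.toFinset.erase P ∪ Z) with hS₂
  have hPS₂ : P ∉ S₂ := by
    rw [hS₂, Finset.mem_insert, not_or, Finset.mem_union, not_or]
    exact ⟨fun h => hQ₀ h.symm, Finset.notMem_erase _ _, hZ⟩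
  have hord : ∀ Q : PrimeDiv C, Q ∉ S₂ → Q ≠ P → ordAt Q z = 0 := by
    intro Q hQ hQP
    by_contra hne
    apply hQ
    rw [hS₂, Finset.mem_insert, Finset.mem_union]
    right; left
    rw [Finset.mem_erase]
    exact ⟨hQP, hfin.mem_toFinset.mpr hne⟩
  obtain ⟨z₂, hz₂⟩ := exists_section_complOpen (hreg c) S₂ z (fun Q hQ => by
    by_cases hQP : Q = P
    · rw [hQP, hzP]; exact zero_le_one
    · rw [hord Q hQ hQP])
  refine ⟨S₂, z₂, ?_, ⟨Q₀, Finset.mem_insert_self _ _⟩, hPS₂, ?_, ?_, ?_⟩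
  · intro Q hQ
    rw [hS₂, Finset.mem_insert, Finset.mem_union]
    exact Or.inr (Or.inr hQ)
  · rintro rfl
    rw [map_zero] at hz₂
    exact hz0 hz₂.symm
  · rw [hz₂]; exact hzP
  · intro Q hQ hQP
    rw [hz₂]; exact hord Q hQ hQP

/-- **the two-chart atlas adapted to a rational point of a proper smooth curve** over an algebraically
closed field, with the inverse of the coordinate `a` as a section of the ideal `(z)` over `U₂` -/
theorem nonempty_pointChart' : Nonempty (PointChart' c ε.pt) := by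
  classical
  have hln := isLocallyNoetherian c
  have hcpt := compactSpace c
  have hnoeth : IsNoetherian C := {}
  have hreg := hreg c
  have htr := htr c
  obtain ⟨a, a₁, ha₁, ha0, hpole, hfin, hinj⟩ := exists_chart_one c ε
  have hafin := finite_ordAt_ne_zero a ha0
  have hPZ : Pe c ε ∉ hafin.toFinset.erase (Pe c ε) := Finset.notMem_erase _ _
  obtain ⟨S₂, z₂, hZS₂, hS₂, hPS₂, hz₂0, hzP, hzQ⟩ :=
    exists_chart_two c ε (hafin.toFinset.erase (Pe c ε)) hPZ
  obtain ⟨N₀, hcech⟩ := exists_cech_bound c hreg htr (Pe c ε) S₂ hS₂ hPS₂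
  have hη₁ : genericPoint C ∈ complOpen hreg {Pe c ε} := genericPoint_mem_complOpen hreg _
  have hη₂ : genericPoint C ∈ complOpen hreg S₂ := genericPoint_mem_complOpen hreg _
  have hη₁₂ : genericPoint C ∈ complOpen hreg {Pe c ε} ⊓ complOpen hreg S₂ := ⟨hη₁, hη₂⟩
  have hmem₂ : ε.pt ∈ complOpen hreg S₂ := (primeDiv_mem_complOpen_iff hreg S₂ (Pe c ε)).mpr hPS₂
  have hmem₁' : ∀ Q : PrimeDiv C, Q.1 ∈ complOpen hreg {Pe c ε} ↔ Q ≠ Pe c ε := by
    intro Q
    rw [primeDiv_mem_complOpen_iff, Finset.mem_singleton]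
  have hz₂0' : germFF (complOpen hreg S₂) hη₂ z₂ ≠ 0 := fun h0 =>
    hz₂0 (germFF_injective _ hη₂ (by rw [h0, map_zero]))
  -- the zeros of `a` lie off `U₂`
  have haQ : ∀ Q : PrimeDiv C, Q ∉ S₂ → Q ≠ Pe c ε → ordAt Q a = 0 := by
    intro Q hQ hQP
    by_contra hne
    exact hQ (hZS₂ (Finset.mem_erase.mpr ⟨hQP, hafin.mem_toFinset.mpr hne⟩))
  have haP : ordAt (Pe c ε) a < 0 := (hpole _).mpr rfl
  obtain ⟨ainv, hainv⟩ := exists_section_complOpen hreg S₂ a⁻¹ (fun Q hQ => by
    rw [CurvePlace.ordAt_inv]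
    by_cases hQP : Q = Pe c ε
    · subst hQP; omega
    · rw [haQ Q hQ hQP]; rfl)
  have hspan : (((isAffineOpen_complOpen c hreg htr S₂ hS₂).primeIdealOf ⟨ε.pt, hmem₂⟩).asIdeal) =
      Ideal.span {z₂} :=
    primeIdealOf_eq_span hreg _ (Pe c ε) hmem₂ z₂ hzP
      (fun Q hQ hQP => hzQ Q ((primeDiv_mem_complOpen_iff hreg S₂ Q).mp hQ) hQP)
  refine ⟨{
    U₁ := complOpen hreg {Pe c ε}
    U₂ := complOpen hreg S₂
    isAffineOpen₁ := isAffineOpen_complOpen c hreg htr _ (Finset.singleton_nonempty _)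
    isAffineOpen₂ := isAffineOpen_complOpen c hreg htr S₂ hS₂
    mem₁_iff := ?_
    mem₂ := hmem₂
    z := z₂
    inf_eq := ?_
    span_z := hspan
    a := a₁
    finite := hfin
    injective := hinj
    N₀ := N₀
    cech := ?_
    ainv := ainv
    mul_ainv := ?_
    ainv_mem := ?_ }⟩
  · intro y
    rw [mem_complOpen_iff]
    simp only [Finset.mem_singleton, forall_eq]
    rfl
  · refine eq_basicOpen_of_ordAt hreg _ _ hη₂ z₂ hz₂0 inf_le_right hη₁₂ fun Q hQ => ?_
    have hQS : Q ∉ S₂ := (primeDiv_mem_complOpen_iff hreg S₂ Q).mp hQ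
    constructor
    · intro h
      exact hzQ Q hQS ((hmem₁' Q).mp h.1)
    · intro h
      refine ⟨(hmem₁' Q).mpr ?_, hQ⟩
      rintro rfl
      rw [hzP] at h
      exact one_ne_zero h
  · intro s
    obtain ⟨h₁, h₂, hsum, hh₁, hh₂, hh₂P⟩ := hcech (germFF _ hη₁₂ s) (fun Q hQP hQS =>
      ordAt_germFF_nonneg _ hη₁₂ s Q
        ⟨(hmem₁' Q).mpr hQP, (primeDiv_mem_complOpen_iff hreg S₂ Q).mpr hQS⟩)
    obtain ⟨f, hf⟩ := exists_section_complOpen hreg {Pe c ε} h₁ (fun Q hQ =>
      hh₁ Q (by simpa using hQ))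
    obtain ⟨b, hb⟩ := exists_section_complOpen hreg S₂
      (germFF (complOpen hreg S₂) hη₂ z₂ ^ N₀ * h₂) (fun Q hQ => by
        rcases eq_or_ne h₂ 0 with rfl | h₂0
        · rw [mul_zero, ordAt_zero]
        rw [ordAt_mul Q (pow_ne_zero _ hz₂0') h₂0, CurvePlace.ordAt_pow]
        by_cases hQP : Q = Pe c ε
        · subst hQP
          rw [hzP]
          omega
        · rw [hzQ Q hQ hQP]
          have := hh₂ Q hQ hQP
          omega)
    refine ⟨f, b, germFF_injective _ hη₁₂ ?_⟩
    rw [map_mul, map_pow, map_sub, germFF_res inf_le_right hη₁₂, germFF_res inf_le_left hη₁₂,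
      germFF_res inf_le_right hη₁₂, hf, hb, hsum, add_sub_cancel_left]
  · apply germFF_injective _ hη₁₂
    rw [map_mul, map_one, germFF_res inf_le_left hη₁₂, germFF_res inf_le_right hη₁₂, ha₁, hainv]
    exact mul_inv_cancel₀ ha0
  · rw [← hspan]
    have hainv0 : ainv ≠ 0 := by
      rintro rfl
      rw [map_zero] at hainv
      exact inv_ne_zero ha0 hainv.symm
    refine (mem_primeIdealOf_iff_ordAt (isAffineOpen_complOpen c hreg htr S₂ hS₂) (Pe c ε) hmem₂
      ainv hainv0).mpr ?_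
    change 0 < ordAt (Pe c ε) (germFF (complOpen hreg S₂) hη₂ ainv)
    rw [hainv, CurvePlace.ordAt_inv]
    omega

/-- **the two-chart atlas adapted to a rational point of a proper smooth curve** over an algebraically
closed field -/
theorem nonempty_pointChart : Nonempty (PointChart c ε.pt) :=
  (nonempty_pointChart' c ε).map PointChart'.toPointChart

end Exists

end Fermat.Agent.S25lib.Curve
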