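/-
S25lib / Curve / ChartApi  (helper8)  --  Project L (S25), curve inputs (CI2)–(CI3): consequences of
a `PointChart` (`Curve/Charts.lean`).

* `sup_eq`, `isAffineOpen₁₂`, `isLocalization_away` : `C = U₁ ∪ U₂`, `Γ(C, U₁ ∩ U₂) = Γ(C, U₂)[1/z]`;
* `free` : `Γ(C, U₁)` is a free module over `k[a]`;
* `bijective_const_quotient` : `k ≃ Γ(C, U₂)/(z)`;
* the dictionary with the function field: `z_ne_zero`, `ordAt_z_Pe`, `ordAt_z_of_ne`,
  `primeDiv_mem₁_iff`, `exists_section₁`, `exists_section₂`, `exists_section₁₂`.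
-/
import Mathlib
import Fermat.Agent.S25lib.Curve.Charts

set_option autoImplicit false

noncomputable section

namespace Fermat.Agent.S25lib.Curve

open AlgebraicGeometry CategoryTheory TopologicalSpace Polynomial
  Fermat.Agent.S26lib Fermat.Agent.S26lib.Weil Fermat.Agent.S26lib.Aff
  Fermat.Agent.S26lib.CurvePlace Fermat.Agent.S26lib.Quad

universe u

/-- if the prime ideal of a point of an affine open set is principal, so is the maximal ideal of the
local ring -/
theorem maximalIdeal_stalk_eq_span {C : Scheme.{u}} {U : C.Opens} (hU : IsAffineOpen U) (x : U)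
    (z : Γ(C, U)) (h : (hU.primeIdealOf x).asIdeal = Ideal.span {z}) :
    IsLocalRing.maximalIdeal (C.presheaf.stalk x.1) =
      Ideal.span {(C.presheaf.germ U x.1 x.2).hom z} := by
  have hloc := hU.isLocalization_stalk x
  have := IsLocalization.AtPrime.map_eq_maximalIdeal
    (hU.primeIdealOf x).asIdeal (C.presheaf.stalk (x : C))
  rw [← this, h, Ideal.map_span, Set.image_singleton]
  rfl

namespace PointChart

section General

variable {k : Type u} [Field k] {C : Scheme.{u}} {c : C ⟶ Spec (CommRingCat.of k)} {e : C}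
  (T : PointChart c e)

/-- the two charts cover the curve -/
theorem sup_eq : T.U₁ ⊔ T.U₂ = ⊤ := by
  rw [eq_top_iff]
  intro y _
  by_cases hy : y = e
  · exact Opens.mem_sup.mpr (Or.inr (hy ▸ T.mem₂))
  · exact Opens.mem_sup.mpr (Or.inl ((T.mem₁_iff y).mpr hy))

theorem not_mem₁ : e ∉ T.U₁ := fun h => (T.mem₁_iff e).mp h rfl

theorem isAffineOpen₁₂ : IsAffineOpen (T.U₁ ⊓ T.U₂) :=
  T.inf_eq ▸ T.isAffineOpen₂.basicOpen T.z

/-- `Γ(C, U₁ ∩ U₂) = Γ(C, U₂)[1/z]` -/
theorem isLocalization_away :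
    letI := (C.presheaf.map (homOfLE (inf_le_right : T.U₁ ⊓ T.U₂ ≤ T.U₂)).op).hom.toAlgebra
    IsLocalization.Away T.z Γ(C, T.U₁ ⊓ T.U₂) :=
  T.isAffineOpen₂.isLocalization_of_eq_basicOpen T.z (homOfLE inf_le_right) T.inf_eq

/-- `z` becomes a unit on `U₁ ∩ U₂` -/
theorem isUnit_res_z :
    IsUnit (C.presheaf.map (homOfLE (inf_le_right : T.U₁ ⊓ T.U₂ ≤ T.U₂)).op T.z) := by
  letI := (C.presheaf.map (homOfLE (inf_le_right : T.U₁ ⊓ T.U₂ ≤ T.U₂)).op).hom.toAlgebra
  have := T.isLocalization_away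
  exact IsLocalization.Away.algebraMap_isUnit T.z

end General

section Curve

variable {k : Type u} [Field k] [IsAlgClosed k] {C : Scheme.{u}}
  (c : C ⟶ Spec (CommRingCat.of k)) [IsProper c] [SmoothOfRelativeDimension 1 c] [IsIntegral C]
  (ε : Prod.KPt c) (T : PointChart c ε.pt)

theorem generic_mem₁ : genericPoint C ∈ T.U₁ :=
  (T.mem₁_iff _).mpr (pt_ne_genericPoint c ε).symm

theorem generic_mem₂ : genericPoint C ∈ T.U₂ := genericPoint_mem T.mem₂

theorem generic_mem₁₂ : genericPoint C ∈ T.U₁ ⊓ T.U₂ := ⟨T.generic_mem₁ c ε, T.generic_mem₂ c ε⟩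

theorem primeDiv_mem₁_iff (Q : PrimeDiv C) : Q.1 ∈ T.U₁ ↔ Q ≠ Pe c ε := by
  rw [T.mem₁_iff]
  constructor
  · rintro h rfl
    exact h rfl
  · intro h h'
    exact h (Subtype.ext h')

theorem z_ne_zero : T.z ≠ 0 := by
  intro h0
  have h := T.generic_mem₁₂ c ε
  rw [T.inf_eq, h0, Scheme.basicOpen_zero] at h
  exact h

/-- the local parameter has a simple zero at `e` -/
theorem ordAt_z_Pe :
    haveI := isLocallyNoetherian c
    ordAt (Pe c ε) (germFF T.U₂ T.mem₂ T.z) = 1 := by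
  have hln := isLocallyNoetherian c
  have hdvr : IsDiscreteValuationRing (C.presheaf.stalk ε.pt) := (Pe c ε).2
  have hmax := maximalIdeal_stalk_eq_span T.isAffineOpen₂ ⟨ε.pt, T.mem₂⟩ T.z T.span_z
  have hirr : Irreducible ((C.presheaf.germ T.U₂ ε.pt T.mem₂).hom T.z) :=
    (IsDiscreteValuationRing.irreducible_iff_uniformizer _).mpr hmax
  rw [germFF_eq_toFF T.U₂ T.mem₂ T.z T.mem₂]
  have h0 : toFF C ε.pt ((C.presheaf.germ T.U₂ ε.pt T.mem₂).hom T.z) ≠ 0 :=
    toFF_ne_zero C hirr.ne_zero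
  rw [ordAt_eq_iff (Pe c ε) h0 1]
  have hdvr' : IsDiscreteValuationRing (C.presheaf.stalk (Pe c ε).1) := (Pe c ε).2
  exact Ring.ordFrac_irreducible hirr

/-- the local parameter has no other zero on `U₂` -/
theorem ordAt_z_of_ne (Q : PrimeDiv C) (hQ : Q.1 ∈ T.U₂) (hne : Q ≠ Pe c ε) :
    haveI := isLocallyNoetherian c
    ordAt Q (germFF T.U₂ T.mem₂ T.z) = 0 := by
  have hln := isLocallyNoetherian c
  rw [← mem_basicOpen_iff_ordAt T.U₂ T.mem₂ T.z (T.z_ne_zero c ε) Q hQ, ← T.inf_eq]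
  exact ⟨(T.primeDiv_mem₁_iff c ε Q).mpr hne, hQ⟩

/-- the sections over `U₁` are the rational functions without poles off `e` -/
theorem exists_section₁ (h : C.functionField)
    (hh : haveI := isLocallyNoetherian c; ∀ Q : PrimeDiv C, Q ≠ Pe c ε → 0 ≤ ordAt Q h) :
    ∃ f : Γ(C, T.U₁), germFF T.U₁ (T.generic_mem₁ c ε) f = h :=
  haveI := isLocallyNoetherian c
  exists_section_of_ordAt_nonneg (hreg c) T.U₁ _ h
    (fun Q hQ => hh Q ((T.primeDiv_mem₁_iff c ε Q).mp hQ))

/-- **`Γ(C, C ∖ e)` is a free module over `k[a]`** -/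
theorem free :
    letI := (Polynomial.eval₂RingHom (P5a.constHomOpen c T.U₁).hom T.a).toAlgebra
    Module.Free k[X] Γ(C, T.U₁) := by
  letI := (Polynomial.eval₂RingHom (P5a.constHomOpen c T.U₁).hom T.a).toAlgebra
  have : Nonempty T.U₁ := ⟨⟨_, T.generic_mem₁ c ε⟩⟩
  have : IsDomain Γ(C, T.U₁) := inferInstance
  have : Module.Finite k[X] Γ(C, T.U₁) := T.finite
  have : Module.IsTorsionFree k[X] Γ(C, T.U₁) :=
    Module.isTorsionFree_iff_algebraMap_injective.mpr T.injective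
  exact Module.free_of_finite_type_torsion_free'

omit [IsAlgClosed k] [IsProper c] [SmoothOfRelativeDimension 1 c] [IsIntegral C] in
/-- the germ of a constant -/
theorem germ_constHomOpen (U : C.Opens) (x : C) (hx : x ∈ U) (κ : k) :
    (C.presheaf.germ U x hx).hom ((P5a.constHomOpen c U).hom κ) = Prod.KPt.constStalk c x κ := by
  have h : P5a.constHomOpen c U ≫ C.presheaf.germ U x hx =
      (Scheme.ΓSpecIso (CommRingCat.of k)).inv ≫ c.appTop ≫ C.presheaf.germ ⊤ x trivial := by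
    unfold P5a.constHomOpen
    rw [Category.assoc, Scheme.Hom.appLE, Category.assoc]
    congr 2
    exact C.presheaf.germ_res (homOfLE _) x hx
  exact congrArg (fun φ => φ.hom κ) h

/-- **the residue field at `e` is `k`**: `k ≃ Γ(C, U₂)/(z)` -/
theorem bijective_const_quotient :
    Function.Bijective ((Ideal.Quotient.mk (Ideal.span {T.z})).comp
      (P5a.constHomOpen c T.U₂).hom) := by
  constructor
  · have hne : Ideal.span {T.z} ≠ ⊤ := by
      rw [← T.span_z]
      exact (T.isAffineOpen₂.primeIdealOf ⟨ε.pt, T.mem₂⟩).isPrime.ne_top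
    have : Nontrivial (Γ(C, T.U₂) ⧸ Ideal.span {T.z}) := Ideal.Quotient.nontrivial_iff.mpr hne
    exact RingHom.injective _
  · intro q
    obtain ⟨b, rfl⟩ := Ideal.Quotient.mk_surjective q
    refine ⟨ε.eval ((C.presheaf.germ T.U₂ ε.pt T.mem₂).hom b), ?_⟩
    rw [RingHom.comp_apply, Ideal.Quotient.eq, ← T.span_z,
      mem_primeIdealOf_iff T.isAffineOpen₂ ⟨ε.pt, T.mem₂⟩]
    have := ε.sub_const_mem_maximalIdeal ((C.presheaf.germ T.U₂ ε.pt T.mem₂).hom b)
    rw [← neg_mem_iff, neg_sub] at this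
    have h2 : (C.presheaf.germ T.U₂ ε.pt T.mem₂).hom
        ((P5a.constHomOpen c T.U₂).hom (ε.eval ((C.presheaf.germ T.U₂ ε.pt T.mem₂).hom b)) - b) =
        Prod.KPt.constStalk c ε.pt (ε.eval ((C.presheaf.germ T.U₂ ε.pt T.mem₂).hom b)) -
          (C.presheaf.germ T.U₂ ε.pt T.mem₂).hom b := by
      rw [map_sub, germ_constHomOpen]
    exact h2 ▸ this

end Curve

end PointChart

end Fermat.Agent.S25lib.Curve
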