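/-
S25lib / Curve / ZChart  (helper8)  --  Project L (S25), curve inputs (CI3)/(CI4)

`ZChart e` : the part of a `PointChart` which does not involve the coordinate `a` and the Čech bound:
two affine opens `U₁ = C ∖ {e}`, `U₂ ∋ e` and a local parameter `z` on `U₂` with `U₁ ∩ U₂ = D(z)`,
`𝔭_e = (z)`.

* `PointChart.toZChart`;
* `ZChart.exists_sub_const_mem` : `Γ(C, U₂) = k + z Γ(C, U₂)` for a `k`-point `e`;
* **`ZChart.baseChange`** : for `t : Spec K ⟶ Spec k` (`K` any field) the boxes `U₁ × K`, `U₂ × K` and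
  `π^♯ z` form a `ZChart` of `C_K = pullback c t` at the point `e_K = (ptK c t ε).pt`;
* for a proper smooth integral curve over an algebraically closed field: `ordAt_z_Pe`,
  `ordAt_z_of_ne`, … (the dictionary with the function field), valid for every `ZChart`,
  in particular for the base change of a chart to an algebraically closed field `K ⊇ k`.
-/
import Mathlib
import Fermat.Agent.S25lib.Curve.ChartApi
import Fermat.Agent.S25lib.Curve.BaseChange
import Fermat.Agent.S26lib.ProdAff.Fibre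

set_option autoImplicit false

noncomputable section

namespace Fermat.Agent.S25lib.Curve

open AlgebraicGeometry CategoryTheory CategoryTheory.Limits TopologicalSpace
  Fermat.Agent.S26lib Fermat.Agent.S26lib.Weil Fermat.Agent.S26lib.Aff
  Fermat.Agent.S26lib.CurvePlace Fermat.Agent.S26lib.Quad

universe u

/-- two affine charts `U₁ = C ∖ {e}`, `U₂ ∋ e` with a local parameter `z` at `e` on `U₂` -/
structure ZChart {C : Scheme.{u}} (e : C) where
  /-- the chart `C ∖ {e}` -/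
  U₁ : C.Opens
  /-- a chart around `e` -/
  U₂ : C.Opens
  isAffineOpen₁ : IsAffineOpen U₁
  isAffineOpen₂ : IsAffineOpen U₂
  mem₁_iff : ∀ y : C, y ∈ U₁ ↔ y ≠ e
  mem₂ : e ∈ U₂
  /-- the local parameter at `e` -/
  z : Γ(C, U₂)
  inf_eq : U₁ ⊓ U₂ = C.basicOpen z
  span_z : (isAffineOpen₂.primeIdealOf ⟨e, mem₂⟩).asIdeal = Ideal.span {z}

/-- the underlying `ZChart` of a `PointChart` -/
def PointChart.toZChart {k : Type u} [Field k] {C : Scheme.{u}}
    {c : C ⟶ Spec (CommRingCat.of k)} {e : C} (T : PointChart c e) : ZChart e where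
  U₁ := T.U₁
  U₂ := T.U₂
  isAffineOpen₁ := T.isAffineOpen₁
  isAffineOpen₂ := T.isAffineOpen₂
  mem₁_iff := T.mem₁_iff
  mem₂ := T.mem₂
  z := T.z
  inf_eq := T.inf_eq
  span_z := T.span_z

namespace ZChart

section KPoint

variable {k : Type u} [Field k] {C : Scheme.{u}} (c : C ⟶ Spec (CommRingCat.of k))
  (ε : Prod.KPt c) (Z : ZChart ε.pt)

/-- `Γ(C, U₂) = k + z Γ(C, U₂)` -/
theorem exists_sub_const_mem (b : Γ(C, Z.U₂)) :
    ∃ κ : k, b - (P5a.constHomOpen c Z.U₂).hom κ ∈ Ideal.span {Z.z} := by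
  refine ⟨ε.eval ((C.presheaf.germ Z.U₂ ε.pt Z.mem₂).hom b), ?_⟩
  rw [← Z.span_z, mem_primeIdealOf_iff Z.isAffineOpen₂ ⟨ε.pt, Z.mem₂⟩]
  have := ε.sub_const_mem_maximalIdeal ((C.presheaf.germ Z.U₂ ε.pt Z.mem₂).hom b)
  have h2 : (C.presheaf.germ Z.U₂ ε.pt Z.mem₂).hom
      (b - (P5a.constHomOpen c Z.U₂).hom (ε.eval ((C.presheaf.germ Z.U₂ ε.pt Z.mem₂).hom b))) =
      (C.presheaf.germ Z.U₂ ε.pt Z.mem₂).hom b -
        Prod.KPt.constStalk c ε.pt (ε.eval ((C.presheaf.germ Z.U₂ ε.pt Z.mem₂).hom b)) := by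
    rw [map_sub, PointChart.germ_constHomOpen]
  exact h2 ▸ this

end KPoint

section BaseChange

variable {k : Type u} [Field k] {C : Scheme.{u}} (c : C ⟶ Spec (CommRingCat.of k))
  {K : Type u} [Field K] (t : Spec (CommRingCat.of K) ⟶ Spec (CommRingCat.of k))
  (ε : Prod.KPt c) (Z : ZChart ε.pt)

/-- the pull-back of the local parameter -/
def zK : Γ(pullback c t, ProdAff.box c t Z.U₂ ⊤) :=
  ((pullback.fst c t).appLE Z.U₂ (ProdAff.box c t Z.U₂ ⊤) (ProdAff.box_le_fst c t Z.U₂ ⊤)).hom Z.z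

theorem mem_box₂ : (ptK c t ε).pt ∈ ProdAff.box c t Z.U₂ ⊤ := by
  rw [ProdAff.mem_box_iff, fst_ptK_pt]
  exact ⟨Z.mem₂, trivial⟩

theorem isAffineOpen_box₂ : IsAffineOpen (ProdAff.box c t Z.U₂ ⊤) :=
  ProdAff.isAffineOpen_box' c t Z.isAffineOpen₂ (isAffineOpen_top _)

/-- the pull-back of the local parameter vanishes at `e_K` -/
theorem zK_mem_primeIdealOf :
    zK c t ε Z ∈ ((isAffineOpen_box₂ c t ε Z).primeIdealOf
      ⟨(ptK c t ε).pt, mem_box₂ c t ε Z⟩).asIdeal := by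
  rw [mem_primeIdealOf_iff]
  set x := (ptK c t ε).pt with hx
  have hxU : (pullback.fst c t) x ∈ Z.U₂ := (mem_box₂ c t ε Z).1
  -- the germ of `z` at `π x = e`
  have h1 : (C.presheaf.germ Z.U₂ ((pullback.fst c t) x) hxU).hom Z.z ∈
      IsLocalRing.maximalIdeal (C.presheaf.stalk ((pullback.fst c t) x)) := by
    rw [← mem_primeIdealOf_iff Z.isAffineOpen₂ ⟨(pullback.fst c t) x, hxU⟩]
    have : (⟨(pullback.fst c t) x, hxU⟩ : Z.U₂) = ⟨ε.pt, Z.mem₂⟩ :=
      Subtype.ext (fst_ptK_pt c t ε)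
    rw [this, Z.span_z]
    exact Ideal.mem_span_singleton_self _
  -- the germ of the pull-back
  have h2 : ((pullback c t).presheaf.germ (ProdAff.box c t Z.U₂ ⊤) x (mem_box₂ c t ε Z)).hom
      (zK c t ε Z) =
      ((pullback.fst c t).stalkMap x).hom
        ((C.presheaf.germ Z.U₂ ((pullback.fst c t) x) hxU).hom Z.z) := by
    have := Scheme.Hom.germ_stalkMap (pullback.fst c t) Z.U₂ x hxU
    have h3 := congrArg (fun φ => φ.hom Z.z) this
    simp only [CommRingCat.hom_comp, RingHom.coe_comp, Function.comp_apply] at h3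
    rw [h3]
    unfold zK
    rw [Scheme.Hom.appLE]
    simp only [CommRingCat.hom_comp, RingHom.coe_comp, Function.comp_apply]
    exact TopCat.Presheaf.germ_res_apply _ _ _ _ _
  rw [h2]
  rw [IsLocalRing.mem_maximalIdeal, mem_nonunits_iff] at h1 ⊢
  intro hu
  exact h1 (isUnit_of_map_unit ((pullback.fst c t).stalkMap x).hom _ hu)

/-- `Γ(C_K, U₂ × K) = K + π^♯ z · Γ(C_K, U₂ × K)` -/
theorem exists_sub_snd_mem (w : Γ(pullback c t, ProdAff.box c t Z.U₂ ⊤)) :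
    ∃ κ : Γ(Spec (CommRingCat.of K), ⊤),
      w - ((pullback.snd c t).appLE ⊤ (ProdAff.box c t Z.U₂ ⊤)
        (ProdAff.box_le_snd c t Z.U₂ ⊤)).hom κ ∈ Ideal.span {zK c t ε Z} := by
  refine ProdAff.box_induction c t Z.isAffineOpen₂ (isAffineOpen_top _)
    (P := fun w => ∃ κ : Γ(Spec (CommRingCat.of K), ⊤),
      w - ((pullback.snd c t).appLE ⊤ (ProdAff.box c t Z.U₂ ⊤)
        (ProdAff.box_le_snd c t Z.U₂ ⊤)).hom κ ∈ Ideal.span {zK c t ε Z}) ?_ ?_ ?_ w
  · exact ⟨0, by rw [map_zero, sub_zero]; exact zero_mem _⟩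
  · intro s r
    obtain ⟨κ, hκ⟩ := Z.exists_sub_const_mem c ε s
    rw [Ideal.mem_span_singleton'] at hκ
    obtain ⟨q, hq⟩ := hκ
    refine ⟨(P5a.constHomOpen t ⊤).hom κ * r, ?_⟩
    rw [Ideal.mem_span_singleton']
    refine ⟨((pullback.fst c t).appLE Z.U₂ (ProdAff.box c t Z.U₂ ⊤)
      (ProdAff.box_le_fst c t Z.U₂ ⊤)).hom q *
      ((pullback.snd c t).appLE ⊤ (ProdAff.box c t Z.U₂ ⊤)
        (ProdAff.box_le_snd c t Z.U₂ ⊤)).hom r, ?_⟩
    have hs : s = q * Z.z + (P5a.constHomOpen c Z.U₂).hom κ := by rw [hq]; ring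
    rw [hs, map_add, map_mul, map_mul, ProdAff.appLE_fst_const c t Z.U₂ ⊤ κ]
    unfold zK
    ring
  · rintro a b ⟨κ₁, h₁⟩ ⟨κ₂, h₂⟩
    refine ⟨κ₁ + κ₂, ?_⟩
    rw [map_add]
    have : a + b - (((pullback.snd c t).appLE ⊤ (ProdAff.box c t Z.U₂ ⊤)
        (ProdAff.box_le_snd c t Z.U₂ ⊤)).hom κ₁ +
        ((pullback.snd c t).appLE ⊤ (ProdAff.box c t Z.U₂ ⊤)
        (ProdAff.box_le_snd c t Z.U₂ ⊤)).hom κ₂) =
        (a - ((pullback.snd c t).appLE ⊤ (ProdAff.box c t Z.U₂ ⊤)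
        (ProdAff.box_le_snd c t Z.U₂ ⊤)).hom κ₁) +
        (b - ((pullback.snd c t).appLE ⊤ (ProdAff.box c t Z.U₂ ⊤)
        (ProdAff.box_le_snd c t Z.U₂ ⊤)).hom κ₂) := by ring
    rw [this]
    exact Ideal.add_mem _ h₁ h₂

/-- **the prime ideal of `e_K` in `Γ(C_K, U₂ × K)` is generated by `π^♯ z`** -/
theorem primeIdealOf_eq_span_zK :
    ((isAffineOpen_box₂ c t ε Z).primeIdealOf ⟨(ptK c t ε).pt, mem_box₂ c t ε Z⟩).asIdeal =
      Ideal.span {zK c t ε Z} := by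
  have hfield : IsField Γ(Spec (CommRingCat.of K), ⊤) :=
    MulEquiv.isField (Field.toIsField K)
      (Scheme.ΓSpecIso (CommRingCat.of K)).commRingCatIsoToRingEquiv.toMulEquiv
  apply le_antisymm
  · intro w hw
    obtain ⟨κ, hκ⟩ := exists_sub_snd_mem c t ε Z w
    have hκ' : ((pullback.snd c t).appLE ⊤ (ProdAff.box c t Z.U₂ ⊤)
        (ProdAff.box_le_snd c t Z.U₂ ⊤)).hom κ ∈
        ((isAffineOpen_box₂ c t ε Z).primeIdealOf
          ⟨(ptK c t ε).pt, mem_box₂ c t ε Z⟩).asIdeal := by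
      have h1 := (Ideal.span_singleton_le_iff_mem _).mpr (zK_mem_primeIdealOf c t ε Z) hκ
      have h2 := Ideal.sub_mem _ hw h1
      rwa [sub_sub_cancel] at h2
    by_cases h0 : κ = 0
    · rw [h0, map_zero, sub_zero] at hκ
      exact hκ
    · exfalso
      obtain ⟨κ', hκκ'⟩ := hfield.mul_inv_cancel h0
      have hu : IsUnit (((pullback.snd c t).appLE ⊤ (ProdAff.box c t Z.U₂ ⊤)
          (ProdAff.box_le_snd c t Z.U₂ ⊤)).hom κ) :=
        (IsUnit.of_mul_eq_one _ hκκ').map _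
      exact ((isAffineOpen_box₂ c t ε Z).primeIdealOf
        ⟨(ptK c t ε).pt, mem_box₂ c t ε Z⟩).isPrime.ne_top
        (Ideal.eq_top_of_isUnit_mem _ hκ' hu)
  · rw [Ideal.span_singleton_le_iff_mem]
    exact zK_mem_primeIdealOf c t ε Z

/-- **the base change of a `ZChart` to a field `K`** -/
def baseChange : ZChart (ptK c t ε).pt where
  U₁ := ProdAff.box c t Z.U₁ ⊤
  U₂ := ProdAff.box c t Z.U₂ ⊤
  isAffineOpen₁ := ProdAff.isAffineOpen_box' c t Z.isAffineOpen₁ (isAffineOpen_top _)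
  isAffineOpen₂ := isAffineOpen_box₂ c t ε Z
  mem₁_iff := fun y => by
    rw [ProdAff.mem_box_iff, Z.mem₁_iff, Ne, fst_eq_iff c t ε]
    exact and_iff_left trivial
  mem₂ := mem_box₂ c t ε Z
  z := zK c t ε Z
  inf_eq := by
    unfold zK
    erw [Scheme.basicOpen_appLE, Z.inf_eq.symm]
    ext y
    simp only [Opens.coe_inf, Set.mem_inter_iff, SetLike.mem_coe, ProdAff.mem_box_iff]
    constructor
    · rintro ⟨⟨h1, -⟩, h2, -⟩
      exact ⟨⟨h2, trivial⟩, h1, h2⟩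
    · rintro ⟨⟨h2, -⟩, h1, -⟩
      exact ⟨⟨h1, trivial⟩, h2, trivial⟩
  span_z := primeIdealOf_eq_span_zK c t ε Z

end BaseChange

section Curve

variable {k : Type u} [Field k] [IsAlgClosed k] {C : Scheme.{u}}
  (c : C ⟶ Spec (CommRingCat.of k)) [IsProper c] [SmoothOfRelativeDimension 1 c] [IsIntegral C]
  (ε : Prod.KPt c) (Z : ZChart ε.pt)

theorem generic_mem₁ : genericPoint C ∈ Z.U₁ :=
  (Z.mem₁_iff _).mpr (pt_ne_genericPoint c ε).symm

theorem generic_mem₂ : genericPoint C ∈ Z.U₂ := genericPoint_mem Z.mem₂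

theorem generic_mem₁₂ : genericPoint C ∈ Z.U₁ ⊓ Z.U₂ := ⟨Z.generic_mem₁ c ε, Z.generic_mem₂ c ε⟩

theorem primeDiv_mem₁_iff (Q : PrimeDiv C) : Q.1 ∈ Z.U₁ ↔ Q ≠ Pe c ε := by
  rw [Z.mem₁_iff]
  constructor
  · rintro h rfl
    exact h rfl
  · intro h h'
    exact h (Subtype.ext h')

theorem z_ne_zero : Z.z ≠ 0 := by
  intro h0
  have h := Z.generic_mem₁₂ c ε
  rw [Z.inf_eq, h0, Scheme.basicOpen_zero] at h
  exact h

/-- the local parameter has a simple zero at `e` -/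
theorem ordAt_z_Pe :
    haveI := isLocallyNoetherian c
    ordAt (Pe c ε) (germFF Z.U₂ Z.mem₂ Z.z) = 1 := by
  have hln := isLocallyNoetherian c
  have hdvr : IsDiscreteValuationRing (C.presheaf.stalk ε.pt) := (Pe c ε).2
  have hmax := maximalIdeal_stalk_eq_span Z.isAffineOpen₂ ⟨ε.pt, Z.mem₂⟩ Z.z Z.span_z
  have hirr : Irreducible ((C.presheaf.germ Z.U₂ ε.pt Z.mem₂).hom Z.z) :=
    (IsDiscreteValuationRing.irreducible_iff_uniformizer _).mpr hmax
  rw [germFF_eq_toFF Z.U₂ Z.mem₂ Z.z Z.mem₂]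
  have h0 : toFF C ε.pt ((C.presheaf.germ Z.U₂ ε.pt Z.mem₂).hom Z.z) ≠ 0 :=
    toFF_ne_zero C hirr.ne_zero
  rw [ordAt_eq_iff (Pe c ε) h0 1]
  have hdvr' : IsDiscreteValuationRing (C.presheaf.stalk (Pe c ε).1) := (Pe c ε).2
  exact Ring.ordFrac_irreducible hirr

/-- the local parameter has no other zero on `U₂` -/
theorem ordAt_z_of_ne (Q : PrimeDiv C) (hQ : Q.1 ∈ Z.U₂) (hne : Q ≠ Pe c ε) :
    haveI := isLocallyNoetherian c
    ordAt Q (germFF Z.U₂ Z.mem₂ Z.z) = 0 := by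
  have hln := isLocallyNoetherian c
  rw [← mem_basicOpen_iff_ordAt Z.U₂ Z.mem₂ Z.z (Z.z_ne_zero c ε) Q hQ, ← Z.inf_eq]
  exact ⟨(Z.primeDiv_mem₁_iff c ε Q).mpr hne, hQ⟩

end Curve

section CurveBaseChange

variable {k : Type u} [Field k] [IsAlgClosed k] {C : Scheme.{u}}
  (c : C ⟶ Spec (CommRingCat.of k)) [IsProper c] [SmoothOfRelativeDimension 1 c] [IsIntegral C]
  {K : Type u} [Field K] [IsAlgClosed K] (t : Spec (CommRingCat.of K) ⟶ Spec (CommRingCat.of k))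
  (ε : Prod.KPt c) (Z : ZChart ε.pt)

/-- **`π^♯ z` has a simple zero at `e_K`** (on the integral curve `C_K`, `K` algebraically closed) -/
theorem ordAt_zK_Pe :
    haveI := isIntegral_pullback c t
    haveI := isLocallyNoetherian (pullback.snd c t)
    ordAt (Pe (pullback.snd c t) (ptK c t ε))
      (germFF (ProdAff.box c t Z.U₂ ⊤) (mem_box₂ c t ε Z) (zK c t ε Z)) = 1 :=
  haveI := isIntegral_pullback c t
  (Z.baseChange c t ε).ordAt_z_Pe (pullback.snd c t) (ptK c t ε)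

/-- **`π^♯ z` has no other zero on `U₂ × K`** -/
theorem ordAt_zK_of_ne :
    haveI := isIntegral_pullback c t
    haveI := isLocallyNoetherian (pullback.snd c t)
    ∀ Q : PrimeDiv (pullback c t), Q.1 ∈ ProdAff.box c t Z.U₂ ⊤ →
      Q ≠ Pe (pullback.snd c t) (ptK c t ε) →
      ordAt Q (germFF (ProdAff.box c t Z.U₂ ⊤) (mem_box₂ c t ε Z) (zK c t ε Z)) = 0 :=
  haveI := isIntegral_pullback c t
  fun Q hQ hne => (Z.baseChange c t ε).ordAt_z_of_ne (pullback.snd c t) (ptK c t ε) Q hQ hne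

end CurveBaseChange

end ZChart

end Fermat.Agent.S25lib.Curve
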