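/-
S25lib / Curve / DedekindDescent  (helper8)  --  Project L (S25), curve inputs (CI5), algebra core.

Descent of the Dedekind property along an algebraic field extension `L/K`: if `B` is a noetherian
`K`-algebra and `B ⊗[K] L` is a Dedekind domain, then `B` is a Dedekind domain.
(`B → B ⊗[K] L` is injective and integral, and has a `B`-linear retraction.)
-/
import Mathlib

set_option autoImplicit false

noncomputable section

namespace Fermat.Agent.S25lib.Curve

open TensorProduct Polynomial

section Retraction

variable (K L B : Type*) [Field K] [Field L] [Algebra K L] [CommRing B] [Algebra K B]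

/-- a `B`-linear retraction of `B → B ⊗[K] L` -/
theorem exists_retraction_tensor :
    ∃ ρ : B ⊗[K] L →ₗ[B] B, ∀ b : B, ρ (algebraMap B (B ⊗[K] L) b) = b := by
  have hker : LinearMap.ker (Algebra.linearMap K L) = ⊥ := by
    rw [LinearMap.ker_eq_bot]
    exact (algebraMap K L).injective
  obtain ⟨g, hg⟩ := LinearMap.exists_leftInverse_of_injective (Algebra.linearMap K L) hker
  have hg1 : g 1 = 1 := by
    have := congrArg (fun f => f (1 : K)) hg
    simpa using this
  refine ⟨(TensorProduct.AlgebraTensorModule.rid K B B).toLinearMap ∘ₗ g.baseChange B, fun b => ?_⟩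
  rw [Algebra.TensorProduct.algebraMap_apply, Algebra.algebraMap_self_apply,
    LinearMap.comp_apply, LinearMap.baseChange_tmul, hg1]
  simp

end Retraction

section Descent

variable (K L B : Type*) [Field K] [Field L] [Algebra K L] [Algebra.IsAlgebraic K L]
  [CommRing B] [Algebra K B]

omit [Algebra.IsAlgebraic K L] in
/-- `B → B ⊗[K] L` is injective -/
theorem algebraMap_tensor_injective : Function.Injective (algebraMap B (B ⊗[K] L)) := by
  obtain ⟨ρ, hρ⟩ := exists_retraction_tensor K L B
  intro x y hxy
  rw [← hρ x, ← hρ y, hxy]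

/-- **descent of the Dedekind property along an algebraic extension of the base field** -/
theorem isDedekindDomain_of_tensor_algebraic [IsNoetherianRing B]
    (h : IsDedekindDomain (B ⊗[K] L)) : IsDedekindDomain B := by
  have hinj := algebraMap_tensor_injective K L B
  have hint : Algebra.IsIntegral K L := Algebra.IsAlgebraic.isIntegral
  have hintB : Algebra.IsIntegral B (B ⊗[K] L) := inferInstance
  have hdom : IsDomain B := hinj.isDomain (algebraMap B (B ⊗[K] L))
  obtain ⟨ρ, hρ⟩ := exists_retraction_tensor K L B
  -- dimension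
  have hdim : Ring.DimensionLEOne B := by
    refine ⟨fun {p} hp0 hp => ?_⟩
    obtain ⟨Q, -, hQ, hQp⟩ := Ideal.exists_ideal_over_prime_of_isIntegral p
      (⊥ : Ideal (B ⊗[K] L)) (by
        rw [Ideal.comap_bot_of_injective _ hinj]
        exact bot_le)
    have hQ0 : Q ≠ ⊥ := by
      rintro rfl
      rw [Ideal.comap_bot_of_injective _ hinj] at hQp
      exact hp0 hQp.symm
    have hQmax : Q.IsMaximal := Ring.DimensionLEOne.maximalOfPrime hQ0 hQ
    rw [← hQp]
    exact Ideal.isMaximal_comap_of_isIntegral_of_isMaximal Q
  -- integrally closed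
  have hclosed : IsIntegrallyClosed B := by
    rw [isIntegrallyClosed_iff (FractionRing B)]
    intro x hx
    have hle : nonZeroDivisors B ≤
        (nonZeroDivisors (B ⊗[K] L)).comap (algebraMap B (B ⊗[K] L)) :=
      nonZeroDivisors_le_comap_nonZeroDivisors_of_injective _ hinj
    let φ : FractionRing B →+* FractionRing (B ⊗[K] L) :=
      IsLocalization.map (FractionRing (B ⊗[K] L)) (algebraMap B (B ⊗[K] L)) hle
    have hφ : ∀ b : B, φ (algebraMap B (FractionRing B) b) =
        algebraMap (B ⊗[K] L) (FractionRing (B ⊗[K] L)) (algebraMap B (B ⊗[K] L) b) :=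
      fun b => IsLocalization.map_eq hle b
    -- the image of `x` is integral
    have hx' : IsIntegral (B ⊗[K] L) (φ x) := by
      obtain ⟨p, hp, hpx⟩ := hx
      refine ⟨p.map (algebraMap B (B ⊗[K] L)), hp.map _, ?_⟩
      rw [Polynomial.eval₂_map]
      have hcomp : (algebraMap (B ⊗[K] L) (FractionRing (B ⊗[K] L))).comp
          (algebraMap B (B ⊗[K] L)) = φ.comp (algebraMap B (FractionRing B)) :=
        RingHom.ext fun b => (hφ b).symm
      rw [hcomp, ← Polynomial.hom_eval₂, hpx, map_zero]
    obtain ⟨y, hy⟩ := (isIntegrallyClosed_iff (FractionRing (B ⊗[K] L))).mp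
      (inferInstance : IsIntegrallyClosed (B ⊗[K] L)) hx'
    obtain ⟨p, q, hpq⟩ := IsLocalization.exists_mk'_eq (nonZeroDivisors B) x
    have hxq : x * algebraMap B (FractionRing B) q = algebraMap B (FractionRing B) p := by
      rw [← hpq]
      exact IsLocalization.mk'_spec _ _ _
    have h1 : y * algebraMap B (B ⊗[K] L) q = algebraMap B (B ⊗[K] L) p := by
      apply IsFractionRing.injective (B ⊗[K] L) (FractionRing (B ⊗[K] L))
      rw [map_mul, hy, ← hφ, ← hφ, ← map_mul, hxq]
    have h2 : ρ y * q = p := by
      have := congrArg ρ h1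
      rw [hρ, mul_comm, ← Algebra.smul_def, map_smul, smul_eq_mul, mul_comm] at this
      exact this
    refine ⟨ρ y, ?_⟩
    have hq0 : algebraMap B (FractionRing B) q ≠ 0 := by
      intro h0
      have : (q : B) = 0 := IsFractionRing.injective B (FractionRing B) (by rw [h0, map_zero])
      exact nonZeroDivisors.ne_zero q.2 this
    apply mul_right_cancel₀ hq0
    rw [hxq, ← map_mul, h2]
  exact { toIsDomain := hdom
          toIsNoetherian := inferInstance
          toDimensionLEOne := hdim
          toIsIntegralClosure := hclosed }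

end Descent

end Fermat.Agent.S25lib.Curve
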