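/-
S25lib / Curve / DedekindTensor  (helper8)  --  Project L (S25), curve inputs (CI5)

`c : C ⟶ Spec k` a proper smooth integral curve over `k = k̄`, `U ⊆ C` a non-empty affine open
subscheme, `A = Γ(C, U)` with its `k`-algebra structure `(P5a.constHomOpen c U).hom.toAlgebra`.
**For every field `K ⊇ k` the ring `K ⊗[k] A` is a Dedekind domain** (`isDedekindDomain_tensor`).
-/
import Mathlib
import Fermat.Agent.S25lib.Curve.BaseChange
import Fermat.Agent.S25lib.Curve.ChartApi
import Fermat.Agent.S25lib.Curve.Dedekind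
import Fermat.Agent.S25lib.Curve.DedekindDescent
import Fermat.Agent.S26lib.ProdAff.Box

set_option autoImplicit false

noncomputable section

namespace Fermat.Agent.S25lib.Curve

open AlgebraicGeometry CategoryTheory CategoryTheory.Limits TopologicalSpace TensorProduct
  Fermat.Agent.S26lib

universe u

section Spec

variable {k : Type u} [Field k] {K : Type u} [Field K] [Algebra k K]

/-- the morphism `Spec K ⟶ Spec k` of a field extension -/
abbrev specMapAlg (k K : Type u) [Field k] [Field K] [Algebra k K] :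
    Spec (CommRingCat.of K) ⟶ Spec (CommRingCat.of k) :=
  Spec.map (CommRingCat.ofHom (algebraMap k K))

theorem constHomOpen_specMapAlg_ΓSpecIso :
    P5a.constHomOpen (specMapAlg k K) ⊤ ≫ (Scheme.ΓSpecIso (CommRingCat.of K)).hom =
      CommRingCat.ofHom (algebraMap k K) := by
  unfold P5a.constHomOpen
  have h1 : (specMapAlg k K).appLE ⊤ ⊤ le_top = (specMapAlg k K).appTop :=
    Scheme.Hom.appLE_eq_app _
  rw [h1, Category.assoc, Scheme.ΓSpecIso_naturality, Iso.inv_hom_id_assoc]

/-- global functions on `Spec K`, as a `k`-algebra -/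
def ΓSpecAlgEquiv :
    letI : Algebra k Γ(Spec (CommRingCat.of K), ⊤) :=
      (P5a.constHomOpen (specMapAlg k K) ⊤).hom.toAlgebra
    Γ(Spec (CommRingCat.of K), ⊤) ≃ₐ[k] K :=
  letI : Algebra k Γ(Spec (CommRingCat.of K), ⊤) :=
    (P5a.constHomOpen (specMapAlg k K) ⊤).hom.toAlgebra
  AlgEquiv.ofRingEquiv (f := (Scheme.ΓSpecIso (CommRingCat.of K)).commRingCatIsoToRingEquiv)
    (fun r => congrArg (fun φ => φ.hom r) (constHomOpen_specMapAlg_ΓSpecIso (k := k) (K := K)))

end Spec

section Closed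

variable {k : Type u} [Field k] [IsAlgClosed k] {C : Scheme.{u}}
  (c : C ⟶ Spec (CommRingCat.of k)) [IsProper c] [SmoothOfRelativeDimension 1 c] [IsIntegral C]

/-- **(CI5), algebraically closed case**: `Γ(C, U) ⊗[k] K` is a Dedekind domain for `K = K̄ ⊇ k` -/
theorem isDedekindDomain_tensor_of_isAlgClosed {U : C.Opens} (hU : IsAffineOpen U)
    (hη : genericPoint C ∈ U) (K : Type u) [Field K] [IsAlgClosed K] [Algebra k K] :
    letI : Algebra k Γ(C, U) := (P5a.constHomOpen c U).hom.toAlgebra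
    IsDedekindDomain (Γ(C, U) ⊗[k] K) := by
  let _ : Algebra k Γ(C, U) := (P5a.constHomOpen c U).hom.toAlgebra
  let _ : Algebra k Γ(Spec (CommRingCat.of K), ⊤) :=
    (P5a.constHomOpen (specMapAlg k K) ⊤).hom.toAlgebra
  set t := specMapAlg k K with ht
  have hint : IsIntegral (pullback c t) := isIntegral_pullback c t
  have hsm : Smooth (pullback.snd c t) := smooth (pullback.snd c t)
  have hV : IsAffineOpen (ProdAff.box c t U ⊤) :=
    ProdAff.isAffineOpen_box c t hU (isAffineOpen_top _) rfl rfl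
  have hne : Nonempty (ProdAff.box c t U ⊤) := by
    have hsurj : Surjective (pullback.fst c t) := by
      have : Surjective t := ⟨fun x => ⟨IsLocalRing.closedPoint K, Subsingleton.elim _ _⟩⟩
      infer_instance
    obtain ⟨y, hy⟩ := hsurj.surj (genericPoint C)
    exact ⟨⟨y, by rw [ProdAff.mem_box_iff, hy]; exact ⟨hη, trivial⟩⟩⟩
  have hD : IsDedekindDomain Γ(pullback c t, ProdAff.box c t U ⊤) :=
    isDedekindDomain_of_isAffineOpen (pullback.snd c t) (htr (pullback.snd c t)) hV
  have e1 : Γ(pullback c t, ProdAff.box c t U ⊤) ≃+*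
      Γ(C, U) ⊗[k] Γ(Spec (CommRingCat.of K), ⊤) :=
    ProdAff.tensorEquiv c t hU (isAffineOpen_top _) rfl rfl
  have e2 : Γ(C, U) ⊗[k] Γ(Spec (CommRingCat.of K), ⊤) ≃ₐ[k] Γ(C, U) ⊗[k] K :=
    Algebra.TensorProduct.congr AlgEquiv.refl (ΓSpecAlgEquiv (k := k) (K := K))
  exact isDedekindDomain_of_ringEquiv (e1.trans e2.toRingEquiv)

end Closed

section General

variable {k : Type u} [Field k] [IsAlgClosed k] {C : Scheme.{u}}
  (c : C ⟶ Spec (CommRingCat.of k)) [IsProper c] [SmoothOfRelativeDimension 1 c] [IsIntegral C]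

/-- **(CI5)**: for every field `K ⊇ k` the ring `K ⊗[k] Γ(C, U)` is a Dedekind domain (`U` a non-empty
affine open subscheme of a proper smooth curve over `k = k̄`) -/
theorem isDedekindDomain_tensor {U : C.Opens} (hU : IsAffineOpen U)
    (hη : genericPoint C ∈ U) (K : Type u) [Field K] [Algebra k K] :
    letI : Algebra k Γ(C, U) := (P5a.constHomOpen c U).hom.toAlgebra
    IsDedekindDomain (K ⊗[k] Γ(C, U)) := by
  let _ : Algebra k Γ(C, U) := (P5a.constHomOpen c U).hom.toAlgebra
  have htower : IsScalarTower k K (AlgebraicClosure K) := inferInstance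
  have hft : Algebra.FiniteType k Γ(C, U) := P5a.finiteType_constHomOpen c hU
  have hftK : Algebra.FiniteType K (K ⊗[k] Γ(C, U)) := inferInstance
  have hnoeth : IsNoetherianRing (K ⊗[k] Γ(C, U)) :=
    Algebra.FiniteType.isNoetherianRing K (K ⊗[k] Γ(C, U))
  have hD : IsDedekindDomain (Γ(C, U) ⊗[k] AlgebraicClosure K) :=
    isDedekindDomain_tensor_of_isAlgClosed c hU hη (AlgebraicClosure K)
  have e1 : (K ⊗[k] Γ(C, U)) ⊗[K] AlgebraicClosure K ≃ₐ[K]
      AlgebraicClosure K ⊗[K] (K ⊗[k] Γ(C, U)) := Algebra.TensorProduct.comm K _ _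
  have e2 : AlgebraicClosure K ⊗[K] (K ⊗[k] Γ(C, U)) ≃ₐ[AlgebraicClosure K]
      AlgebraicClosure K ⊗[k] Γ(C, U) :=
    Algebra.TensorProduct.cancelBaseChange k K (AlgebraicClosure K) (AlgebraicClosure K) Γ(C, U)
  have e3 : AlgebraicClosure K ⊗[k] Γ(C, U) ≃ₐ[k] Γ(C, U) ⊗[k] AlgebraicClosure K :=
    Algebra.TensorProduct.comm k _ _
  have hD' : IsDedekindDomain ((K ⊗[k] Γ(C, U)) ⊗[K] AlgebraicClosure K) :=
    isDedekindDomain_of_ringEquiv
      ((e1.toRingEquiv.trans e2.toRingEquiv).trans e3.toRingEquiv).symm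
  exact isDedekindDomain_of_tensor_algebraic K (AlgebraicClosure K) (K ⊗[k] Γ(C, U)) hD'

end General

section Chart

variable {k : Type u} [Field k] [IsAlgClosed k] {C : Scheme.{u}}
  (c : C ⟶ Spec (CommRingCat.of k)) [IsProper c] [SmoothOfRelativeDimension 1 c] [IsIntegral C]
  (ε : Prod.KPt c) (T : PointChart c ε.pt)

/-- `K ⊗[k] Γ(C, C ∖ e)` is a Dedekind domain for every field `K ⊇ k` -/
theorem PointChart.isDedekindDomain_tensor₁ (K : Type u) [Field K] [Algebra k K] :
    letI : Algebra k Γ(C, T.U₁) := (P5a.constHomOpen c T.U₁).hom.toAlgebra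
    IsDedekindDomain (K ⊗[k] Γ(C, T.U₁)) :=
  isDedekindDomain_tensor c T.isAffineOpen₁ (T.generic_mem₁ c ε) K

/-- `K ⊗[k] Γ(C, U₂)` is a Dedekind domain for every field `K ⊇ k` -/
theorem PointChart.isDedekindDomain_tensor₂ (K : Type u) [Field K] [Algebra k K] :
    letI : Algebra k Γ(C, T.U₂) := (P5a.constHomOpen c T.U₂).hom.toAlgebra
    IsDedekindDomain (K ⊗[k] Γ(C, T.U₂)) :=
  isDedekindDomain_tensor c T.isAffineOpen₂ (T.generic_mem₂ c ε) K

/-- `Γ(C, C ∖ e)` is a `k`-algebra of finite type -/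
theorem PointChart.finiteType₁ :
    letI : Algebra k Γ(C, T.U₁) := (P5a.constHomOpen c T.U₁).hom.toAlgebra
    Algebra.FiniteType k Γ(C, T.U₁) :=
  P5a.finiteType_constHomOpen c T.isAffineOpen₁

end Chart

end Fermat.Agent.S25lib.Curve
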