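/-
S25lib / Curve / ParamAlg  (helper8)  --  Project L (S25), input of (P-Mem)

The parameter space of `g`-tuples of points of an affine geometrically integral `k`-scheme
`Spec A` (`A = Γ(C, C ∖ e)`): the algebra `A^{⊗g}`, obtained by induction.

* `geometricallyIntegral_comp` : composition of geometrically integral morphisms
  (`f` flat + universally open, `g` locally of finite type);
* `GeomIntegralAlg k A` := `GeometricallyIntegral (Spec A ⟶ Spec k)`; criterion
  `geomIntegralAlg_of_forall_isDomain`, converse `GeomIntegralAlg.isDomain_tensor`,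
  `GeomIntegralAlg.tensor` (products over a field), `GeomIntegralAlg.baseChange`;
* **`exists_paramAlg`** : `R` of finite type, geometrically integral over `k`, with `g` tautological
  points `p i : A →ₐ[k] R` through which every `g`-tuple of `S`-valued points factors;
* **`exists_paramAlg_field`** : the same over an extension field `K` (`R_K = K ⊗[k] R`);
* `geomIntegralAlg_of_isAffineOpen` : `Γ(C, U)` for a non-empty affine open `U` of a proper smooth
  integral curve over `k = k̄` (from (CI5)); `PointChart.geomIntegralAlg₁`;
  `PointChart.not_finite₁ : ¬ Module.Finite k Γ(C, U₁)`.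
-/
import Mathlib
import Fermat.Agent.S25lib.Curve.DedekindTensor

set_option autoImplicit false

noncomputable section

namespace Fermat.Agent.S25lib.Curve

open AlgebraicGeometry CategoryTheory CategoryTheory.Limits TensorProduct TopologicalSpace
  Fermat.Agent.S26lib

universe u

/-- the fibres over field-valued points of a geometrically integral morphism -/
theorem isIntegral_pullback_of_geometricallyIntegral {X Y : Scheme.{u}} (f : X ⟶ Y)
    [GeometricallyIntegral f] {K : Type u} [Field K] (x : Spec (CommRingCat.of K) ⟶ Y) :
    IsIntegral (pullback f x) :=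
  GeometricallyIntegral.geometrically_isIntegral _ _ _ (.of_hasPullback _ _)

/-- criterion -/
theorem geometricallyIntegral_of_forall_pullback {X Y : Scheme.{u}} (f : X ⟶ Y)
    (h : ∀ (K : Type u) [Field K] (x : Spec (CommRingCat.of K) ⟶ Y), IsIntegral (pullback f x)) :
    GeometricallyIntegral f := by
  refine ⟨fun K _ y Z fst snd hp => ?_⟩
  have := h K y
  exact IsIntegral.of_isIso hp.isoPullback.inv

/-- **composition of geometrically integral morphisms** -/
theorem geometricallyIntegral_comp {X Y Z : Scheme.{u}} (f : X ⟶ Y) (g : Y ⟶ Z)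
    [GeometricallyIntegral f] [GeometricallyIntegral g] [Flat f] [UniversallyOpen f]
    [LocallyOfFiniteType g] : GeometricallyIntegral (f ≫ g) := by
  refine geometricallyIntegral_of_forall_pullback _ fun K _ x => ?_
  have h1 : IsIntegral (pullback g x) := isIntegral_pullback_of_geometricallyIntegral g x
  have h2 : LocallyOfFiniteType (pullback.snd g x) := inferInstance
  have h3 : IsLocallyNoetherian (pullback g x) :=
    LocallyOfFiniteType.isLocallyNoetherian (pullback.snd g x)
  have h4 : IsIntegral (pullback f (pullback.fst g x)) := inferInstance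
  exact IsIntegral.of_isIso (pullbackRightPullbackFstIso g x f).hom

/-- `Spec A ⟶ Spec k` is geometrically integral -/
def GeomIntegralAlg (k A : Type u) [CommRing k] [CommRing A] [Algebra k A] : Prop :=
  GeometricallyIntegral (Spec.map (CommRingCat.ofHom (algebraMap k A)))

/-- criterion: all the `K ⊗[k] A`, `K` a field, are domains -/
theorem geomIntegralAlg_of_forall_isDomain (k A : Type u) [CommRing k] [CommRing A] [Algebra k A]
    (h : ∀ (K : Type u) [Field K] [Algebra k K], IsDomain (K ⊗[k] A)) : GeomIntegralAlg k A := by
  refine geometricallyIntegral_of_forall_pullback _ fun K _ x => ?_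
  obtain ⟨ψ, rfl⟩ := Spec.map_surjective x
  let _ : Algebra k K := ψ.hom.toAlgebra
  have hd : IsDomain (A ⊗[k] K) :=
    (Algebra.TensorProduct.comm k A K).toMulEquiv.isDomain_iff.mpr (h K)
  have h1 : IsIntegral (Spec (CommRingCat.of (A ⊗[k] K))) :=
    (affine_isIntegral_iff _).mpr hd
  exact IsIntegral.of_isIso (pullbackSpecIso k A K).inv

/-- conversely -/
theorem GeomIntegralAlg.isDomain_tensor {k A : Type u} [CommRing k] [CommRing A] [Algebra k A]
    (h : GeomIntegralAlg k A) (K : Type u) [Field K] [Algebra k K] : IsDomain (K ⊗[k] A) := by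
  have : GeometricallyIntegral (Spec.map (CommRingCat.ofHom (algebraMap k A))) := h
  have h1 : IsIntegral (pullback (Spec.map (CommRingCat.ofHom (algebraMap k A)))
      (Spec.map (CommRingCat.ofHom (algebraMap k K)))) :=
    isIntegral_pullback_of_geometricallyIntegral _ _
  have h2 : IsIntegral (Spec (CommRingCat.of (A ⊗[k] K))) :=
    IsIntegral.of_isIso (pullbackSpecIso k A K).hom
  have hd : IsDomain (A ⊗[k] K) := (affine_isIntegral_iff _).mp h2
  exact (Algebra.TensorProduct.comm k A K).toMulEquiv.isDomain_iff.mp hd

/-- **products** -/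
theorem GeomIntegralAlg.tensor {k A R : Type u} [Field k] [CommRing A] [Algebra k A]
    [CommRing R] [Algebra k R] [Algebra.FiniteType k R]
    (hA : GeomIntegralAlg k A) (hR : GeomIntegralAlg k R) : GeomIntegralAlg k (A ⊗[k] R) := by
  have : GeometricallyIntegral (Spec.map (CommRingCat.ofHom (algebraMap k A))) := hA
  have : GeometricallyIntegral (Spec.map (CommRingCat.ofHom (algebraMap k R))) := hR
  have hft : LocallyOfFiniteType (Spec.map (CommRingCat.ofHom (algebraMap k R))) := by
    rw [HasRingHomProperty.Spec_iff (P := @LocallyOfFiniteType)]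
    exact (RingHom.finiteType_algebraMap (A := k) (B := R)).mpr inferInstance
  have h1 : GeometricallyIntegral
      (pullback.snd (Spec.map (CommRingCat.ofHom (algebraMap k A)))
        (Spec.map (CommRingCat.ofHom (algebraMap k R))) ≫
        Spec.map (CommRingCat.ofHom (algebraMap k R))) :=
    geometricallyIntegral_comp _ _
  have h2 : Spec.map (CommRingCat.ofHom (algebraMap k (A ⊗[k] R))) =
      (pullbackSpecIso k A R).inv ≫
        (pullback.snd (Spec.map (CommRingCat.ofHom (algebraMap k A)))
        (Spec.map (CommRingCat.ofHom (algebraMap k R))) ≫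
        Spec.map (CommRingCat.ofHom (algebraMap k R))) := by
    rw [← Category.assoc, pullbackSpecIso_inv_snd, ← Spec.map_comp, ← CommRingCat.ofHom_comp]
    congr 2
    ext r
    simp
  unfold GeomIntegralAlg
  rw [h2]
  exact (MorphismProperty.cancel_left_of_respectsIso @GeometricallyIntegral _ _).mpr h1

/-- **base change** -/
theorem GeomIntegralAlg.baseChange {k R : Type u} [CommRing k] [CommRing R] [Algebra k R]
    (hR : GeomIntegralAlg k R) (K : Type u) [CommRing K] [Algebra k K] :
    GeomIntegralAlg K (K ⊗[k] R) := by
  have : GeometricallyIntegral (Spec.map (CommRingCat.ofHom (algebraMap k R))) := hR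
  have h2 : Spec.map (CommRingCat.ofHom (algebraMap K (K ⊗[k] R))) =
      (pullbackSpecIso k K R).inv ≫
        pullback.fst (Spec.map (CommRingCat.ofHom (algebraMap k K)))
        (Spec.map (CommRingCat.ofHom (algebraMap k R))) := by
    rw [pullbackSpecIso_inv_fst]
  unfold GeomIntegralAlg
  rw [h2]
  exact (MorphismProperty.cancel_left_of_respectsIso @GeometricallyIntegral _ _).mpr inferInstance

/-- the ground ring -/
theorem geomIntegralAlg_self (k : Type u) [CommRing k] : GeomIntegralAlg k k := by
  refine geomIntegralAlg_of_forall_isDomain k k fun K _ _ => ?_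
  exact (Algebra.TensorProduct.rid k K K).toMulEquiv.isDomain_iff.mpr inferInstance

/-- **the parameter algebra of `g`-tuples of points of `Spec A`**: a `k`-algebra `R` of finite type,
geometrically integral, with `g` tautological points `p i : A →ₐ[k] R`, through which every
`g`-tuple of `S`-valued points factors (`R = A^{⊗g}`) -/
theorem exists_paramAlg (k A : Type u) [Field k] [CommRing A] [Algebra k A]
    [Algebra.FiniteType k A] (hA : GeomIntegralAlg k A) (g : ℕ) :
    ∃ (R : Type u) (_ : CommRing R) (_ : Algebra k R), Algebra.FiniteType k R ∧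
      GeomIntegralAlg k R ∧ ∃ p : Fin g → (A →ₐ[k] R),
        ∀ (S : Type u) [CommRing S] [Algebra k S] (x : Fin g → (A →ₐ[k] S)),
          ∃ φ : R →ₐ[k] S, ∀ i, φ.comp (p i) = x i := by
  induction g with
  | zero =>
    refine ⟨k, inferInstance, inferInstance, inferInstance, geomIntegralAlg_self k, Fin.elim0, ?_⟩
    intro S _ _ x
    exact ⟨Algebra.ofId k S, fun i => i.elim0⟩
  | succ g ih =>
    obtain ⟨R, _, _, hft, hgi, p, hp⟩ := ih
    have hft' : Algebra.FiniteType k (A ⊗[k] R) :=
      Algebra.FiniteType.trans (S := A) inferInstance inferInstance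
    refine ⟨A ⊗[k] R, inferInstance, inferInstance, hft', hA.tensor hgi,
      Fin.cons Algebra.TensorProduct.includeLeft
        (fun i => Algebra.TensorProduct.includeRight.comp (p i)), ?_⟩
    intro S _ _ x
    obtain ⟨φ, hφ⟩ := hp S (fun i => x i.succ)
    refine ⟨Algebra.TensorProduct.lift (x 0) φ (fun _ _ => Commute.all _ _), ?_⟩
    intro i
    refine Fin.cases ?_ (fun j => ?_) i
    · ext a
      simp
    · ext a
      have := DFunLike.congr_fun (hφ j) a
      simpa using this

/-- **the parameter algebra over an extension field `K`**: `R` of finite type and geometrically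
integral over `K`, with `g` tautological points `p i : A →ₐ[k] R`; every `g`-tuple of points of
`Spec A` with values in a `K`-algebra `S` is induced by a `K`-algebra homomorphism `R → S` -/
theorem exists_paramAlg_field (k A : Type u) [Field k] [CommRing A] [Algebra k A]
    [Algebra.FiniteType k A] (hA : GeomIntegralAlg k A) (g : ℕ) (K : Type u) [Field K]
    [Algebra k K] :
    ∃ (R : Type u) (_ : CommRing R) (_ : Algebra k R) (_ : Algebra K R) (_ : IsScalarTower k K R),
      Algebra.FiniteType K R ∧ GeomIntegralAlg K R ∧ ∃ p : Fin g → (A →ₐ[k] R),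
        ∀ (S : Type u) [CommRing S] [Algebra k S] [Algebra K S] [IsScalarTower k K S]
          (x : Fin g → (A →ₐ[k] S)), ∃ φ : R →ₐ[K] S, ∀ i a, φ (p i a) = x i a := by
  obtain ⟨R, _, _, hft, hgi, p, hp⟩ := exists_paramAlg k A hA g
  refine ⟨K ⊗[k] R, inferInstance, inferInstance, inferInstance, inferInstance, inferInstance,
    hgi.baseChange K, fun i => Algebra.TensorProduct.includeRight.comp (p i), ?_⟩
  intro S _ _ _ _ x
  obtain ⟨φ, hφ⟩ := hp S x
  refine ⟨Algebra.TensorProduct.lift (Algebra.ofId K S) φ (fun _ _ => Commute.all _ _), ?_⟩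
  intro i a
  have := DFunLike.congr_fun (hφ i) a
  simpa using this

/-- a finitely generated algebra gives a morphism locally of finite type -/
theorem locallyOfFiniteType_Spec_of_finiteType (K R : Type u) [CommRing K] [CommRing R]
    [Algebra K R] [Algebra.FiniteType K R] :
    LocallyOfFiniteType (Spec.map (CommRingCat.ofHom (algebraMap K R))) := by
  rw [HasRingHomProperty.Spec_iff (P := @LocallyOfFiniteType)]
  exact (RingHom.finiteType_algebraMap (A := K) (B := R)).mpr inferInstance

section Curve

variable {k : Type u} [Field k] [IsAlgClosed k] {C : Scheme.{u}}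
  (c : C ⟶ Spec (CommRingCat.of k)) [IsProper c] [SmoothOfRelativeDimension 1 c] [IsIntegral C]

/-- the ring of a non-empty affine open subscheme of the curve is geometrically integral -/
theorem geomIntegralAlg_of_isAffineOpen {U : C.Opens} (hU : IsAffineOpen U)
    (hη : genericPoint C ∈ U) :
    letI : Algebra k Γ(C, U) := (P5a.constHomOpen c U).hom.toAlgebra
    GeomIntegralAlg k Γ(C, U) := by
  let _ : Algebra k Γ(C, U) := (P5a.constHomOpen c U).hom.toAlgebra
  refine geomIntegralAlg_of_forall_isDomain k Γ(C, U) fun K _ _ => ?_
  have := isDedekindDomain_tensor c hU hη K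
  infer_instance

end Curve

section Chart

variable {k : Type u} [Field k] {C : Scheme.{u}}
  (c : C ⟶ Spec (CommRingCat.of k)) {e : C} (T : PointChart c e)

/-- `Γ(C, C ∖ e)` is not finite-dimensional over `k` (it contains the polynomial ring `k[a]`) -/
theorem PointChart.not_finite₁ :
    letI : Algebra k Γ(C, T.U₁) := (P5a.constHomOpen c T.U₁).hom.toAlgebra
    ¬ Module.Finite k Γ(C, T.U₁) := by
  let _ : Algebra k Γ(C, T.U₁) := (P5a.constHomOpen c T.U₁).hom.toAlgebra
  intro hfin
  let φ : Polynomial k →ₐ[k] Γ(C, T.U₁) := Polynomial.aeval T.a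
  have hφ : Function.Injective φ := by
    intro p q hpq
    apply T.injective
    have h1 : ∀ p : Polynomial k, φ p =
        Polynomial.eval₂RingHom (P5a.constHomOpen c T.U₁).hom T.a p := fun p => rfl
    rw [← h1, ← h1, hpq]
  have : Module.Finite k (Polynomial k) := Module.Finite.of_injective φ.toLinearMap hφ
  exact Polynomial.not_finite this

end Chart

section ChartCurve

variable {k : Type u} [Field k] [IsAlgClosed k] {C : Scheme.{u}}
  (c : C ⟶ Spec (CommRingCat.of k)) [IsProper c] [SmoothOfRelativeDimension 1 c] [IsIntegral C]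
  (ε : Prod.KPt c) (T : PointChart c ε.pt)

/-- `Γ(C, C ∖ e)` is geometrically integral over `k` -/
theorem PointChart.geomIntegralAlg₁ :
    letI : Algebra k Γ(C, T.U₁) := (P5a.constHomOpen c T.U₁).hom.toAlgebra
    GeomIntegralAlg k Γ(C, T.U₁) :=
  geomIntegralAlg_of_isAffineOpen c T.isAffineOpen₁ (T.generic_mem₁ c ε)

end ChartCurve

end Fermat.Agent.S25lib.Curve
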