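/-
S25lib / Curve / ExtPt  (helper8)  --  Project L (S25), algebra for (P-Mem), Mathlib only

`R → S` an algebra with a section `ev : S →ₐ[R] R` (an `R`-valued point of `Spec S`), `J = ker ev`,
`P` an ideal of `S` which is an invertible `S`-module.  Then

* `Fib ev P = P / J P` is the base change of `P` along `ev` (`Fib.isBaseChange`), hence an
  invertible `R`-module (`Fib.invertible`), of rank one (`rankAtStalk_eq_one_of_invertible`);
* `0 → P / J P → S / P J → S / P → 0` is exact (`Fib.incl`, `Fib.proj`), and split if `S / P` is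
  `R`-projective (`Fib.nonempty_equiv_prod`);
* **`finite_projective_rank_mul_ker`** : if `S / P` is a finite projective `R`-module of constant
  rank `m`, then `S / P J` is finite projective of constant rank `m + 1`.
-/
import Mathlib

set_option autoImplicit false

noncomputable section

namespace Fermat.Agent.S25lib.Curve

open TensorProduct

universe u v

/-- an invertible module has rank one at every prime -/
theorem rankAtStalk_eq_one_of_invertible {R : Type u} [CommRing R] (N : Type v) [AddCommGroup N]
    [Module R N] [Module.Invertible R N] (p : PrimeSpectrum R) : Module.rankAtStalk N p = 1 := by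
  have : Nontrivial R := p.nontrivial
  have e : Module.Dual R N ⊗[R] N ≃ₗ[R] R := Module.Invertible.linearEquiv R N
  have h1 : Module.rankAtStalk (Module.Dual R N ⊗[R] N) p = 1 := by
    rw [Module.rankAtStalk_eq_of_equiv e, Module.rankAtStalk_self]
    rfl
  rw [Module.rankAtStalk_tensorProduct] at h1
  exact Nat.eq_one_of_mul_eq_one_left h1

section Fib

variable {R : Type u} {S : Type v} [CommRing R] [CommRing S] [Algebra R S] (ev : S →ₐ[R] R)
  (P : Ideal S)

/-- the fibre `P / J P` of the ideal `P` along the section `ev` (`J = ker ev`) -/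
abbrev Fib : Type v := P ⧸ ((RingHom.ker ev) • (⊤ : Submodule S P))

theorem sub_algebraMap_mem_ker (s : S) : s - algebraMap R S (ev s) ∈ RingHom.ker ev := by
  rw [RingHom.mem_ker, map_sub, AlgHom.commutes, Algebra.algebraMap_self_apply, sub_self]

/-- on the fibre, `S` acts through `ev` -/
theorem Fib.smul_eq (s : S) (x : Fib ev P) : s • x = (ev s) • x := by
  obtain ⟨p, rfl⟩ := Submodule.Quotient.mk_surjective _ x
  rw [← Submodule.Quotient.mk_smul, ← Submodule.Quotient.mk_smul, ← sub_eq_zero,
    ← Submodule.Quotient.mk_sub, Submodule.Quotient.mk_eq_zero]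
  have h : s • p - ev s • p = (s - algebraMap R S (ev s)) • p := by
    rw [sub_smul, algebraMap_smul]
  rw [h]
  exact Submodule.smul_mem_smul (sub_algebraMap_mem_ker ev s) trivial

/-- the fibre is the base change of `P` along `ev : S → R` -/
theorem Fib.isBaseChange :
    letI : Algebra S R := ev.toRingHom.toAlgebra
    haveI : IsScalarTower S R (Fib ev P) := ⟨fun s r x => by
      show (ev s * r) • x = s • (r • x)
      rw [Fib.smul_eq ev P s (r • x), smul_smul]⟩
    IsBaseChange R (Submodule.mkQ ((RingHom.ker ev) • (⊤ : Submodule S P))) := by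
  let _ : Algebra S R := ev.toRingHom.toAlgebra
  have : IsScalarTower S R (Fib ev P) := ⟨fun s r x => by
    show (ev s * r) • x = s • (r • x)
    rw [Fib.smul_eq ev P s (r • x), smul_smul]⟩
  apply IsBaseChange.of_lift_unique
  intro Q _ _ _ _ g
  let _ : AddCommGroup Q := Module.addCommMonoidToAddCommGroup S
  have hQ : ∀ (s : S) (q : Q), s • q = (ev s) • q := by
    intro s q
    have h1 : s • q = s • ((1 : R) • q) := by rw [one_smul]
    rw [h1, ← smul_assoc]
    congr 1
    show ev s * 1 = ev s
    rw [mul_one]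
  have hker : (RingHom.ker ev) • (⊤ : Submodule S P) ≤ LinearMap.ker g := by
    rw [Submodule.smul_le]
    intro j hj p _
    rw [LinearMap.mem_ker, map_smul, hQ, (RingHom.mem_ker).mp hj, zero_smul]
  let gS : Fib ev P →ₗ[S] Q := Submodule.liftQ _ g hker
  let g' : Fib ev P →ₗ[R] Q :=
    { toFun := gS
      map_add' := gS.map_add
      map_smul' := fun r x => by
        have h1 : r • x = (algebraMap R S r) • x := (algebraMap_smul S r x).symm
        rw [h1, map_smul, hQ, AlgHom.commutes]
        rfl }
  refine ⟨g', LinearMap.ext fun p => rfl, ?_⟩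
  intro g'' hg''
  refine LinearMap.ext fun x => ?_
  obtain ⟨p, rfl⟩ := Submodule.Quotient.mk_surjective _ x
  exact DFunLike.congr_fun hg'' p

/-- **the fibre of an invertible ideal is an invertible module over the base** -/
theorem Fib.invertible [Module.Invertible S P] : Module.Invertible R (Fib ev P) := by
  let _ : Algebra S R := ev.toRingHom.toAlgebra
  have : IsScalarTower S R (Fib ev P) := ⟨fun s r x => by
    show (ev s * r) • x = s • (r • x)
    rw [Fib.smul_eq ev P s (r • x), smul_smul]⟩
  have hbc := Fib.isBaseChange ev P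
  exact Module.Invertible.congr hbc.equiv

/-- the inclusion `P / J P → S / P J` -/
def Fib.incl : Fib ev P →ₗ[R] S ⧸ (P * RingHom.ker ev) :=
  ((Submodule.liftQ ((RingHom.ker ev) • (⊤ : Submodule S P))
    ((Submodule.mkQ (P * RingHom.ker ev)).comp P.subtype) (by
      rw [Submodule.smul_le]
      intro j hj p _
      rw [LinearMap.mem_ker]
      show Submodule.Quotient.mk ((j • p : P) : S) = 0
      rw [Submodule.Quotient.mk_eq_zero]
      show j * (p : S) ∈ P * RingHom.ker ev
      exact Ideal.mul_mem_mul_rev p.2 hj)).restrictScalars R)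

theorem Fib.incl_mk (p : P) :
    Fib.incl ev P (Submodule.Quotient.mk p) = Ideal.Quotient.mk (P * RingHom.ker ev) (p : S) := rfl

theorem Fib.incl_injective : Function.Injective (Fib.incl ev P) := by
  rw [← LinearMap.ker_eq_bot, LinearMap.ker_eq_bot']
  intro x hx
  obtain ⟨p, rfl⟩ := Submodule.Quotient.mk_surjective _ x
  rw [Fib.incl_mk, Ideal.Quotient.eq_zero_iff_mem] at hx
  rw [Submodule.Quotient.mk_eq_zero]
  -- `p ∈ P J` as an element of `S`, hence `p ∈ J • ⊤`
  have h1 : (P * RingHom.ker ev : Ideal S) =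
      Submodule.map P.subtype ((RingHom.ker ev) • (⊤ : Submodule S P)) := by
    rw [Submodule.map_smul'', Submodule.map_top, Submodule.range_subtype, mul_comm]
    rfl
  rw [h1] at hx
  obtain ⟨q, hq, hqp⟩ := hx
  have : q = p := Subtype.ext hqp
  rwa [← this]

/-- the projection `S / P J → S / P` -/
def Fib.proj : (S ⧸ (P * RingHom.ker ev)) →ₗ[R] S ⧸ P :=
  (Ideal.Quotient.factorₐ R (Ideal.mul_le_left : P * RingHom.ker ev ≤ P)).toLinearMap

theorem Fib.proj_mk (s : S) :
    Fib.proj ev P (Ideal.Quotient.mk _ s) = Ideal.Quotient.mk P s := rfl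

theorem Fib.proj_surjective : Function.Surjective (Fib.proj ev P) := by
  intro y
  obtain ⟨s, rfl⟩ := Ideal.Quotient.mk_surjective y
  exact ⟨Ideal.Quotient.mk _ s, rfl⟩

theorem Fib.proj_incl (x : Fib ev P) : Fib.proj ev P (Fib.incl ev P x) = 0 := by
  obtain ⟨p, rfl⟩ := Submodule.Quotient.mk_surjective _ x
  rw [Fib.incl_mk, Fib.proj_mk, Ideal.Quotient.eq_zero_iff_mem]
  exact p.2

theorem Fib.exists_incl_eq (y : S ⧸ (P * RingHom.ker ev)) (hy : Fib.proj ev P y = 0) :
    ∃ x, Fib.incl ev P x = y := by
  obtain ⟨s, rfl⟩ := Ideal.Quotient.mk_surjective y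
  rw [Fib.proj_mk, Ideal.Quotient.eq_zero_iff_mem] at hy
  exact ⟨Submodule.Quotient.mk ⟨s, hy⟩, rfl⟩

/-- **`S / P J ≅ P / J P ⊕ S / P`** when `S / P` is a projective `R`-module -/
theorem Fib.nonempty_equiv_prod [Module.Projective R (S ⧸ P)] :
    Nonempty ((Fib ev P × (S ⧸ P)) ≃ₗ[R] (S ⧸ (P * RingHom.ker ev))) := by
  obtain ⟨σ, hσ⟩ := Module.projective_lifting_property (Fib.proj ev P) LinearMap.id
    (Fib.proj_surjective ev P)
  have hσ' : ∀ q, Fib.proj ev P (σ q) = q := fun q => DFunLike.congr_fun hσ q
  let e : (Fib ev P × (S ⧸ P)) →ₗ[R] (S ⧸ (P * RingHom.ker ev)) := (Fib.incl ev P).coprod σ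
  have he : ∀ x q, e (x, q) = Fib.incl ev P x + σ q := fun x q => LinearMap.coprod_apply _ _ _
  refine ⟨LinearEquiv.ofBijective e ⟨?_, ?_⟩⟩
  · rw [← LinearMap.ker_eq_bot, LinearMap.ker_eq_bot']
    rintro ⟨x, q⟩ h
    rw [he] at h
    have h1 := congrArg (Fib.proj ev P) h
    rw [map_add, Fib.proj_incl, hσ', zero_add, map_zero] at h1
    rw [h1, map_zero, add_zero] at h
    have h2 : x = 0 := Fib.incl_injective ev P (by rw [h, map_zero])
    rw [h1, h2]
    rfl
  · intro y
    obtain ⟨x, hx⟩ := Fib.exists_incl_eq ev P (y - σ (Fib.proj ev P y)) (by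
      rw [map_sub, hσ', sub_self])
    exact ⟨(x, Fib.proj ev P y), by rw [he, hx, sub_add_cancel]⟩

/-- **if `S / P` is finite projective of constant rank `m` over `R`, then `S / P J` is finite
projective of constant rank `m + 1`** (`P` invertible, `J` the kernel of a section `S → R`) -/
theorem finite_projective_rank_mul_ker [Module.Invertible S P] [Module.Finite R (S ⧸ P)]
    [Module.Projective R (S ⧸ P)] (m : ℕ)
    (hm : ∀ p : PrimeSpectrum R, Module.rankAtStalk (S ⧸ P) p = m) :
    Module.Finite R (S ⧸ (P * RingHom.ker ev)) ∧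
      Module.Projective R (S ⧸ (P * RingHom.ker ev)) ∧
      ∀ p : PrimeSpectrum R, Module.rankAtStalk (S ⧸ (P * RingHom.ker ev)) p = m + 1 := by
  have hinv : Module.Invertible R (Fib ev P) := Fib.invertible ev P
  obtain ⟨e⟩ := Fib.nonempty_equiv_prod ev P
  refine ⟨Module.Finite.equiv e, Module.Projective.of_equiv e, fun p => ?_⟩
  rw [← Module.rankAtStalk_eq_of_equiv e, Module.rankAtStalk_prod, Pi.add_apply, hm,
    rankAtStalk_eq_one_of_invertible, add_comm]

end Fib

end Fermat.Agent.S25lib.Curve
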