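/-
S25lib / Curve / IdealPoints  (helper8)  --  Project L (S25), input of (P-Mem)

Over an algebraically closed field `K`, in a Dedekind domain `B` of finite type over `K`
(e.g. `B = K ⊗[k] Γ(C, U₁)`):

* `exists_algHom_ker_eq` : every maximal ideal is the kernel of a `K`-point `B →ₐ[K] K`;
* `exists_prod_ker_eq` : every non-zero ideal is a finite product `∏_{i<n} ker (x_i)` of kernels of
  `K`-points (`D_I = Σ x_i`);
* `evalPt y : R ⊗[k] A →ₐ[R] R`, `ptIdeal y := ker (evalPt y)` for an `R`-valued point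
  `y : A →ₐ[k] R` of `Spec A` (`eq_evalPt`, `ptIdeal_eq_span`, `quotPtIdealEquiv`, `map_ptIdeal`,
  `map_prod_ptIdeal` : compatibility with base change `R → R'`);
* `exists_prod_ptIdeal_eq` : the factorisation in `K ⊗[k] A`.
Mathlib only.
-/
import Mathlib

set_option autoImplicit false

noncomputable section

namespace Fermat.Agent.S25lib.Curve

universe u v w w'

open TensorProduct

/-- **Nullstellensatz**: a maximal ideal of an algebra of finite type over an algebraically closed
field is the kernel of a rational point -/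
theorem exists_algHom_ker_eq {K : Type u} {B : Type v} [Field K] [IsAlgClosed K] [CommRing B]
    [Algebra K B] [Algebra.FiniteType K B] (P : Ideal B) [hP : P.IsMaximal] :
    ∃ x : B →ₐ[K] K, RingHom.ker x = P := by
  let _ : Field (B ⧸ P) := Ideal.Quotient.field P
  have hft : Algebra.FiniteType K (B ⧸ P) :=
    Algebra.FiniteType.of_surjective (Ideal.Quotient.mkₐ K P) Ideal.Quotient.mk_surjective
  have hfin : Module.Finite K (B ⧸ P) := finite_of_finite_type_of_isJacobsonRing K (B ⧸ P)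
  have hint : Algebra.IsIntegral K (B ⧸ P) := Algebra.IsIntegral.of_finite K (B ⧸ P)
  have hbij : Function.Bijective (algebraMap K (B ⧸ P)) :=
    IsAlgClosed.algebraMap_bijective_of_isIntegral
  let e : K ≃ₐ[K] (B ⧸ P) := AlgEquiv.ofBijective (Algebra.ofId K (B ⧸ P)) hbij
  refine ⟨(e.symm : (B ⧸ P) →ₐ[K] K).comp (Ideal.Quotient.mkₐ K P), ?_⟩
  ext b
  rw [RingHom.mem_ker]
  constructor
  · intro h
    have h1 : e.symm (Ideal.Quotient.mkₐ K P b) = 0 := h
    have h2 : Ideal.Quotient.mkₐ K P b = 0 := by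
      rw [← e.apply_symm_apply (Ideal.Quotient.mkₐ K P b), h1, map_zero]
    exact Ideal.Quotient.eq_zero_iff_mem.mp h2
  · intro h
    have h2 : Ideal.Quotient.mkₐ K P b = 0 := Ideal.Quotient.eq_zero_iff_mem.mpr h
    show e.symm (Ideal.Quotient.mkₐ K P b) = 0
    rw [h2, map_zero]

/-- **every non-zero ideal of a Dedekind domain of finite type over an algebraically closed field
is a product of kernels of rational points** -/
theorem exists_prod_ker_eq {K : Type u} {B : Type v} [Field K] [IsAlgClosed K] [CommRing B]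
    [IsDedekindDomain B] [Algebra K B] [Algebra.FiniteType K B] (I : Ideal B) (hI : I ≠ ⊥) :
    ∃ (n : ℕ) (x : Fin n → (B →ₐ[K] K)), I = ∏ i, RingHom.ker (x i) := by
  classical
  -- every prime factor is the kernel of a point
  have hpt : ∀ P ∈ UniqueFactorizationMonoid.normalizedFactors I,
      ∃ x : B →ₐ[K] K, RingHom.ker x = P := by
    intro P hP
    have hprime : Prime P := UniqueFactorizationMonoid.prime_of_normalized_factor P hP
    have hP0 : P ≠ ⊥ := hprime.ne_zero
    have hPp : P.IsPrime := Ideal.isPrime_of_prime hprime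
    have hmax : P.IsMaximal := hPp.isMaximal hP0
    exact exists_algHom_ker_eq P
  -- induction on the multiset of factors
  have key : ∀ s : Multiset (Ideal B), (∀ P ∈ s, ∃ x : B →ₐ[K] K, RingHom.ker x = P) →
      ∃ (n : ℕ) (x : Fin n → (B →ₐ[K] K)), s.prod = ∏ i, RingHom.ker (x i) := by
    intro s
    induction s using Multiset.induction_on with
    | empty =>
      intro _
      exact ⟨0, Fin.elim0, by simp⟩
    | cons P s ih =>
      intro h
      obtain ⟨n, x, hx⟩ := ih fun Q hQ => h Q (Multiset.mem_cons_of_mem hQ)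
      obtain ⟨x₀, hx₀⟩ := h P (Multiset.mem_cons_self P s)
      refine ⟨n + 1, Fin.cons x₀ x, ?_⟩
      rw [Multiset.prod_cons, Fin.prod_univ_succ, hx]
      simp only [Fin.cons_zero, Fin.cons_succ, hx₀]
  obtain ⟨n, x, hx⟩ := key _ hpt
  exact ⟨n, x, by rw [← hx, Ideal.prod_normalizedFactors_eq_self hI]⟩

section PtIdeal

variable {k : Type u} [CommRing k] {A : Type v} [CommRing A] [Algebra k A]
  {R : Type w} [CommRing R] [Algebra k R] {R' : Type w'} [CommRing R'] [Algebra k R']

/-- evaluation at an `R`-valued point `y` of `Spec A`: `R ⊗[k] A →ₐ[R] R`, `r ⊗ a ↦ r * y a` -/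
def evalPt (y : A →ₐ[k] R) : R ⊗[k] A →ₐ[R] R :=
  Algebra.TensorProduct.lift (Algebra.ofId R R) y fun _ _ => Commute.all _ _

@[simp] theorem evalPt_tmul (y : A →ₐ[k] R) (r : R) (a : A) : evalPt y (r ⊗ₜ[k] a) = r * y a := by
  simp [evalPt]

theorem evalPt_surjective (y : A →ₐ[k] R) : Function.Surjective (evalPt y) := fun r =>
  ⟨r ⊗ₜ[k] 1, by simp⟩

/-- every `R`-point of `R ⊗[k] A` is an evaluation -/
theorem eq_evalPt (x : R ⊗[k] A →ₐ[R] R) :
    x = evalPt ((x.restrictScalars k).comp Algebra.TensorProduct.includeRight) := by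
  apply Algebra.TensorProduct.ext'
  intro r a
  rw [evalPt_tmul]
  have : r ⊗ₜ[k] a = r • ((1 : R) ⊗ₜ[k] a) := by rw [TensorProduct.smul_tmul', smul_eq_mul, mul_one]
  rw [this, map_smul, smul_eq_mul]
  rfl

/-- the ideal of the graph of an `R`-valued point of `Spec A` -/
def ptIdeal (y : A →ₐ[k] R) : Ideal (R ⊗[k] A) := RingHom.ker (evalPt y)

theorem mem_ptIdeal (y : A →ₐ[k] R) (x : R ⊗[k] A) : x ∈ ptIdeal y ↔ evalPt y x = 0 :=
  RingHom.mem_ker

theorem tmul_sub_mem_ptIdeal (y : A →ₐ[k] R) (a : A) :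
    (1 : R) ⊗ₜ[k] a - y a ⊗ₜ[k] (1 : A) ∈ ptIdeal y := by
  rw [mem_ptIdeal, map_sub, evalPt_tmul, evalPt_tmul, map_one, one_mul, mul_one, sub_self]

/-- the ideal of a point is generated by the `1 ⊗ a - y a ⊗ 1` -/
theorem ptIdeal_eq_span (y : A →ₐ[k] R) :
    ptIdeal y = Ideal.span (Set.range fun a : A => (1 : R) ⊗ₜ[k] a - y a ⊗ₜ[k] (1 : A)) := by
  apply le_antisymm
  · intro x hx
    rw [mem_ptIdeal] at hx
    -- `x ≡ evalPt y x ⊗ 1` modulo the span
    have key : ∀ x : R ⊗[k] A, x - evalPt y x ⊗ₜ[k] (1 : A) ∈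
        Ideal.span (Set.range fun a : A => (1 : R) ⊗ₜ[k] a - y a ⊗ₜ[k] (1 : A)) := by
      intro x
      induction x using TensorProduct.induction_on with
      | zero => simp
      | tmul r a =>
        have h1 : r ⊗ₜ[k] a - evalPt y (r ⊗ₜ[k] a) ⊗ₜ[k] (1 : A) =
            (r ⊗ₜ[k] (1 : A)) * ((1 : R) ⊗ₜ[k] a - y a ⊗ₜ[k] (1 : A)) := by
          rw [evalPt_tmul, mul_sub, Algebra.TensorProduct.tmul_mul_tmul,
            Algebra.TensorProduct.tmul_mul_tmul, mul_one, one_mul, mul_one]
        rw [h1]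
        exact Ideal.mul_mem_left _ _ (Ideal.subset_span ⟨a, rfl⟩)
      | add x x' hx hx' =>
        have : x + x' - evalPt y (x + x') ⊗ₜ[k] (1 : A) =
            (x - evalPt y x ⊗ₜ[k] (1 : A)) + (x' - evalPt y x' ⊗ₜ[k] (1 : A)) := by
          rw [map_add, TensorProduct.add_tmul]; ring
        rw [this]
        exact Ideal.add_mem _ hx hx'
    have := key x
    rwa [hx, TensorProduct.zero_tmul, sub_zero] at this
  · rw [Ideal.span_le]
    rintro _ ⟨a, rfl⟩
    exact tmul_sub_mem_ptIdeal y a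

/-- the quotient by the ideal of a point is the base ring -/
def quotPtIdealEquiv (y : A →ₐ[k] R) : ((R ⊗[k] A) ⧸ ptIdeal y) ≃ₐ[R] R :=
  Ideal.quotientKerAlgEquivOfSurjective (evalPt_surjective y)

/-- base change of the ideal of a point -/
theorem map_ptIdeal (φ : R →ₐ[k] R') (y : A →ₐ[k] R) :
    (ptIdeal y).map (Algebra.TensorProduct.map φ (AlgHom.id k A)) = ptIdeal (φ.comp y) := by
  rw [ptIdeal_eq_span, ptIdeal_eq_span, Ideal.map_span]
  congr 1
  ext x
  constructor
  · rintro ⟨_, ⟨a, rfl⟩, rfl⟩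
    exact ⟨a, by simp⟩
  · rintro ⟨a, rfl⟩
    exact ⟨_, ⟨a, rfl⟩, by simp⟩

/-- base change of a product of ideals of points -/
theorem map_prod_ptIdeal {n : ℕ} (φ : R →ₐ[k] R') (y : Fin n → (A →ₐ[k] R)) :
    (∏ i, ptIdeal (y i)).map (Algebra.TensorProduct.map φ (AlgHom.id k A)) =
      ∏ i, ptIdeal (φ.comp (y i)) := by
  have h := map_prod (Ideal.mapHom (Algebra.TensorProduct.map φ (AlgHom.id k A)))
    (fun i => ptIdeal (y i)) Finset.univ
  simp only [Ideal.mapHom_apply] at h
  rw [h]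
  exact Finset.prod_congr rfl fun i _ => map_ptIdeal φ (y i)

end PtIdeal

/-- **over an algebraically closed field `K ⊇ k`, every non-zero ideal of the Dedekind domain
`K ⊗[k] A` (`A` of finite type) is a product of ideals of `K`-valued points of `Spec A`** -/
theorem exists_prod_ptIdeal_eq {k : Type u} [CommRing k] {A : Type v} [CommRing A] [Algebra k A]
    {K : Type w} [Field K] [IsAlgClosed K] [Algebra k K] [IsDedekindDomain (K ⊗[k] A)]
    [Algebra.FiniteType K (K ⊗[k] A)] (I : Ideal (K ⊗[k] A)) (hI : I ≠ ⊥) :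
    ∃ (n : ℕ) (y : Fin n → (A →ₐ[k] K)), I = ∏ i, ptIdeal (y i) := by
  obtain ⟨n, x, hx⟩ := exists_prod_ker_eq (K := K) I hI
  refine ⟨n, fun i => ((x i).restrictScalars k).comp Algebra.TensorProduct.includeRight, ?_⟩
  rw [hx]
  refine Finset.prod_congr rfl fun i _ => ?_
  unfold ptIdeal
  rw [← eq_evalPt (x i)]

end Fermat.Agent.S25lib.Curve
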