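/-
S25lib / Curve / ProdPt  (helper8)  --  Project L (S25), (P-Mem): item (5) of the `Ideal` block

**A product of `n` ideals of points is a point of `Hilb^n`.**
`k` a field, `A` a `k`-algebra of finite type, not finite over `k`, geometrically Dedekind;
`R` any `k`-algebra, `y i : A →ₐ[k] R` (`i < n`) `R`-valued points of `Spec A`.  Then
`(R ⊗[k] A) ⧸ ∏ i, ptIdeal (y i)` is a finite projective `R`-module of constant rank `n`
(`isPt_prod_ptIdeal`).

Proof: induction on `n` by `Curve/ExtPt` (`S / P J` is an extension of `S / P` by the invertible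
`R`-module `P / J P`), the invertibility of `P` being helper1's `Ideal.invertible_of_isPt`.
-/
import Mathlib
import Fermat.Agent.S25lib.Curve.ExtPt
import Fermat.Agent.S25lib.Curve.IdealPoints
import Fermat.Agent.S25lib.Ideal.Invertible
import Fermat.Agent.S25lib.Hilb.Local

set_option autoImplicit false

noncomputable section

namespace Fermat.Agent.S25lib.Curve

open TensorProduct Fermat.Agent.S25lib

universe u v w

variable {k : Type u} [Field k] {A : Type v} [CommRing A] [Algebra k A] [Algebra.FiniteType k A]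
  {R : Type w} [CommRing R] [Algebra k R]

/-- the induction step: multiply a point of `Hilb^m` by the ideal of an `R`-valued point -/
theorem isPt_mul_ptIdeal (hA : ¬ Module.Finite k A)
    (hD : ∀ (q : Ideal R) [q.IsPrime], IsDedekindDomain (q.ResidueField ⊗[k] A)) {m : ℕ}
    {P : Ideal (R ⊗[k] A)} (hP : Hilb.IsPt m P) [Module.Projective R ((R ⊗[k] A) ⧸ P)]
    (y : A →ₐ[k] R) :
    Hilb.IsPt (m + 1) (P * ptIdeal y) ∧ Module.Projective R ((R ⊗[k] A) ⧸ (P * ptIdeal y)) := by
  have hinv : Module.Invertible (R ⊗[k] A) P := Ideal.invertible_of_isPt hA hD hP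
  have hfin := hP.finite
  obtain ⟨h1, h2, h3⟩ := finite_projective_rank_mul_ker (evalPt y) P m hP.rank
  have h2' : Module.Projective R ((R ⊗[k] A) ⧸ (P * ptIdeal y)) := h2
  have hflat : Module.Flat R ((R ⊗[k] A) ⧸ (P * ptIdeal y)) := inferInstance
  exact ⟨⟨h1, hflat, h3⟩, h2'⟩

/-- **a product of `n` ideals of `R`-valued points of `Spec A` is a point of `Hilb^n_A(R)`** -/
theorem isPt_prod_ptIdeal (hA : ¬ Module.Finite k A)
    (hD : ∀ (q : Ideal R) [q.IsPrime], IsDedekindDomain (q.ResidueField ⊗[k] A)) {n : ℕ}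
    (y : Fin n → (A →ₐ[k] R)) :
    Hilb.IsPt n (∏ i, ptIdeal (y i)) ∧
      Module.Projective R ((R ⊗[k] A) ⧸ ∏ i, ptIdeal (y i)) := by
  induction n with
  | zero =>
    rw [Fin.prod_univ_zero, Ideal.one_eq_top]
    have hs : Subsingleton ((R ⊗[k] A) ⧸ (⊤ : Ideal (R ⊗[k] A))) :=
      Ideal.Quotient.subsingleton_iff.mpr rfl
    refine ⟨⟨inferInstance, inferInstance, fun p => ?_⟩, inferInstance⟩
    rw [Module.rankAtStalk_eq_zero_of_subsingleton]
    rfl
  | succ n ih =>
    obtain ⟨h1, h2⟩ := ih fun i => y i.castSucc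
    rw [Fin.prod_univ_castSucc]
    exact isPt_mul_ptIdeal hA hD h1 (y (Fin.last n))

/-- the same with the hypothesis on `A` in the form "geometrically Dedekind" -/
theorem isPt_prod_ptIdeal' (hA : ¬ Module.Finite k A)
    (hD : ∀ (K : Type w) [Field K] [Algebra k K], IsDedekindDomain (K ⊗[k] A)) {n : ℕ}
    (y : Fin n → (A →ₐ[k] R)) : Hilb.IsPt n (∏ i, ptIdeal (y i)) :=
  (isPt_prod_ptIdeal hA (fun q _ => hD q.ResidueField) y).1

end Fermat.Agent.S25lib.Curve
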