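/-
S25lib / Curve / MemAlg  (helper8)  --  Project L (S25), (P-Mem): the algebra side, complete

`k` a field, `A` a `k`-algebra of finite type, not finite over `k`, geometrically Dedekind and
geometrically integral (e.g. `A = Γ(C, C ∖ e)`).  Then there is ONE family of points of `Hilb^g_A`
over a geometrically integral base of finite type through which EVERY geometric point of `Hilb^g_A`
and every product of `g` ideals of `k`-points factors:

**`exists_universal_family`** : `∃ R` (finite type, `GeomIntegralAlg k R`), `𝓘 : Ideal (R ⊗[k] A)` with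
`Hilb.IsPt g 𝓘` such that
* for every algebraically closed field `K ⊇ k` and every `I : Ideal (K ⊗[k] A)` with `Hilb.IsPt g I`
  there is `φ : R →ₐ[k] K` with `Hilb.push k A φ 𝓘 = I`;
* for every `g`-tuple `P` of `S`-valued points of `Spec A` (`S` any `k`-algebra) there is
  `φ₀ : R →ₐ[k] S` with `Hilb.push k A φ₀ 𝓘 = ∏ i, ptIdeal (P i)`.
-/
import Mathlib
import Fermat.Agent.S25lib.Curve.ProdPt
import Fermat.Agent.S25lib.Curve.ParamAlg

set_option autoImplicit false

noncomputable section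

namespace Fermat.Agent.S25lib.Curve

open TensorProduct Fermat.Agent.S25lib

universe u

variable {k : Type u} [Field k] {A : Type u} [CommRing A] [Algebra k A] [Algebra.FiniteType k A]

omit [Algebra.FiniteType k A] in
/-- a point of `Hilb^g_A(K)`, `K` a field, is a non-zero ideal -/
theorem ne_bot_of_isPt (hA : ¬ Module.Finite k A) {K : Type u} [Field K] [Algebra k K] {g : ℕ}
    {I : Ideal (K ⊗[k] A)} (hI : Hilb.IsPt g I) : I ≠ ⊥ := by
  rintro rfl
  have := hI.finite
  have e := (AlgEquiv.quotientBot K (K ⊗[k] A)).toLinearEquiv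
  have : Module.Finite K (K ⊗[k] A) := Module.Finite.equiv e
  exact hA (Module.Finite.of_finite_tensorProduct_of_faithfullyFlat K)

/-- **every geometric point of `Hilb^g_A` is a product of `g` ideals of points** -/
theorem exists_prod_ptIdeal_eq_of_isPt (hA : ¬ Module.Finite k A)
    (hD : ∀ (K : Type u) [Field K] [Algebra k K], IsDedekindDomain (K ⊗[k] A))
    {K : Type u} [Field K] [IsAlgClosed K] [Algebra k K] {g : ℕ}
    {I : Ideal (K ⊗[k] A)} (hI : Hilb.IsPt g I) :
    ∃ y : Fin g → (A →ₐ[k] K), I = ∏ i, ptIdeal (y i) := by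
  have := hD K
  obtain ⟨n, y, hy⟩ := exists_prod_ptIdeal_eq I (ne_bot_of_isPt hA hI)
  have hn : Hilb.IsPt n I := hy ▸ isPt_prod_ptIdeal' hA hD y
  -- the rank at the unique prime
  have hng : n = g := by
    have p : PrimeSpectrum K := ⟨⊥, Ideal.isPrime_bot⟩
    rw [← hn.rank p, hI.rank p]
  subst hng
  exact ⟨y, hy⟩

/-- **the universal family of products of `g` points** -/
theorem exists_universal_family (hA : ¬ Module.Finite k A)
    (hD : ∀ (K : Type u) [Field K] [Algebra k K], IsDedekindDomain (K ⊗[k] A))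
    (hgi : GeomIntegralAlg k A) (g : ℕ) :
    ∃ (R : Type u) (_ : CommRing R) (_ : Algebra k R), Algebra.FiniteType k R ∧
      GeomIntegralAlg k R ∧ ∃ 𝓘 : Ideal (R ⊗[k] A), Hilb.IsPt g 𝓘 ∧
        (∀ (K : Type u) [Field K] [IsAlgClosed K] [Algebra k K] (I : Ideal (K ⊗[k] A)),
          Hilb.IsPt g I → ∃ φ : R →ₐ[k] K, Hilb.push k A φ 𝓘 = I) ∧
        ∀ (S : Type u) [CommRing S] [Algebra k S] (P : Fin g → (A →ₐ[k] S)), ∃ φ₀ : R →ₐ[k] S,
          Hilb.push k A φ₀ 𝓘 = ∏ i, ptIdeal (P i) := by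
  obtain ⟨R, _, _, hft, hR, p, hp⟩ := exists_paramAlg k A hgi g
  refine ⟨R, inferInstance, inferInstance, hft, hR, ∏ i, ptIdeal (p i),
    isPt_prod_ptIdeal' hA hD p, ?_, ?_⟩
  · intro K _ _ _ I hI
    obtain ⟨y, hy⟩ := exists_prod_ptIdeal_eq_of_isPt hA hD hI
    obtain ⟨φ, hφ⟩ := hp K y
    refine ⟨φ, ?_⟩
    unfold Hilb.push
    rw [map_prod_ptIdeal, hy]
    exact Finset.prod_congr rfl fun i _ => by rw [hφ i]
  · intro S _ _ P
    obtain ⟨φ₀, hφ₀⟩ := hp S P
    refine ⟨φ₀, ?_⟩
    unfold Hilb.push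
    rw [map_prod_ptIdeal]
    exact Finset.prod_congr rfl fun i _ => by rw [hφ₀ i]

end Fermat.Agent.S25lib.Curve
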