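/-
S25lib / Curve / MemFormal  (helper8)  --  Project L (S25), (P-Mem): the formal half

**`inP_twist_of_family`** : let `OD` be a rigidified bundle over `y : Y ⟶ Spec k` and `l` a list of based
cocycles.  Suppose there is a family `𝓜` over a geometrically integral base `t : T ⟶ Spec k`, locally of
finite type, such that
* the twist `𝓜(l)` is trivial at ONE `k`-point `t₀` of `T`, and
* every geometric fibre of `OD` is (isomorphic to) a geometric fibre of `𝓜`.
Then `OD(l)` is in the cut.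
(helper5's `inP_of_geometricallyIntegral` + helper7's `inP_of_fibres`, `twistByList_pullbackAlong`.)
-/
import Mathlib
import Fermat.Agent.S25lib.Hub.OPoint
import Fermat.Agent.S25lib.Hub.Fibre
import Fermat.Agent.S25lib.Abel.Mem

set_option autoImplicit false

noncomputable section

namespace Fermat.Agent.S25lib.Curve

open AlgebraicGeometry CategoryTheory CategoryTheory.Limits AlgebraicGeometry.RelPicard
  NeronModelInfra GoodReductionJacobian Fermat.Agent.S25lib Fermat.Agent.S25lib.Hub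

universe u

variable {k : Type u} [Field k] {C : Scheme.{u}} {c : C ⟶ Spec (CommRingCat.of k)}
  {ε : SchemeHomOver (𝟙 (Spec (CommRingCat.of k))) c}

/-- **(P-Mem), formal half** -/
theorem inP_twist_of_family {ι : Type u} (l : List (BasedCocycle c ε ι))
    {Y : Scheme.{u}} {y : Y ⟶ Spec (CommRingCat.of k)} (OD : RLB c ε y)
    {T : Scheme.{u}} (t : T ⟶ Spec (CommRingCat.of k)) [LocallyOfFiniteType t]
    [GeometricallyIntegral t] (𝓜 : RLB c ε t)
    (t₀ : SchemeHomOver (𝟙 (Spec (CommRingCat.of k))) t)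
    (h₀ : Nonempty ((twistByList l (𝓜.pullbackAlong t₀)).L ≅
      SheafOfModules.unit (pullback c (𝟙 (Spec (CommRingCat.of k)))).ringCatSheaf))
    (hfib : ∀ (K : Type u) [Field K] [IsAlgClosed K] (s : Spec (CommRingCat.of K) ⟶ Y),
      ∃ (s₁ : Spec (CommRingCat.of K) ⟶ T) (hs : s₁ ≫ t = s ≫ y),
        RLB.Iso (𝓜.pullbackAlong (⟨s₁, hs⟩ : SchemeHomOver (s ≫ y) t))
          (OD.pullbackAlong (⟨s, rfl⟩ : SchemeHomOver (s ≫ y) y))) :
    InP (twistByList l OD) := by
  -- the twisted family is in the cut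
  have h1 : InP (twistByList l 𝓜) := by
    refine Abel.inP_of_geometricallyIntegral t (twistByList l 𝓜) t₀ ?_
    obtain ⟨e1⟩ := twistByList_pullbackAlong l t₀ 𝓜
    obtain ⟨e0⟩ := h₀
    exact ⟨e1 ≪≫ e0⟩
  -- the fibres of `OD(l)` are fibres of `𝓜(l)`
  refine inP_of_fibres _ fun K _ _ s => ?_
  obtain ⟨s₁, hs, hiso⟩ := hfib K s
  refine ⟨T, t, twistByList l 𝓜, h1, s₁, hs, ?_⟩
  obtain ⟨e1⟩ := twistByList_pullbackAlong l (⟨s₁, hs⟩ : SchemeHomOver (s ≫ y) t) 𝓜
  obtain ⟨e2⟩ := twistByList_congr l hiso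
  obtain ⟨e3⟩ := twistByList_pullbackAlong l (⟨s, rfl⟩ : SchemeHomOver (s ≫ y) y) OD
  exact ⟨e1 ≪≫ e2 ≪≫ e3.symm⟩

end Fermat.Agent.S25lib.Curve
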