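/-
S25lib / Curve / ODDiv  (helper8)  --  Project L (S25), (P-Mem): the divisor of `O(D_I)`

`Y` an integral locally noetherian scheme, `𝒱 : Sec.Charts Y`, `I` an invertible ideal of
`Γ(Y, V false)` which is the unit ideal on the overlap; `Sec.OD 𝒱 I hinv hI` is helper6's module `O(D_I)`.
In helper9's dictionary (`Polar/Dict`), with respect to the generic generator `odGen` (the canonical
generator `one` over `V true`):

* `coordFF_θ_mul` : the coordinate of the section `θ ψ` (`ψ ∈ Dual I`) is `ψ x / x`;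
* `divAt_OD_true` : the divisor of `O(D_I)` vanishes on `V true`;
* `divAt_OD_le`, `exists_ordAt_le_divAt_OD` : at a DVR point `Q ∈ V false` the multiplicity of the
  divisor is the minimum of the orders of vanishing at `Q` of the elements of `I`;
* `IsOrdAt hV J Q n` (the ideal `J` vanishes to order exactly `n` at `Q`), `IsOrdAt.mul`,
  `isOrdAt_top`, `isOrdAt_of_not_le`, `isOrdAt_primeIdealOf`, `IsOrdAt.list_prod`;
* **`divAt_OD_eq`** : `IsOrdAt I Q n → divAt Q = n`.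
-/
import Mathlib
import Fermat.Agent.S25lib.Sec.OD
import Fermat.Agent.S25lib.Polar.Dict
import Fermat.Agent.S25lib.Curve.Charts

set_option autoImplicit false

noncomputable section

namespace Fermat.Agent.S25lib.Curve

open AlgebraicGeometry CategoryTheory TopologicalSpace
  Fermat.Agent.S26lib Fermat.Agent.S26lib.Weil Fermat.Agent.S26lib.Aff
  Fermat.Agent.S26lib.Quad Fermat.Agent.S25lib.Mod Fermat.Agent.S25lib.Sec Fermat.Agent.S25lib.Polar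

universe u

variable {Y : Scheme.{u}} [IsIntegral Y]
  (𝒱 : Sec.Charts Y) (I : Ideal Γ(Y, 𝒱.V false)) (hinv : Sec.IsInvIdeal I)
  (hI : I.map (Sec.resHom (inf_le_left : 𝒱.V false ⊓ 𝒱.V true ≤ 𝒱.V false)) = ⊤)
  (h₁ : genericPoint Y ∈ 𝒱.V false) (h₂ : genericPoint Y ∈ 𝒱.V true)

/-- the generic generator of `O(D_I)`: the canonical generator over the second chart -/
def odGen : Polar.GenericGen (Sec.OD 𝒱 I hinv hI) where
  U₀ := 𝒱.V true
  mem := h₂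
  s₀ := Sec.OD.one 𝒱 I hinv hI
  gen := Sec.OD.isGen_one 𝒱 I hinv hI

/-- the coordinate of the section `θ ψ` is `ψ x / x` -/
theorem coordFF_θ_mul (ψ : Module.Dual Γ(Y, 𝒱.V false) I) (x : I) :
    (odGen 𝒱 I hinv hI h₂).coordFF h₁ (Sec.OD.θ 𝒱 I hinv hI ψ) * germFF (𝒱.V false) h₁ (x : Γ(Y, 𝒱.V false)) =
      germFF (𝒱.V false) h₁ (ψ x) := by
  have h₁₂ : genericPoint Y ∈ 𝒱.V false ⊓ 𝒱.V true := ⟨h₁, h₂⟩
  have e1 : (odGen 𝒱 I hinv hI h₂).coordFF h₁ (Sec.OD.θ 𝒱 I hinv hI ψ) =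
      germFF (𝒱.V false ⊓ 𝒱.V true) h₁₂ (dualEval hI ψ) := by
    rw [← (odGen 𝒱 I hinv hI h₂).coordFF_res h₁ h₁₂ inf_le_left, Sec.OD.res_θ,
      GenericGen.coordFF_smul, GenericGen.coordFF_res _ h₂ h₁₂ inf_le_right]
    have : (odGen 𝒱 I hinv hI h₂).coordFF h₂ (Sec.OD.one 𝒱 I hinv hI) = 1 :=
      (odGen 𝒱 I hinv hI h₂).coordFF_s₀
    rw [this, mul_one]
  rw [e1, ← germFF_res (inf_le_left : 𝒱.V false ⊓ 𝒱.V true ≤ 𝒱.V false) h₁₂,
    ← germFF_res (inf_le_left : 𝒱.V false ⊓ 𝒱.V true ≤ 𝒱.V false) h₁₂, ← map_mul]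
  congr 1
  exact (dualEval_spec hI ψ x).symm

/-- a point of an affine open set lies in a basic open set iff the function is not in its prime
ideal -/
theorem mem_basicOpen_iff_not_mem_primeIdealOf {X : Scheme.{u}} {U : X.Opens} (hU : IsAffineOpen U)
    (x : U) (b : Γ(X, U)) : x.1 ∈ X.basicOpen b ↔ b ∉ (hU.primeIdealOf x).asIdeal := by
  rw [mem_primeIdealOf_iff, IsLocalRing.mem_maximalIdeal, mem_nonunits_iff, not_not]
  exact Scheme.mem_basicOpen X b x.1 x.2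

variable [IsLocallyNoetherian Y]

omit [IsIntegral Y] [IsLocallyNoetherian Y] in
/-- the local generators of `O(D_I)` -/
theorem locGen_OD : LocGen (Sec.OD 𝒱 I hinv hI) :=
  locGen_of_isInvertible (Sec.isInvertible_OD 𝒱 I hinv hI)

/-- the divisor of `O(D_I)` vanishes on the second chart -/
theorem divAt_OD_true (Q : PrimeDiv Y) (hQ : Q.1 ∈ 𝒱.V true) :
    (odGen 𝒱 I hinv hI h₂).divAt (locGen_OD 𝒱 I hinv hI) Q = 0 :=
  (odGen 𝒱 I hinv hI h₂).divAt_eq_zero _ Q hQ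

/-- **the multiplicity of `D_I` at `Q` is at most the order of vanishing of every `x ∈ I`** -/
theorem divAt_OD_le (Q : PrimeDiv Y) (hQ : Q.1 ∈ 𝒱.V false) (x : I) (hx : (x : Γ(Y, 𝒱.V false)) ≠ 0) :
    (odGen 𝒱 I hinv hI h₂).divAt (locGen_OD 𝒱 I hinv hI) Q ≤
      ordAt Q (germFF (𝒱.V false) hQ (x : Γ(Y, 𝒱.V false))) := by
  have hV : IsAffineOpen (𝒱.V false) := 𝒱.aff false
  have h₁ : genericPoint Y ∈ 𝒱.V false := genericPoint_mem hQ
  set E := TrivData.ofIdeal 𝒱 I hinv hI with hE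
  -- a local generator of `Dual I` at `Q`
  obtain ⟨h, ψ, hloc, hh⟩ : ∃ (h : Γ(Y, 𝒱.V false)) (ψ : Module.Dual Γ(Y, 𝒱.V false) I),
      IsLocGen h ψ ∧ h ∉ (hV.primeIdealOf ⟨Q.1, hQ⟩).asIdeal := by
    by_contra hcon
    push Not at hcon
    have hsp : Ideal.span {h : Γ(Y, 𝒱.V false) | ∃ w : Module.Dual Γ(Y, 𝒱.V false) I,
        IsLocGen h w} = ⊤ := hinv.span_isLocGen
    have hle : Ideal.span {h : Γ(Y, 𝒱.V false) | ∃ w : Module.Dual Γ(Y, 𝒱.V false) I,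
        IsLocGen h w} ≤ (hV.primeIdealOf ⟨Q.1, hQ⟩).asIdeal := by
      rw [Ideal.span_le]
      rintro h ⟨ψ, hψ⟩
      exact hcon h ψ hψ
    rw [hsp] at hle
    exact (hV.primeIdealOf ⟨Q.1, hQ⟩).isPrime.ne_top (top_le_iff.mp hle)
  have hQh : Q.1 ∈ Y.basicOpen h :=
    (mem_basicOpen_iff_not_mem_primeIdealOf hV ⟨Q.1, hQ⟩ h).mpr hh
  -- the corresponding generator of the module
  let p : LG (𝒱.V false) (Module.Dual Γ(Y, 𝒱.V false) I) := ⟨h, ψ, hloc⟩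
  let i : E.glueData.Idx := ⟨false, p⟩
  have hgen : IsGen (Sec.OD 𝒱 I hinv hI) (Y.basicOpen h)
      (Mod.res (Sec.OD 𝒱 I hinv hI) (Y.basicOpen_le h) (Sec.OD.θ 𝒱 I hinv hI ψ)) := by
    have h1 := E.glueData.cocycle.isGen_gen i
    rw [E.glueData.gen_eq i] at h1
    have h2 := E.glueData.θ_res false (𝒱.V false) (Y.basicOpen h) le_rfl (Y.basicOpen_le h) ψ
    show IsGen E.glueData.synth (Y.basicOpen h) (Mod.res E.glueData.synth (Y.basicOpen_le h)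
      (E.glueData.θ false (𝒱.V false) le_rfl ψ))
    rw [h2]
    exact h1
  have hord := (odGen 𝒱 I hinv hI h₂).ordAt_coordFF_gen (locGen_OD 𝒱 I hinv hI) hgen Q hQh
  rw [(odGen 𝒱 I hinv hI h₂).coordFF_res h₁ (genericPoint_mem hQh) (Y.basicOpen_le h)] at hord
  have hne := (odGen 𝒱 I hinv hI h₂).coordFF_gen_ne_zero hgen (genericPoint_mem hQh)
  rw [(odGen 𝒱 I hinv hI h₂).coordFF_res h₁ (genericPoint_mem hQh) (Y.basicOpen_le h)] at hne
  -- `ψ̃ * x = ψ x`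
  have hmul := coordFF_θ_mul 𝒱 I hinv hI h₁ h₂ ψ x
  have hx' : germFF (𝒱.V false) h₁ (x : Γ(Y, 𝒱.V false)) ≠ 0 := fun h0 =>
    hx (germFF_injective (𝒱.V false) h₁ (by rw [h0, map_zero]))
  have h3 := ordAt_mul Q hne hx'
  rw [hmul] at h3
  have h4 := ordAt_germFF_nonneg (𝒱.V false) h₁ (ψ x) Q hQ
  have h5 : germFF (𝒱.V false) hQ (x : Γ(Y, 𝒱.V false)) =
      germFF (𝒱.V false) h₁ (x : Γ(Y, 𝒱.V false)) := rfl
  rw [h5]
  omega

/-- **some `x ∈ I` vanishes at `Q` to order at most the multiplicity of `D_I`** -/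
theorem exists_ordAt_le_divAt_OD (Q : PrimeDiv Y) (hQ : Q.1 ∈ 𝒱.V false) :
    ∃ x : I, (x : Γ(Y, 𝒱.V false)) ≠ 0 ∧
      ordAt Q (germFF (𝒱.V false) hQ (x : Γ(Y, 𝒱.V false))) ≤
        (odGen 𝒱 I hinv hI h₂).divAt (locGen_OD 𝒱 I hinv hI) Q := by
  have hV : IsAffineOpen (𝒱.V false) := 𝒱.aff false
  have h₁ : genericPoint Y ∈ 𝒱.V false := genericPoint_mem hQ
  -- one of the values `ψ x` does not vanish at `Q`
  obtain ⟨ψ, x, hi⟩ : ∃ (ψ : Module.Dual Γ(Y, 𝒱.V false) I) (x : I),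
      ψ x ∉ (hV.primeIdealOf ⟨Q.1, hQ⟩).asIdeal := by
    by_contra hcon
    push Not at hcon
    exact (hV.primeIdealOf ⟨Q.1, hQ⟩).isPrime.ne_top (hinv.eq_top hcon)
  have ha0 : ψ x ≠ 0 := fun h0 => hi (by rw [h0]; exact zero_mem _)
  have hx0 : (x : Γ(Y, 𝒱.V false)) ≠ 0 := by
    intro h0
    have : x = 0 := Subtype.ext h0
    rw [this, map_zero] at ha0
    exact ha0 rfl
  refine ⟨x, hx0, ?_⟩
  -- `ord_Q (ψ x) = 0`
  have h1 := ordAt_germFF_nonneg (𝒱.V false) h₁ (ψ x) Q hQ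
  have h2 : ¬ 0 < ordAt Q (germFF (𝒱.V false) hQ (ψ x)) := fun h =>
    hi ((mem_primeIdealOf_iff_ordAt hV Q hQ (ψ x) ha0).mpr h)
  have h3 : ordAt Q (germFF (𝒱.V false) h₁ (ψ x)) = 0 := by
    have : germFF (𝒱.V false) hQ (ψ x) = germFF (𝒱.V false) h₁ (ψ x) := rfl
    rw [this] at h2
    omega
  -- `ψ̃ * x = ψ x`
  have hmul := coordFF_θ_mul 𝒱 I hinv hI h₁ h₂ ψ x
  have hx' : germFF (𝒱.V false) h₁ (x : Γ(Y, 𝒱.V false)) ≠ 0 := fun h0 =>
    hx0 (germFF_injective (𝒱.V false) h₁ (by rw [h0, map_zero]))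
  have ha' : germFF (𝒱.V false) h₁ (ψ x) ≠ 0 := fun h0 =>
    ha0 (germFF_injective (𝒱.V false) h₁ (by rw [h0, map_zero]))
  have hne : (odGen 𝒱 I hinv hI h₂).coordFF h₁ (Sec.OD.θ 𝒱 I hinv hI ψ) ≠ 0 := by
    intro h0
    rw [h0, zero_mul] at hmul
    exact ha' hmul.symm
  have h4 := ordAt_mul Q hne hx'
  rw [hmul, h3] at h4
  have h5 := (odGen 𝒱 I hinv hI h₂).le_ordAt_coordFF (locGen_OD 𝒱 I hinv hI) h₁
    (Sec.OD.θ 𝒱 I hinv hI ψ) hne Q hQ
  have h6 : germFF (𝒱.V false) hQ (x : Γ(Y, 𝒱.V false)) =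
      germFF (𝒱.V false) h₁ (x : Γ(Y, 𝒱.V false)) := rfl
  rw [h6]
  omega

/-! ### the order of vanishing of an ideal at a DVR point -/

/-- the ideal `J` of `Γ(Y, V)` vanishes to order exactly `n` at the DVR point `Q ∈ V` -/
def IsOrdAt {V : Y.Opens} (J : Ideal Γ(Y, V)) (Q : PrimeDiv Y) (hQ : Q.1 ∈ V) (n : ℤ) : Prop :=
  (∀ x ∈ J, x ≠ 0 → n ≤ ordAt Q (germFF V hQ x)) ∧
    ∃ x ∈ J, x ≠ 0 ∧ ordAt Q (germFF V hQ x) = n

/-- **the multiplicity of `D_I` at `Q ∈ V false` is the order of vanishing of `I` at `Q`** -/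
theorem divAt_OD_eq (Q : PrimeDiv Y) (hQ : Q.1 ∈ 𝒱.V false) (n : ℤ) (h : IsOrdAt I Q hQ n) :
    (odGen 𝒱 I hinv hI h₂).divAt (locGen_OD 𝒱 I hinv hI) Q = n := by
  obtain ⟨hall, x₀, hx₀, hx₀0, hx₀n⟩ := h
  have h1 := divAt_OD_le 𝒱 I hinv hI h₂ Q hQ ⟨x₀, hx₀⟩ hx₀0
  obtain ⟨x, hx0, hx⟩ := exists_ordAt_le_divAt_OD 𝒱 I hinv hI h₂ Q hQ
  have h2 := hall x x.2 hx0
  rw [hx₀n] at h1
  omega

section Ord

variable {V : Y.Opens}

omit [IsLocallyNoetherian Y] in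
theorem germFF_ne_zero (Q : PrimeDiv Y) (hQ : Q.1 ∈ V) {x : Γ(Y, V)} (hx : x ≠ 0) :
    germFF V hQ x ≠ 0 := fun h0 => hx (germFF_injective V hQ (by rw [h0, map_zero]))

/-- the unit ideal has order zero -/
theorem isOrdAt_top (Q : PrimeDiv Y) (hQ : Q.1 ∈ V) : IsOrdAt (⊤ : Ideal Γ(Y, V)) Q hQ 0 := by
  have : Nonempty V := ⟨⟨Q.1, hQ⟩⟩
  refine ⟨fun x _ _ => ordAt_germFF_nonneg V hQ x Q hQ, 1, trivial, one_ne_zero, ?_⟩
  rw [map_one]
  exact CurvePlace.ordAt_one Q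

/-- an ideal which is not contained in the prime ideal of `Q` has order zero -/
theorem isOrdAt_of_not_le (hV : IsAffineOpen V) (Q : PrimeDiv Y) (hQ : Q.1 ∈ V)
    (J : Ideal Γ(Y, V)) (hJ : ¬ J ≤ (hV.primeIdealOf ⟨Q.1, hQ⟩).asIdeal) : IsOrdAt J Q hQ 0 := by
  refine ⟨fun x _ _ => ordAt_germFF_nonneg V hQ x Q hQ, ?_⟩
  obtain ⟨x, hxJ, hx⟩ := Set.not_subset.mp hJ
  have hx0 : x ≠ 0 := fun h0 => hx (by rw [h0]; exact zero_mem _)
  refine ⟨x, hxJ, hx0, ?_⟩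
  have h1 := ordAt_germFF_nonneg V hQ x Q hQ
  have h2 : ¬ 0 < ordAt Q (germFF V hQ x) := fun h =>
    hx ((mem_primeIdealOf_iff_ordAt hV Q hQ x hx0).mpr h)
  omega

/-- **multiplicativity** -/
theorem IsOrdAt.mul {Q : PrimeDiv Y} {hQ : Q.1 ∈ V} {J₁ J₂ : Ideal Γ(Y, V)} {n₁ n₂ : ℤ}
    (h₁ : IsOrdAt J₁ Q hQ n₁) (h₂ : IsOrdAt J₂ Q hQ n₂) : IsOrdAt (J₁ * J₂) Q hQ (n₁ + n₂) := by
  have hdom : IsDomain Γ(Y, V) := by
    have : Nonempty V := ⟨⟨Q.1, hQ⟩⟩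
    infer_instance
  constructor
  · intro x hx
    refine Submodule.mul_induction_on hx ?_ ?_
    · intro a ha b hb hab
      have ha0 : a ≠ 0 := fun h => hab (by rw [h, zero_mul])
      have hb0 : b ≠ 0 := fun h => hab (by rw [h, mul_zero])
      rw [map_mul, ordAt_mul Q (germFF_ne_zero Q hQ ha0) (germFF_ne_zero Q hQ hb0)]
      have := h₁.1 a ha ha0
      have := h₂.1 b hb hb0
      omega
    · intro a b ha hb hab
      by_cases ha0 : a = 0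
      · rw [ha0, zero_add] at hab ⊢
        exact hb hab
      by_cases hb0 : b = 0
      · rw [hb0, add_zero] at hab ⊢
        exact ha hab
      have h3 := ordAt_add Q (x := germFF V hQ a) (y := germFF V hQ b)
        (by rw [← map_add]; exact germFF_ne_zero Q hQ hab)
      rw [← map_add] at h3
      have := ha ha0
      have := hb hb0
      omega
  · obtain ⟨x₁, hx₁, hx₁0, hx₁n⟩ := h₁.2
    obtain ⟨x₂, hx₂, hx₂0, hx₂n⟩ := h₂.2
    refine ⟨x₁ * x₂, Ideal.mul_mem_mul hx₁ hx₂, mul_ne_zero hx₁0 hx₂0, ?_⟩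
    rw [map_mul, ordAt_mul Q (germFF_ne_zero Q hQ hx₁0) (germFF_ne_zero Q hQ hx₂0), hx₁n, hx₂n]

/-- products of lists -/
theorem IsOrdAt.list_prod {Q : PrimeDiv Y} {hQ : Q.1 ∈ V} :
    ∀ (L : List (Ideal Γ(Y, V) × ℤ)), (∀ p ∈ L, IsOrdAt p.1 Q hQ p.2) →
      IsOrdAt (L.map Prod.fst).prod Q hQ (L.map Prod.snd).sum
  | [], _ => by
    rw [List.map_nil, List.prod_nil, List.map_nil, List.sum_nil, Ideal.one_eq_top]
    exact isOrdAt_top Q hQ
  | p :: L, h => by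
    rw [List.map_cons, List.prod_cons, List.map_cons, List.sum_cons]
    exact (h p (List.mem_cons_self)).mul
      (IsOrdAt.list_prod L fun q hq => h q (List.mem_cons_of_mem _ hq))

end Ord

/-- every element of the local ring at a point of an affine open set is a fraction -/
theorem exists_germ_mul_eq {X : Scheme.{u}} {V : X.Opens} (hV : IsAffineOpen V) (x : V)
    (w : X.presheaf.stalk x.1) :
    ∃ a s : Γ(X, V), s ∉ (hV.primeIdealOf x).asIdeal ∧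
      w * (X.presheaf.germ V x.1 x.2).hom s = (X.presheaf.germ V x.1 x.2).hom a := by
  have := hV.isLocalization_stalk x
  obtain ⟨⟨a, s⟩, h⟩ := IsLocalization.surj (hV.primeIdealOf x).asIdeal.primeCompl w
  exact ⟨a, s.1, s.2, h⟩

section Ord2

variable {V : Y.Opens}

/-- an affine open neighbourhood of a DVR point carries a function with a simple zero there -/
theorem exists_ordAt_eq_one (hV : IsAffineOpen V) (Q : PrimeDiv Y) (hQ : Q.1 ∈ V) :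
    ∃ a : Γ(Y, V), a ≠ 0 ∧ ordAt Q (germFF V hQ a) = 1 := by
  have hdvr : IsDiscreteValuationRing (Y.presheaf.stalk Q.1) := Q.2
  obtain ⟨ϖ, hϖ⟩ := IsDiscreteValuationRing.exists_irreducible (Y.presheaf.stalk Q.1)
  obtain ⟨a, s, hs, has⟩ := exists_germ_mul_eq hV ⟨Q.1, hQ⟩ ϖ
  have hs0 : s ≠ 0 := fun h0 => hs (by rw [h0]; exact zero_mem _)
  have hdom : IsDomain (Y.presheaf.stalk Q.1) := inferInstance
  have ha0 : a ≠ 0 := by
    intro h0
    rw [h0, map_zero] at has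
    rcases mul_eq_zero.mp has with h | h
    · exact hϖ.ne_zero h
    · have h1 : toFF Y Q.1 ((Y.presheaf.germ V Q.1 hQ).hom s) = 0 := by rw [h, map_zero]
      rw [← germFF_eq_toFF V hQ s hQ] at h1
      exact germFF_ne_zero Q hQ hs0 h1
  refine ⟨a, ha0, ?_⟩
  -- orders
  have h1 : ordAt Q (toFF Y Q.1 ϖ) = 1 := by
    rw [ordAt_eq_iff Q (toFF_ne_zero Y hϖ.ne_zero) 1]
    exact Ring.ordFrac_irreducible hϖ
  have h2 : ordAt Q (germFF V hQ s) = 0 := by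
    have h3 := ordAt_germFF_nonneg V hQ s Q hQ
    have h4 : ¬ 0 < ordAt Q (germFF V hQ s) := fun h =>
      hs ((mem_primeIdealOf_iff_ordAt hV Q hQ s hs0).mpr h)
    omega
  have h5 : germFF V hQ a = toFF Y Q.1 ϖ * germFF V hQ s := by
    rw [germFF_eq_toFF V hQ a hQ, germFF_eq_toFF V hQ s hQ, ← map_mul, has]
  rw [h5, ordAt_mul Q (toFF_ne_zero Y hϖ.ne_zero) (germFF_ne_zero Q hQ hs0), h1, h2]
  rfl

/-- **the prime ideal of `Q` vanishes to order one at `Q`** -/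
theorem isOrdAt_primeIdealOf (hV : IsAffineOpen V) (Q : PrimeDiv Y) (hQ : Q.1 ∈ V) :
    IsOrdAt (hV.primeIdealOf ⟨Q.1, hQ⟩).asIdeal Q hQ 1 := by
  constructor
  · intro x hx hx0
    have := (mem_primeIdealOf_iff_ordAt hV Q hQ x hx0).mp hx
    omega
  · obtain ⟨a, ha0, ha⟩ := exists_ordAt_eq_one hV Q hQ
    refine ⟨a, ?_, ha0, ha⟩
    rw [mem_primeIdealOf_iff_ordAt hV Q hQ a ha0, ha]
    exact one_pos

end Ord2

end Fermat.Agent.S25lib.Curve
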