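/-
S25lib / Curve / PtPrime  (helper8)  --  Project L (S25), (P-Mem): the ideal of a constant section

* `KPt.mem_primeIdealOf_iff_app_eq_zero` : for a `K`-point `a` of a `K`-scheme and an affine open
  `W ∋ a.pt`, the prime ideal of `a.pt` in `Γ(X, W)` is the kernel of `a^♯`;
* `secJ c t ε' U` : the ideal of the constant section `ε' × T` of `C ×_k T` in `Γ(C ×_k T, U × T)`
  (the kernel of the pull-back along `rigSection c t ε'`);
* over a field `K`: `secJ_eq_primeIdealOf` (it is the prime ideal of the point `ε'_K`),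
  `isOrdAt_secJ`, **`isOrdAt_prod_secJ`** : the product of the ideals of a list of rational points
  vanishes at `Q` to the order `= ` the number of occurrences of `Q` in the list.
-/
import Mathlib
import Fermat.Agent.S25lib.Curve.ODDiv
import Fermat.Agent.S25lib.Curve.ZChart
import Fermat.Agent.S25lib.Polar.OfPointChart

set_option autoImplicit false

noncomputable section

namespace Fermat.Agent.S25lib.Curve

open AlgebraicGeometry CategoryTheory CategoryTheory.Limits TopologicalSpace
  AlgebraicGeometry.RelPicard NeronModelInfra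
  Fermat.Agent.S26lib Fermat.Agent.S26lib.Weil Fermat.Agent.S26lib.Aff
  Fermat.Agent.S26lib.Quad Fermat.Agent.S25lib.Mod Fermat.Agent.S25lib.Polar

universe u

section General

variable {K : Type u} [Field K] {X : Scheme.{u}} {s : X ⟶ Spec (CommRingCat.of K)}

/-- **the prime ideal of a rational point is the kernel of the evaluation** -/
theorem KPt.mem_primeIdealOf_iff_app_eq_zero (a : Prod.KPt s) {W : X.Opens} (hW : IsAffineOpen W)
    (h : a.pt ∈ W) (f : Γ(X, W)) :
    f ∈ (hW.primeIdealOf ⟨a.pt, h⟩).asIdeal ↔ (a.1.app W).hom f = 0 := by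
  rw [mem_primeIdealOf_iff, ← a.eval_eq_zero_iff]
  have h1 := Scheme.germ_stalkClosedPointTo a.1 W h
  have h2 : a.eval ((X.presheaf.germ W a.pt h).hom f) =
      (((Spec (CommRingCat.of K)).presheaf.mapIso (eqToIso
        (Scheme.preimage_eq_top_of_closedPoint_mem a.1 h).symm).op ≪≫
        Scheme.ΓSpecIso (CommRingCat.of K)).hom).hom ((a.1.app W).hom f) :=
    congrArg (fun φ => φ.hom f) h1
  rw [h2]
  exact (map_eq_zero_iff _ (ConcreteCategory.bijective_of_isIso
    (((Spec (CommRingCat.of K)).presheaf.mapIso (eqToIso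
        (Scheme.preimage_eq_top_of_closedPoint_mem a.1 h).symm).op ≪≫
        Scheme.ΓSpecIso (CommRingCat.of K)).hom)).1)

end General

section Sec

variable {k : Type u} [Field k] {C T : Scheme.{u}} (c : C ⟶ Spec (CommRingCat.of k))
  (t : T ⟶ Spec (CommRingCat.of k)) (ε' : Prod.KPt c) (U : C.Opens)

/-- **the ideal of the constant section** `ε' × T` in `Γ(C ×_k T, U × T)` -/
def secJ : Ideal Γ(pullback c t, ProdAff.box c t U ⊤) :=
  RingHom.ker ((rigSection c t ε').app (ProdAff.box c t U ⊤)).hom

theorem mem_secJ (f : Γ(pullback c t, ProdAff.box c t U ⊤)) :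
    f ∈ secJ c t ε' U ↔ ((rigSection c t ε').app (ProdAff.box c t U ⊤)).hom f = 0 := Iff.rfl

end Sec

section Field

variable {k : Type u} [Field k] {C : Scheme.{u}} (c : C ⟶ Spec (CommRingCat.of k))
  {K : Type u} [Field K] (t : Spec (CommRingCat.of K) ⟶ Spec (CommRingCat.of k))
  (ε' : Prod.KPt c) {U : C.Opens}

theorem ptK_mem_box (h : ε'.pt ∈ U) : (ptK c t ε').pt ∈ ProdAff.box c t U ⊤ := by
  rw [ProdAff.mem_box_iff, fst_ptK_pt]
  exact ⟨h, trivial⟩

/-- over a field, the ideal of the constant section is the prime ideal of the point `ε'_K` -/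
theorem secJ_eq_primeIdealOf (hU : IsAffineOpen U) (h : ε'.pt ∈ U) :
    secJ c t ε' U = ((ProdAff.isAffineOpen_box' c t hU (isAffineOpen_top _)).primeIdealOf
      ⟨(ptK c t ε').pt, ptK_mem_box c t ε' h⟩).asIdeal := by
  ext f
  rw [KPt.mem_primeIdealOf_iff_app_eq_zero]
  rfl

end Field

section Curve

variable {k : Type u} [Field k] [IsAlgClosed k] {C : Scheme.{u}}
  (c : C ⟶ Spec (CommRingCat.of k)) [IsProper c] [SmoothOfRelativeDimension 1 c] [IsIntegral C]
  {K : Type u} [Field K] [IsAlgClosed K] (t : Spec (CommRingCat.of K) ⟶ Spec (CommRingCat.of k))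
  {U : C.Opens}

open Classical in
/-- the ideal of the point `ε'_K` vanishes to order one at `ε'_K` and to order zero elsewhere -/
theorem isOrdAt_secJ (ε' : Prod.KPt c) (hU : IsAffineOpen U) (h : ε'.pt ∈ U) :
    haveI := isIntegral_pullback c t
    haveI := isLocallyNoetherian (pullback.snd c t)
    ∀ (Q : PrimeDiv (pullback c t)) (hQ : Q.1 ∈ ProdAff.box c t U ⊤),
      IsOrdAt (secJ c t ε' U) Q hQ (if Q = PeK c t ε' then 1 else 0) := by
  have := isIntegral_pullback c t
  have := isLocallyNoetherian (pullback.snd c t)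
  intro Q hQ
  have hV : IsAffineOpen (ProdAff.box c t U ⊤) :=
    ProdAff.isAffineOpen_box' c t hU (isAffineOpen_top _)
  rw [secJ_eq_primeIdealOf c t ε' hU h]
  by_cases hQe : Q = PeK c t ε'
  · subst hQe
    rw [if_pos rfl]
    exact isOrdAt_primeIdealOf hV (PeK c t ε') hQ
  · rw [if_neg hQe]
    apply isOrdAt_of_not_le hV Q hQ
    intro hle
    apply hQe
    apply Subtype.ext
    -- `ε'_K` specializes to `Q`
    have h1 : (hV.primeIdealOf ⟨(ptK c t ε').pt, ptK_mem_box c t ε' h⟩) ⤳
        (hV.primeIdealOf ⟨Q.1, hQ⟩) := (PrimeSpectrum.le_iff_specializes _ _).mp hle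
    have h2 := h1.map hV.fromSpec.continuous
    rw [hV.fromSpec_primeIdealOf, hV.fromSpec_primeIdealOf] at h2
    have h3 : Q.1 ∈ ({(ptK c t ε').pt} : Set ↥(pullback c t)) :=
      h2.mem_closed (ptK c t ε').isClosed_pt (Set.mem_singleton _)
    exact h3

open Classical in
/-- **the product of the ideals of a list of rational points** vanishes at `Q` to the order given by
the number of occurrences of `Q` in the list -/
theorem isOrdAt_prod_secJ (hU : IsAffineOpen U) (pts : List (Prod.KPt c))
    (hpts : ∀ ε' ∈ pts, ε'.pt ∈ U) :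
    haveI := isIntegral_pullback c t
    haveI := isLocallyNoetherian (pullback.snd c t)
    ∀ (Q : PrimeDiv (pullback c t)) (hQ : Q.1 ∈ ProdAff.box c t U ⊤),
      IsOrdAt (pts.map fun ε' => secJ c t ε' U).prod Q hQ ((pts.map (PeK c t)).count Q) := by
  have := isIntegral_pullback c t
  have := isLocallyNoetherian (pullback.snd c t)
  intro Q hQ
  induction pts with
  | nil =>
    rw [List.map_nil, List.prod_nil, List.map_nil, List.count_nil, Ideal.one_eq_top]
    exact isOrdAt_top Q hQ
  | cons ε' pts ih =>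
    rw [List.map_cons, List.prod_cons, List.map_cons, List.count_cons]
    have h1 := isOrdAt_secJ c t ε' hU (hpts ε' List.mem_cons_self) Q hQ
    have h2 := ih fun ε'' h => hpts ε'' (List.mem_cons_of_mem _ h)
    have h3 := h1.mul h2
    convert h3 using 1
    by_cases hQe : Q = PeK c t ε'
    · subst hQe
      simp
      ring
    · have hQe' : ¬ PeK c t ε' = Q := fun h => hQe h.symm
      simp [hQe, hQe']

end Curve

end Fermat.Agent.S25lib.Curve
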