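/-
S25lib / Curve / ODPts  (helper8)  --  Project L (S25), (P-Mem): `O(D_J)` for a product of point ideals

On `C_K = C ×_k K` (`K ⊇ k` algebraically closed), for a list `l` of rational points `≠ ε` of `C` (with
point charts, helper7's `PtData`) and `J = ∏_{d ∈ l} secJ d` (the product of the ideals of the points
`d_K` in `Γ(C_K, U₁ × K)`), helper6's bundle `O(D_J)` is the twist of the trivial bundle by the point
cocycles of `l`:

**`nonempty_untwist_ODf_iso_unit`** : `(O(D_J))(-E) ≅ O`, `E = l.map PtData.based`.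

(divisors: `divAt_OD_eq` + `isOrdAt_prod_secJ` on the one side, helper9's
`exists_genericGen_twistByList` on the other, and `exists_iso_of_divAt_eq`.)
-/
import Mathlib
import Fermat.Agent.S25lib.Curve.PtPrime
import Fermat.Agent.S25lib.Sec.ODJ
import Fermat.Agent.S25lib.Polar.TwistList
import Fermat.Agent.S25lib.Polar.IsoOfDiv
import Fermat.Agent.S25lib.Hub.LayerInst

set_option autoImplicit false

noncomputable section

namespace Fermat.Agent.S25lib.Curve

open AlgebraicGeometry CategoryTheory CategoryTheory.Limits TopologicalSpace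
  AlgebraicGeometry.RelPicard NeronModelInfra GoodReductionJacobian
  Fermat.Agent.S26lib Fermat.Agent.S26lib.Weil Fermat.Agent.S26lib.Aff
  Fermat.Agent.S26lib.Quad Fermat.Agent.S25lib.Mod Fermat.Agent.S25lib.Polar
  Fermat.Agent.S25lib.Sec Fermat.Agent.S26lib.ProdAff

universe u

section Unit

variable {k : Type u} [Field k] {C : Scheme.{u}} (c : C ⟶ Spec (CommRingCat.of k))
  (ε : SchemeHomOver (𝟙 (Spec (CommRingCat.of k))) c)

/-- the trivial rigidified bundle -/
def unitRLB {T : Scheme.{u}} (t : T ⟶ Spec (CommRingCat.of k)) : RLB c ε t where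
  L := unitM (pullback c t)
  isInvertible := Scheme.Modules.isInvertible_unit _
  rigidified := ⟨Scheme.Modules.pullbackUnitIso _⟩

end Unit

variable {k : Type u} [Field k] [IsAlgClosed k] {C : Scheme.{u}}
  (c : C ⟶ Spec (CommRingCat.of k)) [IsProper c] [SmoothOfRelativeDimension 1 c] [IsIntegral C]
  (ε : Prod.KPt c)
  {K : Type u} [Field K] [IsAlgClosed K] (t : Spec (CommRingCat.of K) ⟶ Spec (CommRingCat.of k))
  (Z : ZChart ε.pt)

open Classical in
/-- **`O(D_J)(-E) ≅ O`** for `J` the product of the ideals of the points of `E` -/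
theorem nonempty_untwist_ODf_iso_unit (l : List (Hub.PtData c ε))
    {J : Ideal Γ(pullback c t, box c t Z.U₁ ⊤)}
    (hJ : J = (l.map fun d => secJ c t d.pt Z.U₁).prod)
    (hinv : IsInvIdeal J) (F : Adm c t Z J) (he : ∀ y, ε.1 y = ε.pt) :
    Nonempty ((Hub.twistByList (Hub.invList (l.map Hub.PtData.based)) (ODf.rlb hinv F he)).L ≅
      unitM (pullback c t)) := by
  have := isIntegral_pullback c t
  have := isLocallyNoetherian (pullback.snd c t)
  have hreg := hreg (pullback.snd c t)
  -- the generic generator of `O(D_J)`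
  have hε₂ : (ptK c t ε).pt ∈ F.charts.V true := F.mem_V₂ (fst_ptK_pt c t ε)
  have h₂ : genericPoint ↥(pullback c t) ∈ F.charts.V true := genericPoint_mem hε₂
  let G := odGen F.charts J hinv F.unit h₂
  have hN : LocGen (ODf hinv F) := locGen_OD F.charts J hinv F.unit
  -- the points
  set pts : List (Prod.KPt c) := l.map Hub.PtData.pt with hpts
  have hmem : ∀ ε' ∈ pts, ε'.pt ∈ Z.U₁ := by
    intro ε' hε'
    rw [hpts, List.mem_map] at hε'
    obtain ⟨d, -, rfl⟩ := hε'
    exact (Z.mem₁_iff _).mpr fun h => d.ne (Prod.KPt.o k) h.symm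
  have hJ' : J = (pts.map fun ε' => secJ c t ε' Z.U₁).prod := by
    rw [hJ, hpts, List.map_map]
    rfl
  have hG : ∀ Q : PrimeDiv (pullback c t), G.divAt hN Q = (pts.map (PeK c t)).count Q := by
    intro Q
    by_cases hQ : Q.1 ∈ box c t Z.U₁ ⊤
    · have h1 := isOrdAt_prod_secJ c t Z.isAffineOpen₁ pts hmem Q hQ
      rw [← hJ'] at h1
      exact divAt_OD_eq F.charts J hinv F.unit h₂ Q hQ _ h1
    · -- `Q = ε_K`
      have hQε : pullback.fst c t Q.1 = ε.pt := by
        by_contra hne
        exact hQ ⟨(Z.mem₁_iff _).mpr hne, trivial⟩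
      have hQ₂ : Q.1 ∈ F.charts.V true := F.mem_V₂ hQε
      have h1 : G.divAt hN Q = 0 := divAt_OD_true F.charts J hinv F.unit h₂ Q hQ₂
      rw [h1]
      symm
      have h0 : (pts.map (PeK c t)).count Q = 0 := by
        rw [List.count_eq_zero]
        intro hQmem
        rw [List.mem_map] at hQmem
        obtain ⟨ε', hε', rfl⟩ := hQmem
        apply hQ
        exact ptK_mem_box c t ε' (hmem ε' hε')
      exact_mod_cast h0
  -- the trivial bundle and its twist
  let G₁ : GenericGen (unitRLB c ε t).L := ⟨⊤, trivial, oneU ⊤, isGen_oneU ⊤⟩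
  obtain ⟨G', hG'⟩ := exists_genericGen_twistByList c ε t (Hub.forall₂_isPtCocycle l)
    (unitRLB c ε t) G₁
  have hdiv : ∀ P : PrimeDiv (pullback c t),
      G'.divAt (locGen_of_isInvertible
        (Hub.twistByList (l.map Hub.PtData.based) (unitRLB c ε t)).isInvertible) P =
        G.divAt hN P + ordAt P (1 : (pullback c t).functionField) := by
    intro P
    rw [hG' P, hG P, CurvePlace.ordAt_one, add_zero,
      G₁.divAt_eq_zero _ P trivial, zero_add]
  obtain ⟨e, -⟩ := exists_iso_of_divAt_eq hreg G hN G'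
    (locGen_of_isInvertible
      (Hub.twistByList (l.map Hub.PtData.based) (unitRLB c ε t)).isInvertible) 1 one_ne_zero hdiv
  -- untwist
  have h1 : RLB.Iso (ODf.rlb hinv F he)
      (Hub.twistByList (l.map Hub.PtData.based) (unitRLB c ε t)) := ⟨e⟩
  obtain ⟨e1⟩ := Hub.twistByList_congr (Hub.invList (l.map Hub.PtData.based)) h1
  obtain ⟨e2⟩ := Hub.twistByList_invList (l.map Hub.PtData.based) (unitRLB c ε t)
  exact ⟨e1 ≪≫ e2⟩

end Fermat.Agent.S25lib.Curve
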