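/-
S25lib / Curve / SecJBox  (helper8)  --  Project L (S25), (P-Mem): point ideals, algebra vs geometry

`T` affine over `k`, `R = Γ(T, ⊤)`, `A = Γ(C, U₁)`.  A rational point `ε'` of `C` in `U₁` gives the
`R`-valued point `evSec : A →ₐ[k] R` of `Spec A` (the constant section), and under helper6's
`boxEquiv : R ⊗[k] A ≃+* Γ(C ×_k T, U₁ × T)`:

* `boxIdeal_ptIdeal_evSec` : `boxIdeal (ptIdeal evSec) = secJ c t ε' U₁`;
* `boxIdeal_prod` : `boxIdeal` of a product over `Fin n` is the product of the list.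
-/
import Mathlib
import Fermat.Agent.S25lib.Curve.PtPrime
import Fermat.Agent.S25lib.Curve.IdealPoints
import Fermat.Agent.S25lib.Sec.ODI
import Fermat.Agent.S25lib.AffBC.BoxRing

set_option autoImplicit false

noncomputable section

namespace Fermat.Agent.S25lib.Curve

open AlgebraicGeometry CategoryTheory CategoryTheory.Limits TopologicalSpace TensorProduct
  AlgebraicGeometry.RelPicard NeronModelInfra
  Fermat.Agent.S26lib Fermat.Agent.S25lib.Mod Fermat.Agent.S25lib.Sec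
  Fermat.Agent.S26lib.ProdAff Fermat.Agent.S25lib.AffBC Fermat.Agent.S26lib.P5a

universe u

section Sec

variable {k : Type u} [Field k] {C T : Scheme.{u}} (c : C ⟶ Spec (CommRingCat.of k))
  (t : T ⟶ Spec (CommRingCat.of k)) (ε' : Prod.KPt c) (U : C.Opens)

/-- the ideal of the constant section is the kernel of helper4's `σφ` -/
theorem mem_secJ_iff_σφ (hε : ∀ x, ε'.1 x ∈ U) (f : Γ(pullback c t, box c t U ⊤)) :
    f ∈ secJ c t ε' U ↔ σφ c t U ⊤ ε' hε f = 0 := by
  rw [mem_secJ]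
  have hle := le_rigSection_preimage_box c t U ⊤ ε' hε
  have h1 : σφ c t U ⊤ ε' hε f =
      (T.presheaf.map (homOfLE hle).op).hom (((rigSection c t ε').app (box c t U ⊤)).hom f) := rfl
  rw [h1]
  constructor
  · intro h
    rw [h, map_zero]
  · intro h
    have h2 : T.presheaf.map (homOfLE hle).op ≫ T.presheaf.map (homOfLE (le_top :
        rigSection c t ε' ⁻¹ᵁ box c t U ⊤ ≤ ⊤)).op = 𝟙 _ := by
      rw [← Functor.map_comp, ← op_comp]
      exact T.presheaf.map_id _
    have h3 := congrArg (fun φ => φ.hom (((rigSection c t ε').app (box c t U ⊤)).hom f)) h2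
    simp only [CommRingCat.hom_comp, RingHom.coe_comp, Function.comp_apply] at h3
    rw [h, map_zero] at h3
    exact h3.symm

end Sec

section Box

variable {k : Type u} [Field k] {C T : Scheme.{u}} (c : C ⟶ Spec (CommRingCat.of k))
  (t : T ⟶ Spec (CommRingCat.of k)) {e : C} (Z : ZChart e) [IsAffine T]
  [Algebra k Γ(C, Z.U₁)] (hA : algebraMap k Γ(C, Z.U₁) = (constHomOpen c Z.U₁).hom)
  [Algebra k Γ(T, ⊤)] (hR : algebraMap k Γ(T, ⊤) = (constHomOpen t ⊤).hom)
  (ε' : Prod.KPt c) (hε : ∀ x, ε'.1 x ∈ Z.U₁)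

/-- **the constant section as an `R`-valued point of `Spec A`** -/
def evSec : Γ(C, Z.U₁) →ₐ[k] Γ(T, ⊤) where
  toRingHom := ((t ≫ ε'.1).appLE Z.U₁ ⊤ (fun _ _ => hε _)).hom
  commutes' r := by
    have h1 := constHomOpen_appLE t c (t ≫ ε'.1)
      (by rw [Category.assoc, ε'.2, Category.comp_id]) Z.U₁ ⊤ (fun _ _ => hε _)
    have h2 := congrArg (fun φ => φ.hom r) h1
    simp only [CommRingCat.hom_comp, RingHom.coe_comp, Function.comp_apply] at h2
    rw [hA, hR]
    exact h2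

omit [IsAffine T] in
theorem evSec_apply (a : Γ(C, Z.U₁)) :
    evSec c t Z hA hR ε' hε a = ((t ≫ ε'.1).appLE Z.U₁ ⊤ (fun _ _ => hε _)).hom a := rfl

/-- evaluation along the section corresponds to the evaluation at the point -/
theorem σφ_boxEquiv (x : Γ(T, ⊤) ⊗[k] Γ(C, Z.U₁)) :
    σφ c t Z.U₁ ⊤ ε' hε (boxEquiv c t Z hA hR x) = evalPt (evSec c t Z hA hR ε' hε) x := by
  induction x using TensorProduct.induction_on with
  | zero => rw [map_zero, map_zero, map_zero]
  | tmul r a =>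
    rw [boxEquiv_tmul, map_mul, σφ_boxφ, σφ_fstφ, evalPt_tmul, evSec_apply]
  | add x y hx hy => rw [map_add, map_add, map_add, hx, hy]

/-- **the ideal of the constant section, algebraically** -/
theorem boxIdeal_ptIdeal_evSec :
    boxIdeal c t Z hA hR (ptIdeal (evSec c t Z hA hR ε' hε)) = secJ c t ε' Z.U₁ := by
  unfold boxIdeal
  rw [Ideal.map_comap_of_equiv]
  ext f
  rw [Ideal.mem_comap, mem_ptIdeal, mem_secJ_iff_σφ c t ε' Z.U₁ hε, ← σφ_boxEquiv]
  change σφ c t Z.U₁ ⊤ ε' hε ((boxEquiv c t Z hA hR) ((boxEquiv c t Z hA hR).symm f)) = 0 ↔ _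
  rw [(boxEquiv c t Z hA hR).apply_symm_apply f]

/-- `boxIdeal` of a product -/
theorem boxIdeal_prod {n : ℕ} (I : Fin n → Ideal (Γ(T, ⊤) ⊗[k] Γ(C, Z.U₁))) :
    boxIdeal c t Z hA hR (∏ i, I i) = ∏ i, boxIdeal c t Z hA hR (I i) := by
  unfold boxIdeal
  exact map_prod (Ideal.mapHom (boxEquiv c t Z hA hR :
    Γ(T, ⊤) ⊗[k] Γ(C, Z.U₁) →+* Γ(pullback c t, box c t Z.U₁ ⊤))) I Finset.univ

end Box

end Fermat.Agent.S25lib.Curve
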