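/-
S25lib / Curve / SpecHom  (helper8)  --  Project L (S25), (P-Mem): morphisms to `Spec R` over `k`

For a `k`-scheme `t : T ⟶ Spec k` and a `k`-algebra `R`, a `k`-algebra homomorphism
`φ : R →ₐ[k] Γ(T, ⊤)` (helper7's `algTop t`) gives the morphism `homOfAlgHom t R φ : T ⟶ Spec R`
over `k`, and `appTopAlg (homOfAlgHom t R φ) ∘ gammaSpecAlgEquiv R = φ`.
-/
import Mathlib
import Fermat.Agent.S25lib.Hub.HilbPt

set_option autoImplicit false

noncomputable section

namespace Fermat.Agent.S25lib.Curve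

open AlgebraicGeometry CategoryTheory CategoryTheory.Limits TensorProduct
  AlgebraicGeometry.RelPicard NeronModelInfra GoodReductionJacobian
  Fermat.Agent.S26lib Fermat.Agent.S25lib.Hub

universe u

variable {k : Type u} [Field k] {T : Scheme.{u}} (t : T ⟶ Spec (CommRingCat.of k))
  (R : Type u) [CommRing R] [Algebra k R]

/-- the structure map of a `k`-scheme through its global functions -/
theorem toSpecΓ_SpecMap_algebraMap :
    letI := algTop t
    T.toSpecΓ ≫ Spec.map (CommRingCat.ofHom (algebraMap k Γ(T, ⊤))) = t := by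
  let _ := algTop t
  have h1 : CommRingCat.ofHom (algebraMap k Γ(T, ⊤)) =
      (Scheme.ΓSpecIso (CommRingCat.of k)).inv ≫ t.appTop := by
    ext r
    exact algebraMap_algTop t r
  rw [h1, Spec.map_comp, ← Scheme.toSpecΓ_naturality_assoc, toSpecΓ_SpecMap_ΓSpecIso_inv,
    Category.comp_id]

/-- **the morphism `T ⟶ Spec R` over `k` of a `k`-algebra homomorphism `R → Γ(T, ⊤)`** -/
def homOfAlgHom (φ : letI := algTop t; R →ₐ[k] Γ(T, ⊤)) :
    SchemeHomOver t (Spec.map (CommRingCat.ofHom (algebraMap k R))) :=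
  letI := algTop t
  ⟨T.toSpecΓ ≫ Spec.map (CommRingCat.ofHom φ.toRingHom), by
    rw [Category.assoc, ← Spec.map_comp]
    have h1 : CommRingCat.ofHom (algebraMap k R) ≫ CommRingCat.ofHom φ.toRingHom =
        CommRingCat.ofHom (algebraMap k Γ(T, ⊤)) := by
      ext r
      exact φ.commutes r
    rw [h1]
    exact toSpecΓ_SpecMap_algebraMap t⟩

/-- the pullback of functions along `homOfAlgHom t R φ` is `φ` -/
theorem appTopAlg_homOfAlgHom (φ : letI := algTop t; R →ₐ[k] Γ(T, ⊤)) (r : R) :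
    appTopAlg (homOfAlgHom t R φ) (gammaSpecAlgEquiv (k := k) R r) = φ r := by
  let _ := algTop t
  rw [appTopAlg_apply, gammaSpecAlgEquiv_apply]
  show ((Scheme.ΓSpecIso (CommRingCat.of R)).inv ≫
    (T.toSpecΓ ≫ Spec.map (CommRingCat.ofHom φ.toRingHom)).appTop).hom r = φ r
  rw [Scheme.Hom.comp_appTop, Scheme.toSpecΓ_appTop, ← Category.assoc,
    ← Scheme.ΓSpecIso_inv_naturality, Category.assoc, Iso.inv_hom_id, Category.comp_id]
  rfl

theorem appTopAlg_homOfAlgHom_comp (φ : letI := algTop t; R →ₐ[k] Γ(T, ⊤)) :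
    letI := algTop t
    letI := algTop (Spec.map (CommRingCat.ofHom (algebraMap k R)))
    (appTopAlg (homOfAlgHom t R φ)).comp (gammaSpecAlgEquiv (k := k) R).toAlgHom = φ := by
  let _ := algTop t
  let _ := algTop (Spec.map (CommRingCat.ofHom (algebraMap k R)))
  ext r
  exact appTopAlg_homOfAlgHom t R φ r

end Fermat.Agent.S25lib.Curve
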