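/-
S25lib / Curve / MemODI  (helper8)  --  Project L (S25): **the layer field `mem`**

`inP_untwist_of_spull` : for any construction `ODI` of rigidified bundles from points of the Hilbert
functor (helper7's `HPt`) which commutes with base change (`spull`) and which over `Spec k` is
helper6's `O(D_J)` (`hODI`), the untwisted universal bundle `OD β (-E)` is in the cut, for every
configuration `E` of `γ` rational points `≠ ε`.

Proof: the universal family of products of `γ` points (`exists_universal_family`) over the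
geometrically integral base `Spec R`, `R = A^{⊗γ}`; every geometric fibre of `OD β` is a fibre of
this family; the family twisted by `-E` is trivial at the point `E` (`nonempty_untwist_ODf_iso_unit`).
-/
import Mathlib
import Fermat.Agent.S25lib.Curve.MemAlg
import Fermat.Agent.S25lib.Curve.MemFormal
import Fermat.Agent.S25lib.Curve.ODPts
import Fermat.Agent.S25lib.Curve.SecJBox
import Fermat.Agent.S25lib.Curve.SpecHom
import Fermat.Agent.S25lib.AffBC.Pack

set_option autoImplicit false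

noncomputable section

namespace Fermat.Agent.S25lib.Curve

open AlgebraicGeometry CategoryTheory CategoryTheory.Limits TopologicalSpace TensorProduct
  AlgebraicGeometry.RelPicard NeronModelInfra GoodReductionJacobian
  Fermat.Agent.S26lib Fermat.Agent.S25lib.Mod Fermat.Agent.S25lib.Sec
  Fermat.Agent.S26lib.ProdAff Fermat.Agent.S25lib.AffBC Fermat.Agent.S26lib.P5a
  Fermat.Agent.S25lib.Hub

universe u

variable {k : Type u} [Field k] [IsAlgClosed k] {C : Scheme.{u}}
  (c : C ⟶ Spec (CommRingCat.of k)) [IsProper c] [SmoothOfRelativeDimension 1 c] [IsIntegral C]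
  (ε : Prod.KPt c) (T₀ : PointChart c ε.pt)

/-- products over `Fin l.length` and products of lists -/
theorem prod_get_eq_list_prod {α M : Type*} [CommMonoid M] (l : List α) (f : α → M) :
    ∏ j : Fin l.length, f (l.get j) = (l.map f).prod := by
  conv_rhs => rw [← List.ofFn_get l, List.map_ofFn, List.prod_ofFn]
  rfl

omit [IsAlgClosed k] [IsProper c] [SmoothOfRelativeDimension 1 c] [IsIntegral C] in
/-- the points of a configuration lie in `U₁` -/
theorem ptData_mem₁ (d : PtData c ε) (x : Spec (CommRingCat.of k)) : d.pt.1 x ∈ T₀.U₁ := by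
  rw [T₀.mem₁_iff]
  have hx : x = Prod.KPt.o k := Subsingleton.elim _ _
  rw [hx]
  exact fun h => d.ne (Prod.KPt.o k) h.symm

omit [IsAlgClosed k] [IsProper c] [SmoothOfRelativeDimension 1 c] [IsIntegral C] in
/-- the ideal of a configuration of points, algebraically and geometrically -/
theorem boxIdeal_prod_ptIdeal_evSec {T : Scheme.{u}} [IsAffine T]
    (t : T ⟶ Spec (CommRingCat.of k)) (l : List (PtData c ε)) :
    letI : Algebra k Γ(C, T₀.toZChart.U₁) := algOpen c T₀.U₁
    letI := algTop t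
    boxIdeal c t T₀.toZChart rfl rfl (∏ j : Fin l.length,
      ptIdeal (evSec c t T₀.toZChart rfl rfl (l.get j).pt (ptData_mem₁ c ε T₀ (l.get j)))) =
      (l.map fun d => secJ c t d.pt T₀.toZChart.U₁).prod := by
  let _ : Algebra k Γ(C, T₀.toZChart.U₁) := algOpen c T₀.U₁
  let _ := algTop t
  rw [boxIdeal_prod]
  rw [← prod_get_eq_list_prod l (fun d => secJ c t d.pt T₀.toZChart.U₁)]
  exact Finset.prod_congr rfl fun j _ => boxIdeal_ptIdeal_evSec c t T₀.toZChart rfl rfl
    (l.get j).pt (ptData_mem₁ c ε T₀ (l.get j))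

/-- **the layer field `mem`**, for any construction of `O(D_I)` compatible with base change -/
theorem inP_untwist_of_spull {γ : ℕ}
    (ODI : ∀ {T : Scheme.{u}} (_ : IsAffine T) (t : T ⟶ Spec (CommRingCat.of k)),
      HPt c T₀ γ t → RLB c ε t)
    (spull : ∀ {T T' : Scheme.{u}} (hT : IsAffine T) (hT' : IsAffine T')
      {t : T ⟶ Spec (CommRingCat.of k)} {t' : T' ⟶ Spec (CommRingCat.of k)}
      (ψ : SchemeHomOver t' t) (I : HPt c T₀ γ t),
      RLB.Iso ((ODI hT t I).pullbackAlong ψ) (ODI hT' t' (I.push ψ)))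
    (hODI : ∀ (I : HPt c T₀ γ (𝟙 (Spec (CommRingCat.of k)))),
      letI : Algebra k Γ(C, T₀.toZChart.U₁) := algOpen c T₀.U₁
      letI := algTop (𝟙 (Spec (CommRingCat.of k)))
      ∃ (hinv : IsInvIdeal (boxIdeal c (𝟙 _) T₀.toZChart rfl rfl I.1))
        (F : Adm c (𝟙 _) T₀.toZChart (boxIdeal c (𝟙 _) T₀.toZChart rfl rfl I.1))
        (he : ∀ y, ε.1 y = ε.pt),
        RLB.Iso (ODI inferInstance (𝟙 _) I) (ODf.rlb hinv F he))
    (i : EIdx c ε γ) (β : Fin γ → Γ(C, T₀.U₁)) :
    InP (twistByList (invList i.E)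
      (ODI (isAffine_hilbY c T₀ β) (hilby c T₀ β) (univPt c T₀ β))) := by
  obtain ⟨l, hl⟩ := i
  subst hl
  let _ := algOpen c T₀.U₁
  have hft : Algebra.FiniteType k Γ(C, T₀.U₁) := T₀.finiteType₁ c
  obtain ⟨R, _, _, hftR, hgi, 𝓘, h𝓘, hgeo, hpts⟩ := exists_universal_family (k := k)
    (A := Γ(C, T₀.U₁)) (T₀.not_finite₁ c) (fun K _ _ => T₀.isDedekindDomain_tensor₁ c ε K)
    (T₀.geomIntegralAlg₁ c ε) l.length
  -- the universal family of products of points
  set tR : Spec (CommRingCat.of R) ⟶ Spec (CommRingCat.of k) :=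
    Spec.map (CommRingCat.ofHom (algebraMap k R)) with htR
  have hlft : LocallyOfFiniteType tR := locallyOfFiniteType_Spec_of_finiteType k R
  have hgint : GeometricallyIntegral tR := hgi
  let 𝓘' : HPt c T₀ l.length tR := HPt.ofSpec c T₀ R 𝓘 h𝓘
  have hTR : IsAffine (Spec (CommRingCat.of R)) := inferInstance
  have hTk : IsAffine (Spec (CommRingCat.of k)) := inferInstance
  let 𝓜 : RLB c ε tR := ODI hTR tR 𝓘'
  let _ := algTop tR
  -- the point `E` of the base
  let _ := algTop (𝟙 (Spec (CommRingCat.of k)))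
  let _ : Algebra k Γ(C, T₀.toZChart.U₁) := algOpen c T₀.U₁
  obtain ⟨φ₀, hφ₀⟩ := hpts Γ(Spec (CommRingCat.of k), ⊤) (fun j =>
    evSec c (𝟙 _) T₀.toZChart rfl rfl (l.get j).pt (ptData_mem₁ c ε T₀ (l.get j)))
  let t₀ : SchemeHomOver (𝟙 (Spec (CommRingCat.of k))) tR := homOfAlgHom (𝟙 _) R φ₀
  refine inP_twist_of_family (invList (EIdx.E ⟨l, rfl⟩)) _ tR 𝓜 t₀ ?_ ?_
  · -- the trivial fibre
    have h1 := spull hTR hTk t₀ 𝓘'
    obtain ⟨hinv, F, he, h2⟩ := hODI (𝓘'.push t₀)
    have hI₀ : (𝓘'.push t₀).1 = ∏ j : Fin l.length, ptIdeal (evSec c (𝟙 _) T₀.toZChart rfl rfl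
        (l.get j).pt (ptData_mem₁ c ε T₀ (l.get j))) := by
      show Hilb.push k _ (appTopAlg t₀) (Hilb.push k _ (gammaSpecAlgEquiv (k := k) R).toAlgHom 𝓘) = _
      rw [← Hilb.push_comp, appTopAlg_homOfAlgHom_comp]
      exact hφ₀
    have hJ : boxIdeal c (𝟙 _) T₀.toZChart rfl rfl (𝓘'.push t₀).1 =
        (l.map fun d => secJ c (𝟙 _) d.pt T₀.toZChart.U₁).prod := by
      rw [hI₀]
      exact boxIdeal_prod_ptIdeal_evSec c ε T₀ (𝟙 _) l
    obtain ⟨e3⟩ := nonempty_untwist_ODf_iso_unit c ε (𝟙 _) T₀.toZChart l hJ hinv F he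
    obtain ⟨e1⟩ := twistByList_congr (invList (l.map PtData.based)) h1
    obtain ⟨e2⟩ := twistByList_congr (invList (l.map PtData.based)) h2
    exact ⟨e1 ≪≫ e2 ≪≫ e3⟩
  · -- every geometric fibre of `OD β` is a fibre of the family
    intro K _ _ s
    set t' : Spec (CommRingCat.of K) ⟶ Spec (CommRingCat.of k) := s ≫ hilby c T₀ β with ht'
    have hTK : IsAffine (Spec (CommRingCat.of K)) := inferInstance
    let ψ₂ : SchemeHomOver t' (hilby c T₀ β) := ⟨s, rfl⟩
    have h2 := spull (isAffine_hilbY c T₀ β) hTK ψ₂ (univPt c T₀ β)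
    let _ := specTopField K
    have : IsAlgClosed Γ(Spec (CommRingCat.of K), ⊤) := IsAlgClosed.of_ringEquiv K _
      (Scheme.ΓSpecIso (CommRingCat.of K)).symm.commRingCatIsoToRingEquiv
    let _ := algTop t'
    obtain ⟨φ, hφ⟩ := hgeo Γ(Spec (CommRingCat.of K), ⊤) ((univPt c T₀ β).push ψ₂).1
      ((univPt c T₀ β).push ψ₂).2
    let ψ₁ : SchemeHomOver t' tR := homOfAlgHom t' R φ
    have h1 := spull hTR hTK ψ₁ 𝓘'
    have hI : 𝓘'.push ψ₁ = (univPt c T₀ β).push ψ₂ := by
      apply Subtype.ext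
      show Hilb.push k _ (appTopAlg ψ₁)
        (Hilb.push k _ (gammaSpecAlgEquiv (k := k) R).toAlgHom 𝓘) = _
      rw [← Hilb.push_comp, appTopAlg_homOfAlgHom_comp]
      exact hφ
    rw [hI] at h1
    refine ⟨ψ₁.1, ψ₁.2, ?_⟩
    obtain ⟨e1⟩ := h1
    obtain ⟨e2⟩ := h2
    exact ⟨e1 ≪≫ e2.symm⟩

end Fermat.Agent.S25lib.Curve
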