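/-
S25lib / Curve / MemFinal  (helper8)  --  Project L (S25): **the input `hmem` of `Hub/Top2`**

`mem_odi` : for helper7's concrete bundle `Hub.odi` (= helper6's `Sec.ODI`), every configuration `E`
of `γ` rational points `≠ ε` and every frame `β`: the untwisted universal bundle `OD β (-E)` is in
the cut.  (`inP_untwist_of_spull` with `ODI := odi`, `spull := odi_spull`.)
-/
import Mathlib
import Fermat.Agent.S25lib.Curve.MemODI
import Fermat.Agent.S25lib.Hub.CoreInst

set_option autoImplicit false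

noncomputable section

namespace Fermat.Agent.S25lib.Curve

open AlgebraicGeometry CategoryTheory CategoryTheory.Limits TopologicalSpace TensorProduct
  AlgebraicGeometry.RelPicard NeronModelInfra GoodReductionJacobian
  Fermat.Agent.S26lib Fermat.Agent.S25lib.Mod Fermat.Agent.S25lib.Sec
  Fermat.Agent.S25lib.Hub

universe u

variable {k : Type u} [Field k] [IsAlgClosed k] {C : Scheme.{u}}
  (c : C ⟶ Spec (CommRingCat.of k)) [IsProper c] [SmoothOfRelativeDimension 1 c] [IsIntegral C]
  (ε : Prod.KPt c) (T₀ : PointChart' c ε.pt) {γ : ℕ}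

/-- helper7's `odi` is helper6's `O(D_J)` for `J = boxIdeal I` -/
theorem odi_iso_ODf {T : Scheme.{u}} (hT : IsAffine T) (t : T ⟶ Spec (CommRingCat.of k))
    (I : HPt c T₀.toPointChart γ t) :
    letI : Algebra k Γ(C, T₀.toPointChart.toZChart.U₁) := algOpen c T₀.U₁
    letI := algTop t
    ∃ (hinv : IsInvIdeal (boxIdeal c t T₀.toPointChart.toZChart rfl rfl I.1))
      (F : Adm c t T₀.toPointChart.toZChart (boxIdeal c t T₀.toPointChart.toZChart rfl rfl I.1))
      (he : ∀ y, ε.1 y = ε.pt),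
      RLB.Iso (odi c ε T₀ hT t I) (ODf.rlb hinv F he) := by
  let _ : Algebra k Γ(C, T₀.toPointChart.toZChart.U₁) := algOpen c T₀.U₁
  let _ : Algebra k Γ(C, T₀.U₁) := algOpen c T₀.U₁
  let _ := algTop t
  have := I.2.finite
  refine ⟨isInvIdeal_boxIdeal rfl rfl (isInvIdeal_of_hPt c ε T₀ t I), ?_, kpt_base_eq c ε, ?_⟩
  · exact @ODI.adm k _ C T c t ε.pt T₀.toPointChart.toZChart hT (algOpen c T₀.U₁) rfl (algTop t) rfl
      T₀.a T₀.ainv T₀.mul_ainv T₀.ainv_mem I.1 I.2.finite
  · exact ⟨Iso.refl _⟩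

/-- **the layer field `mem`** for the concrete core -/
theorem mem_odi (i : EIdx c ε γ) (β : Fin γ → Γ(C, T₀.U₁)) :
    InP (twistByList (invList i.E)
      (odi c ε T₀ (isAffine_hilbY c T₀.toPointChart β) (hilby c T₀.toPointChart β)
        (univPt c T₀.toPointChart β))) :=
  inP_untwist_of_spull c ε T₀.toPointChart (fun hT t I => odi c ε T₀ hT t I)
    (fun hT hT' _ _ ψ I => odi_spull c ε T₀ hT hT' ψ I)
    (fun I => odi_iso_ODf c ε T₀ inferInstance (𝟙 _) I) i β

end Fermat.Agent.S25lib.Curve
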