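/-
S25lib / Curve / GeomIntegral  (helper8)  --  Project L (S25), curve inputs (CI7)

A proper smooth integral curve `c : C ⟶ Spec k` over `k = k̄` is geometrically integral:
`C ×_k Spec K` is integral for EVERY field `K` (`isIntegral_pullback_field`,
`geometricallyIntegral`), and so is every non-empty open subscheme
(`geometricallyIntegral_opens`).
-/
import Mathlib
import Fermat.Agent.S25lib.Curve.DedekindTensor
import Fermat.Agent.S26lib.Grp.Integral

set_option autoImplicit false

noncomputable section

namespace Fermat.Agent.S25lib.Curve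

open AlgebraicGeometry CategoryTheory CategoryTheory.Limits TopologicalSpace TensorProduct
  Fermat.Agent.S26lib

universe u

variable {k : Type u} [Field k] [IsAlgClosed k] {C : Scheme.{u}}
  (c : C ⟶ Spec (CommRingCat.of k)) [IsProper c] [SmoothOfRelativeDimension 1 c] [IsIntegral C]

/-- the ring of a box `U × Spec K` is a domain, `K` any field -/
theorem isDomain_box {K : Type u} [Field K] (y : Spec (CommRingCat.of K) ⟶ Spec (CommRingCat.of k))
    {U : C.Opens} (hU : IsAffineOpen U) (hη : genericPoint C ∈ U) :
    IsDomain Γ(pullback c y, ProdAff.box c y U ⊤) := by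
  let _ : Algebra k Γ(C, U) := (P5a.constHomOpen c U).hom.toAlgebra
  let _ : Algebra k Γ(Spec (CommRingCat.of K), ⊤) := (P5a.constHomOpen y ⊤).hom.toAlgebra
  have hfield : IsField Γ(Spec (CommRingCat.of K), ⊤) :=
    MulEquiv.isField (Field.toIsField K)
      (Scheme.ΓSpecIso (CommRingCat.of K)).commRingCatIsoToRingEquiv.toMulEquiv
  let _ : Field Γ(Spec (CommRingCat.of K), ⊤) := hfield.toField
  have hD : IsDedekindDomain (Γ(Spec (CommRingCat.of K), ⊤) ⊗[k] Γ(C, U)) :=
    isDedekindDomain_tensor c hU hη Γ(Spec (CommRingCat.of K), ⊤)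
  have e1 : Γ(pullback c y, ProdAff.box c y U ⊤) ≃+*
      Γ(C, U) ⊗[k] Γ(Spec (CommRingCat.of K), ⊤) :=
    ProdAff.tensorEquiv c y hU (isAffineOpen_top _) rfl rfl
  have e2 : Γ(C, U) ⊗[k] Γ(Spec (CommRingCat.of K), ⊤) ≃ₐ[k]
      Γ(Spec (CommRingCat.of K), ⊤) ⊗[k] Γ(C, U) := Algebra.TensorProduct.comm k _ _
  exact (e1.trans e2.toRingEquiv).toMulEquiv.isDomain_iff.mpr inferInstance

omit [IsAlgClosed k] [IsProper c] [SmoothOfRelativeDimension 1 c] [IsIntegral C] in
/-- the local rings at the points of an affine open subscheme whose ring is a domain are domains -/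
theorem isDomain_stalk_of_isAffineOpen {X : Scheme.{u}} {V : X.Opens} (hV : IsAffineOpen V)
    [IsDomain Γ(X, V)] (x : V) : IsDomain (X.presheaf.stalk x.1) := by
  have hloc := hV.isLocalization_stalk x
  exact IsLocalization.isDomain_of_le_nonZeroDivisors _
    (Ideal.primeCompl_le_nonZeroDivisors (hV.primeIdealOf x).asIdeal)

/-- **`C ×_k Spec K` is integral for every field `K`** -/
theorem isIntegral_pullback_field {K : Type u} [Field K]
    (y : Spec (CommRingCat.of K) ⟶ Spec (CommRingCat.of k)) : IsIntegral (pullback c y) := by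
  have hconn : ConnectedSpace ↥(pullback c y) := connectedSpace_pullback c y
  have hlft : LocallyOfFiniteType (pullback.snd c y) := inferInstance
  have hln : IsLocallyNoetherian (pullback c y) :=
    LocallyOfFiniteType.isLocallyNoetherian (pullback.snd c y)
  refine isIntegral_of_connected_of_isDomain_stalk (pullback c y) fun x => ?_
  obtain ⟨U, hU, hxU, -⟩ := exists_isAffineOpen_mem_and_subset (X := C)
    (x := pullback.fst c y x) (U := ⊤) trivial
  have hη : genericPoint C ∈ U :=
    ((genericPoint_spec C).specializes (Set.mem_univ _)).mem_open U.isOpen hxU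
  let _ : Algebra k Γ(C, U) := (P5a.constHomOpen c U).hom.toAlgebra
  let _ : Algebra k Γ(Spec (CommRingCat.of K), ⊤) := (P5a.constHomOpen y ⊤).hom.toAlgebra
  have hV : IsAffineOpen (ProdAff.box c y U ⊤) :=
    ProdAff.isAffineOpen_box c y hU (isAffineOpen_top _) rfl rfl
  have hxV : x ∈ ProdAff.box c y U ⊤ := ⟨hxU, trivial⟩
  have hdom := isDomain_box c y hU hη
  exact isDomain_stalk_of_isAffineOpen hV ⟨x, hxV⟩

/-- **a proper smooth integral curve over an algebraically closed field is geometrically
integral** -/
theorem geometricallyIntegral : GeometricallyIntegral c := by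
  refine ⟨fun K _ y Z fst snd h => ?_⟩
  have := isIntegral_pullback_field c y
  exact IsIntegral.of_isIso h.isoPullback.inv

end Fermat.Agent.S25lib.Curve
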