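/-
S25lib / Curve / Basic  (helper8)  --  Project L (S25), curve inputs (CI1)

A proper integral curve `c : C ⟶ Spec k`, smooth of relative dimension one over `k = k̄`:
* `htr` : its function field has transcendence degree one;
* `hreg` : every point is the generic point or has a discrete valuation ring as local ring;
* the instances needed by `S26lib/{Aff,CurvePlace,CechRR}`.
-/
import Mathlib
import Fermat.Agent.S26lib.P5a.Trdeg
import Fermat.Agent.S26lib.UFD.Corollaries
import Fermat.Agent.S26lib.Curves.Chart
import Fermat.Agent.S26lib.Grp.Nu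

set_option autoImplicit false

noncomputable section

namespace Fermat.Agent.S25lib.Curve

open AlgebraicGeometry CategoryTheory TopologicalSpace Polynomial
  Fermat.Agent.S26lib

universe u

section Algebra

variable {K : Type u} [Field K] {B : Type u} [CommRing B] [IsDomain B] [Algebra K B]
  [Algebra.FiniteType K B] {L : Type u} [Field L] [Algebra K L] [Algebra B L]
  [IsScalarTower K B L] [IsFractionRing B L]

/-- in a finitely generated domain of transcendence degree one every non-zero prime is maximal -/
theorem isMaximal_of_trdeg_eq_one (htr : Algebra.trdeg K L = 1) (p : Ideal B) [hp : p.IsPrime]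
    (hp0 : p ≠ ⊥) : p.IsMaximal := by
  obtain ⟨φ, hinj, hint⟩ := Curves.exists_integral_inj_polynomial (K := K) (B' := B) (L := L) htr
  let _ : Algebra K[X] B := φ.toRingHom.toAlgebra
  have hI : Algebra.IsIntegral K[X] B := ⟨hint⟩
  have hF : FaithfulSMul K[X] B := (faithfulSMul_iff_algebraMap_injective _ _).mpr hinj
  have h1 : p.comap (algebraMap K[X] B) ≠ ⊥ := Ideal.IsIntegral.comap_ne_bot K[X] hp0
  have h2 : (p.comap (algebraMap K[X] B)).IsMaximal := IsPrime.to_maximal_ideal h1
  exact Ideal.isMaximal_of_isIntegral_of_isMaximal_comap p h2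

end Algebra

section Local

/-- a noetherian integrally closed local domain in which the maximal ideal is the only non-zero
prime is a discrete valuation ring -/
theorem isDiscreteValuationRing_of_unique_prime (R : Type*) [CommRing R] [IsDomain R]
    [IsLocalRing R] [IsNoetherianRing R] [IsIntegrallyClosed R] (hnf : ¬ IsField R)
    (h : ∀ P : Ideal R, P.IsPrime → P ≠ ⊥ → P = IsLocalRing.maximalIdeal R) :
    IsDiscreteValuationRing R := by
  have h03 : IsDiscreteValuationRing R ↔
      (IsIntegrallyClosed R ∧ ∃! P : Ideal R, P ≠ ⊥ ∧ P.IsPrime) :=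
    (IsDiscreteValuationRing.TFAE R hnf).out 0 3
  refine h03.mpr ⟨inferInstance, IsLocalRing.maximalIdeal R, ⟨?_, inferInstance⟩,
    fun P hP => h P hP.2 hP.1⟩
  intro h0
  exact hnf (IsLocalRing.isField_iff_maximalIdeal_eq.mpr h0)

end Local

section Scheme

variable {k : Type u} [Field k] [IsAlgClosed k] {C : Scheme.{u}}
  (c : C ⟶ Spec (CommRingCat.of k)) [IsIntegral C]

omit [IsAlgClosed k] in
/-- **the function field of a smooth curve has transcendence degree one** -/
theorem trdeg_functionField [SmoothOfRelativeDimension 1 c] :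
    letI := kAlgebraFF c
    Algebra.trdeg k C.functionField = 1 := by
  have h := P5a.trdeg_functionField_eq c 1
  rw [Nat.cast_one] at h
  exact h

/-- **the local rings of a smooth curve**: every point is the generic point or has a discrete
valuation ring as local ring -/
theorem isDiscreteValuationRing_stalk [Smooth c]
    (htr : letI := kAlgebraFF c; Algebra.trdeg k C.functionField = 1) (x : C) :
    x = genericPoint C ∨ IsDiscreteValuationRing (C.presheaf.stalk x) := by
  by_cases hx : x = genericPoint C
  · exact Or.inl hx
  refine Or.inr ?_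
  have hlft : LocallyOfFiniteType c := inferInstance
  have hln : IsLocallyNoetherian C := LocallyOfFiniteType.isLocallyNoetherian c
  obtain ⟨V, hV, hxV, -⟩ := exists_isAffineOpen_mem_and_subset (X := C) (x := x) (U := ⊤) trivial
  have hne : Nonempty V := ⟨⟨x, hxV⟩⟩
  have hηV : genericPoint C ∈ V :=
    ((genericPoint_spec C).specializes (Set.mem_univ x)).mem_open V.isOpen hxV
  let _ : Algebra k Γ(C, V) := (P5a.constHomOpen c V).hom.toAlgebra
  let _ : Algebra k C.functionField := kAlgebraFF c
  have hT : IsScalarTower k Γ(C, V) C.functionField := by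
    refine .of_algebraMap_eq' ?_
    have := P5a.constHomOpen_germ c V
    exact congrArg (fun φ => φ.hom) this.symm
  have hfr : IsFractionRing Γ(C, V) C.functionField :=
    functionField_isFractionRing_of_isAffineOpen C V hV
  have hft : Algebra.FiniteType k Γ(C, V) := P5a.finiteType_constHomOpen c hV
  have hdom : IsDomain Γ(C, V) := inferInstance
  -- the prime of `x`
  set p := hV.primeIdealOf ⟨x, hxV⟩ with hp
  have hp0 : p.asIdeal ≠ ⊥ := by
    intro h0
    apply hx
    have h1 : hV.primeIdealOf ⟨x, hxV⟩ = hV.primeIdealOf ⟨genericPoint C, hηV⟩ := by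
      rw [hV.primeIdealOf_genericPoint, genericPoint_eq_bot_of_affine]
      exact PrimeSpectrum.ext h0
    have h2 := congrArg hV.fromSpec h1
    rw [hV.fromSpec_primeIdealOf, hV.fromSpec_primeIdealOf] at h2
    exact h2
  have hpmax : p.asIdeal.IsMaximal := isMaximal_of_trdeg_eq_one (K := k) (L := C.functionField)
    htr p.asIdeal hp0
  let _ : Algebra Γ(C, V) (C.presheaf.stalk x) :=
    TopCat.Presheaf.algebra_section_stalk C.presheaf ⟨x, hxV⟩
  have hloc : IsLocalization.AtPrime (C.presheaf.stalk x) p.asIdeal :=
    hV.isLocalization_stalk ⟨x, hxV⟩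
  have hdomR : IsDomain (C.presheaf.stalk x) := inferInstance
  have hnoeth : IsNoetherianRing (C.presheaf.stalk x) := inferInstance
  have hic : IsIntegrallyClosed (C.presheaf.stalk x) := UFD.isIntegrallyClosed_stalk_of_smooth c x
  have hinjR : Function.Injective (algebraMap Γ(C, V) (C.presheaf.stalk x)) :=
    IsLocalization.injective _ (M := p.asIdeal.primeCompl)
      (le_nonZeroDivisors_of_noZeroDivisors fun h => h p.asIdeal.zero_mem)
  have hcomap : (IsLocalRing.maximalIdeal (C.presheaf.stalk x)).comap
      (algebraMap Γ(C, V) (C.presheaf.stalk x)) = p.asIdeal := by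
    rw [← Ideal.under_def]
    exact IsLocalization.AtPrime.under_maximalIdeal (C.presheaf.stalk x) p.asIdeal
  refine isDiscreteValuationRing_of_unique_prime _ ?_ ?_
  · intro hf
    apply hp0
    rw [← hcomap, IsLocalRing.isField_iff_maximalIdeal_eq.mp hf]
    exact Ideal.comap_bot_of_injective _ hinjR
  · intro P hP hP0
    set q := P.comap (algebraMap Γ(C, V) (C.presheaf.stalk x)) with hq
    have hqP : q.map (algebraMap Γ(C, V) (C.presheaf.stalk x)) = P :=
      IsLocalization.map_under p.asIdeal.primeCompl _ P
    have hqprime : q.IsPrime := Ideal.comap_isPrime _ P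
    have hq0 : q ≠ ⊥ := by
      intro h0
      apply hP0
      rw [← hqP, h0, Ideal.map_bot]
    have hqmax : q.IsMaximal := isMaximal_of_trdeg_eq_one (K := k) (L := C.functionField)
      htr q hq0
    have hle : q ≤ p.asIdeal := by
      rw [← hcomap]
      exact Ideal.comap_mono (IsLocalRing.le_maximalIdeal hP.ne_top)
    have hqp : q = p.asIdeal := hqmax.eq_of_le p.2.ne_top hle
    rw [← hqP, hqp]
    exact IsLocalization.AtPrime.map_eq_maximalIdeal p.asIdeal (C.presheaf.stalk x)

end Scheme

end Fermat.Agent.S25lib.Curve
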