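/-
S25lib / Curve / Dedekind  (helper8)  --  Project L (S25), curve inputs (CI5)

* `isDedekindDomain_of_isAffineOpen` : the ring of sections over a non-empty affine open subscheme of
  an integral smooth curve over an algebraically closed field is a Dedekind domain;
* `isDedekindDomain_of_ringEquiv` : transport of the Dedekind property along a ring isomorphism.
-/
import Mathlib
import Fermat.Agent.S25lib.Curve.Basic
import Fermat.Agent.S26lib.P5a.HartogsScheme

set_option autoImplicit false

noncomputable section

namespace Fermat.Agent.S25lib.Curve

open AlgebraicGeometry CategoryTheory TopologicalSpace Polynomial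
  Fermat.Agent.S26lib

universe u

/-- the Dedekind property is invariant under ring isomorphisms -/
theorem isDedekindDomain_of_ringEquiv {A B : Type*} [CommRing A] [CommRing B] (e : A ≃+* B)
    [IsDedekindDomain A] : IsDedekindDomain B := by
  have hdom : IsDomain B := e.toMulEquiv.isDomain_iff.mp inferInstance
  have hnoeth : IsNoetherianRing B := isNoetherianRing_of_ringEquiv A e
  have hclosed : IsIntegrallyClosed B := IsIntegrallyClosed.of_equiv e
  have hdim : Ring.DimensionLEOne B := by
    refine ⟨fun {p} hp0 hp => ?_⟩
    have h1 : (p.comap (e : A →+* B)).IsPrime := Ideal.comap_isPrime _ p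
    have h2 : p.comap (e : A →+* B) ≠ ⊥ := by
      intro h0
      apply hp0
      rw [eq_bot_iff]
      intro x hx
      have : e.symm x ∈ p.comap (e : A →+* B) := by
        rw [Ideal.mem_comap]
        simpa using hx
      rw [h0, Ideal.mem_bot] at this
      rw [Ideal.mem_bot, ← e.apply_symm_apply x, this, map_zero]
    have h3 : (p.comap (e : A →+* B)).IsMaximal := Ring.DimensionLEOne.maximalOfPrime h2 h1
    have h4 : p = (p.comap (e : A →+* B)).comap (e.symm : B →+* A) := by
      ext x
      rw [Ideal.mem_comap, Ideal.mem_comap]
      show x ∈ p ↔ e (e.symm x) ∈ p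
      rw [e.apply_symm_apply]
    rw [h4]
    exact Ideal.comap_isMaximal_of_surjective _ e.symm.surjective
  exact { toIsDomain := hdom
          toIsNoetherian := hnoeth
          toDimensionLEOne := hdim
          toIsIntegralClosure := hclosed }

section Curve

variable {k : Type u} [Field k] [IsAlgClosed k] {C : Scheme.{u}} [IsIntegral C]
  (c : C ⟶ Spec (CommRingCat.of k))

/-- **the ring of sections over a non-empty affine open subscheme of a smooth curve is a Dedekind
domain** -/
theorem isDedekindDomain_of_isAffineOpen [Smooth c]
    (htr : letI := kAlgebraFF c; Algebra.trdeg k C.functionField = 1)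
    {V : C.Opens} (hV : IsAffineOpen V) [Nonempty V] : IsDedekindDomain Γ(C, V) := by
  have hlft : LocallyOfFiniteType c := inferInstance
  let _ : Algebra k Γ(C, V) := (P5a.constHomOpen c V).hom.toAlgebra
  let _ : Algebra k C.functionField := kAlgebraFF c
  have hT : IsScalarTower k Γ(C, V) C.functionField := by
    refine .of_algebraMap_eq' ?_
    have := P5a.constHomOpen_germ c V
    exact congrArg (fun φ => φ.hom) this.symm
  have hfr : IsFractionRing Γ(C, V) C.functionField :=
    functionField_isFractionRing_of_isAffineOpen C V hV
  have hft : Algebra.FiniteType k Γ(C, V) := P5a.finiteType_constHomOpen c hV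
  have hdom : IsDomain Γ(C, V) := inferInstance
  have hnoeth : IsNoetherianRing Γ(C, V) := Algebra.FiniteType.isNoetherianRing k Γ(C, V)
  have hclosed : IsIntegrallyClosed Γ(C, V) :=
    P5a.isIntegrallyClosed_of_stalks (fun x => UFD.isIntegrallyClosed_stalk_of_smooth c x) hV
  have hdim : Ring.DimensionLEOne Γ(C, V) :=
    ⟨fun {p} hp0 hp => isMaximal_of_trdeg_eq_one (K := k) (L := C.functionField) htr p hp0⟩
  exact { toIsDomain := hdom
          toIsNoetherian := hnoeth
          toDimensionLEOne := hdim
          toIsIntegralClosure := hclosed }

end Curve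

end Fermat.Agent.S25lib.Curve
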